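/-
GATE-E / RISK-3 DESIDE, base-stage twins (helper10; RULING A11.2): **`p`-new ⟹ strictly ordinary
at `p` WITHOUT the side condition `hside : p = 3 → 2 ∣ N`, in hypothesis form over the statement of
`GB/B10/Pack.hpack_levelData` with `hside` deleted** (`HpackNoSideStmt`).

`hside` enters `GB/B10/{Pack,Consumer}` only through `Pack.hpack_levelData` (the connected package on
the concrete Kummer level data, `ConnM0.connPackage_M0tors_all`); everything above it merely threads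
the binder.  The twins below are the SAME proofs with `hpack_levelData … hside …` replaced by the
hypothesis `hpack : HpackNoSideStmt`.

* `HpackNoSideStmt` : the statement of `Pack.hpack_levelData` minus `hside`;
* `hpackNoSide_of_side` : sanity check of the shape (under the side condition it is the landed lemma);
* `isStrictOrdinaryAt_of_killer_noSide`, `isStrictOrdinaryAt_of_killer_level_noSide`,
  `isStrictOrdinaryAt_of_not_resMod_level_noSide` : twins of `Pack.isStrictOrdinaryAt_of_killer`,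
  `Consumer.isStrictOrdinaryAt_of_killer_level`, `Consumer.isStrictOrdinaryAt_of_not_resMod_level`.
-/
import Fermat.Agent.GB.B10.Consumer

set_option autoImplicit false
set_option linter.unusedSectionVars false
set_option linter.unusedVariables false

namespace Fermat.Agent.GE8.Deside.PackOdd

open CuspForm IsLocalRing
open Fermat.Agent.Common_helper32 Fermat.Agent.GJ.Tate Fermat.Agent.GS.Alg.Transfer
open Fermat.Agent.GK.AL Fermat.Agent.GK.New Fermat.Agent.GK.UqKronecker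
open Fermat.Agent.GB.B10.KumLevelHecke Fermat.Agent.GB.B10.ConnM0

local notation "Qb" => AlgebraicClosure ℚ
local notation "GQ" => (AlgebraicClosure ℚ ≃ₐ[ℚ] AlgebraicClosure ℚ)

/-- **the statement of `GB/B10/Pack.hpack_levelData` without `hside`**: the connected package on the
concrete Kummer level data of level `N' * p`, `p ∥ N' * p`, `p` odd, together with the Frobenius
square relation on the image of an old-killer. -/
def HpackNoSideStmt : Prop :=
  ∀ {N' p : ℕ} [NeZero N'] [Fact p.Prime] {S : Finset ℕ}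
    (_hp2 : p ≠ 2) (_h : ExactDvd p (N' * p))
    (hpS : p ∈ S) (hNS : ∀ r : ℕ, r.Prime → r ∣ N' * p → r ∈ S)
    (hN'S : ∀ r : ℕ, r.Prime → r ∣ N' → r ∈ S)
    (P : MvPolynomial (PrimeIdx S) ℤ)
    (_hP : MvPolynomial.aeval (TfamH (N' := N') (S := S) hN'S) P = 0)
    (A : ValuationSubring Qb) (_hA : A.LiesOverPrime p) (n : ℕ),
    ∃ W : AddSubgroup ((levelData p (N' * p) hpS hNS).K n),
      ConnPackage (↑(A.inertiaSubgroupIn ℚ) : Set GQ) (↑(A.decompositionSubgroup ℚ) : Set GQ)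
        (fun (σ : GQ) (x : (levelData p (N' * p) hpS hNS).K n) =>
          (levelData p (N' * p) hpS hNS).gal n σ x) W ∧
      ∀ τ ∈ {τ : GQ | A.IsFrobeniusAt τ p}, ∀ x : (levelData p (N' * p) hpS hNS).K n,
        (levelData p (N' * p) hpS hNS).gal n τ ((levelData p (N' * p) hpS hNS).gal n τ
            ((levelData p (N' * p) hpS hNS).heckeHom n (MvPolynomial.aeval (TfamH hNS) P) x))
          - (levelData p (N' * p) hpS hNS).heckeHom n (MvPolynomial.aeval (TfamH hNS) P) x ∈ W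

/-- sanity check of the shape: under the side condition the instance is the landed lemma. -/
theorem hpackNoSide_of_side {N' p : ℕ} [NeZero N'] [Fact p.Prime] {S : Finset ℕ}
    (hp2 : p ≠ 2) (h : ExactDvd p (N' * p)) (hside : p = 3 → 2 ∣ N' * p)
    (hpS : p ∈ S) (hNS : ∀ r : ℕ, r.Prime → r ∣ N' * p → r ∈ S)
    (hN'S : ∀ r : ℕ, r.Prime → r ∣ N' → r ∈ S)
    (P : MvPolynomial (PrimeIdx S) ℤ)
    (hP : MvPolynomial.aeval (TfamH (N' := N') (S := S) hN'S) P = 0)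
    (A : ValuationSubring Qb) (hA : A.LiesOverPrime p) (n : ℕ) :
    ∃ W : AddSubgroup ((levelData p (N' * p) hpS hNS).K n),
      ConnPackage (↑(A.inertiaSubgroupIn ℚ) : Set GQ) (↑(A.decompositionSubgroup ℚ) : Set GQ)
        (fun (σ : GQ) (x : (levelData p (N' * p) hpS hNS).K n) =>
          (levelData p (N' * p) hpS hNS).gal n σ x) W ∧
      ∀ τ ∈ {τ : GQ | A.IsFrobeniusAt τ p}, ∀ x : (levelData p (N' * p) hpS hNS).K n,
        (levelData p (N' * p) hpS hNS).gal n τ ((levelData p (N' * p) hpS hNS).gal n τ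
            ((levelData p (N' * p) hpS hNS).heckeHom n (MvPolynomial.aeval (TfamH hNS) P) x))
          - (levelData p (N' * p) hpS hNS).heckeHom n (MvPolynomial.aeval (TfamH hNS) P) x ∈ W :=
  Fermat.Agent.GB.B10.Pack.hpack_levelData hp2 h hside hpS hNS hN'S P hP A hA n

section Top

variable {N' p : ℕ} [NeZero N'] [Fact p.Prime] {S : Finset ℕ}
  {𝒪 : Type} [CommRing 𝒪] [IsDomain 𝒪] [IsDiscreteValuationRing 𝒪]
  [IsAdicComplete (IsLocalRing.maximalIdeal 𝒪) 𝒪]
  {θ : CuspForm.heckeAlgebra (N' * p) 2 (↑S : Set ℕ) →+* IsLocalRing.ResidueField 𝒪}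
  {T : Type} [CommRing T] [IsLocalRing T] [IsNoetherianRing T]
  [IsAdicComplete (IsLocalRing.maximalIdeal T) T] [Algebra 𝒪 T] [IsLocalHom (algebraMap 𝒪 T)]
  [Module.Finite 𝒪 T] [Module.Free 𝒪 T]

/-- **B10' (`p`-new ⟹ strictly ordinary) WITHOUT `hside`**, `hord` as a hypothesis: twin of
`GB/B10/Pack.isStrictOrdinaryAt_of_killer`. -/
theorem isStrictOrdinaryAt_of_killer_noSide (hpack : HpackNoSideStmt)
    [Finite (IsLocalRing.ResidueField 𝒪)] [CharZero 𝒪]
    (hp2 : p ≠ 2) (hp𝒪 : (p : 𝒪) ∈ maximalIdeal 𝒪)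
    (h : ExactDvd p (N' * p))
    (hNS : ∀ r : ℕ, r.Prime → r ∣ N' * p → r ∈ S) (hN'S : ∀ r : ℕ, r.Prime → r ∣ N' → r ∈ S)
    (H : CuspForm.HeckeGaloisRepDatum (N' * p) (↑S : Set ℕ) 𝒪 θ T)
    (hord : H.ρ.IsOrdinaryAt p)
    (P : MvPolynomial (PrimeIdx S) ℤ)
    (hP : MvPolynomial.aeval (TfamH (N' := N') (S := S) hN'S) P = 0)
    (hPu : IsUnit (H.π (MvPolynomial.aeval (TfamH hNS) P))) :
    H.ρ.IsStrictOrdinaryAt p := by
  have hp : p.Prime := Fact.out
  have hpS : p ∈ S := hNS p hp (dvd_mul_left p N')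
  exact Fermat.Agent.GB.B10.Top.isStrictOrdinaryAt_of_pack (levelData p (N' * p) hpS hNS)
    (levelData_comm p (N' * p) hpS hNS) hp hp2 hp𝒪 hpS hNS H
    (Fermat.Agent.GS.DetCyc.detIsCyclotomic hp hp𝒪 hpS H) hord
    (MvPolynomial.aeval (TfamH hNS) P) hPu
    (fun A hA n => hpack hp2 h hpS hNS hN'S P hP A hA n)

end Top

section Level

variable {N N' p : ℕ} [NeZero N] [NeZero N'] [Fact p.Prime] {S : Finset ℕ}
  {𝒪 : Type} [CommRing 𝒪] [IsDomain 𝒪] [IsDiscreteValuationRing 𝒪]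
  [IsAdicComplete (IsLocalRing.maximalIdeal 𝒪) 𝒪]
  {θ : CuspForm.heckeAlgebra N 2 (↑S : Set ℕ) →+* IsLocalRing.ResidueField 𝒪}
  {T : Type} [CommRing T] [IsLocalRing T] [IsNoetherianRing T]
  [IsAdicComplete (IsLocalRing.maximalIdeal T) T] [Algebra 𝒪 T] [IsLocalHom (algebraMap 𝒪 T)]
  [Module.Finite 𝒪 T] [Module.Free 𝒪 T]

/-- twin of `GB/B10/Consumer.isStrictOrdinaryAt_of_killer_level` without `hside`. -/
theorem isStrictOrdinaryAt_of_killer_level_noSide (hpack : HpackNoSideStmt)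
    [Finite (IsLocalRing.ResidueField 𝒪)] [CharZero 𝒪]
    (hN : N = N' * p) (hpN' : ¬ p ∣ N') (hp2 : p ≠ 2) (hp𝒪 : (p : 𝒪) ∈ maximalIdeal 𝒪)
    (hNS : ∀ r : ℕ, r.Prime → r ∣ N → r ∈ S) (hN'S : ∀ r : ℕ, r.Prime → r ∣ N' → r ∈ S)
    (H : CuspForm.HeckeGaloisRepDatum N (↑S : Set ℕ) 𝒪 θ T)
    (hord : H.ρ.IsOrdinaryAt p)
    (P : MvPolynomial (PrimeIdx S) ℤ)
    (hP : MvPolynomial.aeval (TfamH (N' := N') (S := S) hN'S) P = 0)
    (hPθ : θ (MvPolynomial.aeval (TfamH hNS) P) ≠ 0) :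
    H.ρ.IsStrictOrdinaryAt p := by
  subst hN
  exact isStrictOrdinaryAt_of_killer_noSide hpack hp2 hp𝒪
    (Fermat.Agent.GB.B10.Consumer.exactDvd_mul_self hpN') hNS hN'S H hord P hP
    (Fermat.Agent.GB.B10.Consumer.isUnit_pi_of_theta_ne_zero H hPθ)

/-- **B10' for the eigensystem of a curve WITHOUT `hside`**: twin of
`GB/B10/Consumer.isStrictOrdinaryAt_of_not_resMod_level`. -/
theorem isStrictOrdinaryAt_of_not_resMod_level_noSide (hpack : HpackNoSideStmt)
    [Finite (IsLocalRing.ResidueField 𝒪)] [CharZero 𝒪]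
    (W : WeierstrassCurve ℤ) (hΔ : W.Δ ≠ 0)
    (hN : N = N' * p) (hpN' : ¬ p ∣ N') (hp2 : p ≠ 2) (hp𝒪 : (p : 𝒪) ∈ maximalIdeal 𝒪)
    (hNS : ∀ r : ℕ, r.Prime → r ∣ N → r ∈ S)
    (H : CuspForm.HeckeGaloisRepDatum N (↑S : Set ℕ) 𝒪 θ T)
    (hθ : ∀ (ℓ : ℕ) (hℓ : ℓ.Prime) (hℓN : ¬ ℓ ∣ N) (hℓS : ℓ ∉ (↑S : Set ℕ)),
      θ (heckeAlgebra.T hℓ hℓN hℓS) = ((W.apOfModel ℓ : ℤ) : IsLocalRing.ResidueField 𝒪))
    (hno : ¬ W.IsResiduallyModularOfLevel p N')
    (hord : H.ρ.IsOrdinaryAt p) :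
    H.ρ.IsStrictOrdinaryAt p := by
  have hp : p.Prime := Fact.out
  have hN'S : ∀ r : ℕ, r.Prime → r ∣ N' → r ∈ S := fun r hr hd =>
    hNS r hr (hN ▸ Dvd.dvd.mul_right hd p)
  obtain ⟨P, hP, hPθ⟩ :=
    Fermat.Agent.GB.B10.KillerPlug.exists_killer_of_not_resMod (S := S) W hΔ hp hN'S hno
  have h1 := hPθ N hNS (IsLocalRing.ResidueField 𝒪) θ
    (Fermat.Agent.GB.B10.Consumer.natCast_residueField_eq_zero hp𝒪) hθ
  refine isStrictOrdinaryAt_of_killer_level_noSide hpack hN hpN' hp2 hp𝒪 hNS hN'S H hord P hP ?_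
  rw [h1]
  exact one_ne_zero

end Level

end Fermat.Agent.GE8.Deside.PackOdd
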