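/-
GATE-E / RISK-3 DESIDE, base-stage twins (helper10; RULING A11.2): **the `Σ = ∅` stage of the
strict-ordinary (`p`-new) branch WITHOUT the side condition `hside : p = 3 → 2 ∣ M`.**

Twins of `GE8/MinDatum/PNew` (`hstrict_of_not_resMod`, `exists_datum_SO_pnew`,
`exists_minDatum_SO_pnew`), `GE8/MinDatum/Hbar3` (`hbar_SO_side`, `hbar_condSO_side`) and
`GE/Engine/Base.exists_base_SO`:

* the datum side is in hypothesis form over `PackOdd.HpackNoSideStmt` (the statement of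
  `GB/B10/Pack.hpack_levelData` with `hside` deleted);
* the residual side needs NO hypothesis: `ρ̄_{W,p} ⊗ k` is strictly ordinary at a prime of
  multiplicative reduction by the Tate curve (helper33 `GE7/DictW/ResStrictW`), so `hordbar`, `hno`
  and `hside` all disappear from `hbar`.
-/
import Mathlib
import Fermat.Agent.GE8.Deside.PackOdd
import Fermat.Agent.GE7.DictW.ResStrictW
import Fermat.Agent.GE.Engine.Base
import Fermat.Agent.GE8.MinDatum.Hbar3

set_option autoImplicit false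
set_option linter.unusedSectionVars false
set_option linter.unusedVariables false
set_option linter.style.haveILetI false

open WeierstrassCurve WeierstrassCurve.Affine.Point IsLocalRing CuspForm Polynomial
open scoped WeierstrassCurve.Affine

namespace Fermat.Agent.GE8.Deside.BaseOdd

open Fermat.Agent.GB.Setup.RhoBar Fermat.Agent.GB.Setup.SetupPkg
  Fermat.Agent.GB.B4.Datum.Carrier Fermat.Agent.GB.B4.Datum.HeckeCarrier
  Fermat.Agent.GE.Graph Fermat.Agent.GE9.Ind Fermat.Agent.GE9.NumCrit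
  Fermat.Agent.GE9.NumCrit.ModForm Fermat.Agent.GE9.Asm
  Fermat.Agent.GE8.MinDatum Fermat.Agent.GE.Engine Fermat.Agent.GE8.Deside.PackOdd

variable {p : ℕ} [Fact p.Prime] {W : WeierstrassCurve ℤ}
  {hcard₁ : Nat.card (Submodule.torsionBy ℤ
    ((W.map (Int.castRingHom ℚ))⁄(AlgebraicClosure ℚ)).Point p) = p ^ 2}
  {hker : GaloisFactorsThroughFiniteLevel
    (galoisRepModuleEnd (K := AlgebraicClosure ℚ) ℚ (W.map (Int.castRingHom ℚ)) p)}
  {M A : ℕ} (P : Pkg p W hcard₁ hker M A)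

/-! ### the datum side (twins of `GE8/MinDatum/PNew`) -/

/-- the `hstrict` binder of `exists_datum_SO` in the `p`-new situation, WITHOUT `hside`. -/
theorem hstrict_of_not_resMod_noSide (hpack : HpackNoSideStmt) [NeZero M] (hpM : p ∣ M)
    (hpM' : ¬ p ∣ M / p) (hno : ¬ W.IsResiduallyModularOfLevel p (M / p)) :
    ∀ H : HeckeGaloisRepDatum M (↑P.S0 : Set ℕ) P.O P.theta (Tloc P.O P.theta),
      H.π = piT P.O P.theta → H.ρ.IsOrdinaryAt p → H.ρ.IsStrictOrdinaryAt p := by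
  intro H _ hord
  have hp : p.Prime := Fact.out
  have : NeZero (M / p) := ⟨(Nat.div_ne_zero_iff_of_dvd hpM).mpr ⟨P.hM, hp.ne_zero⟩⟩
  exact isStrictOrdinaryAt_of_not_resMod_level_noSide hpack (N := M)
    (N' := M / p) W P.hΔ (Nat.div_mul_cancel hpM).symm hpM' P.hp2 P.hpO (hNS0 P) H
    (fun ℓ hℓ hℓM hℓS => P.theta_T hℓ hℓM hℓS) hno hord

/-- **E8.7, strict-ordinary case, `p`-new, any level, WITHOUT `hside`.** -/
theorem exists_datum_SO_pnew_noSide (hpack : HpackNoSideStmt) [NeZero M] (hpM : p ∣ M)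
    (hpM' : ¬ p ∣ M / p) (hexact : ∀ q ∈ P.Smin, q ≠ p → ¬ q ^ 2 ∣ M)
    (T : Finset ℕ) (hpT : p ∈ T) (hMT : ∀ q : ℕ, q.Prime → q ∣ M → q ∈ T)
    (hordbar : (GaloisRepAdic.ofResidualGaloisRep (rb p W hcard₁ hker)).IsOrdinaryAt p)
    (hno : ¬ W.IsResiduallyModularOfLevel p (M / p)) :
    ∃ H : HeckeGaloisRepDatum M (↑P.S0 : Set ℕ) P.O P.theta (Tloc P.O P.theta),
      H.π = piT P.O P.theta ∧ CondSO P T H.ρ ∧
      H.ρ.residual.IsEquiv
        (P.rhobar.baseChangeAlong (ResidueField.map (algebraMap P.O (Tloc P.O P.theta)))) :=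
  exists_datum_SO P hpM (not_sq_dvd_of_not_dvd_div hpM hpM') hexact T hpT hMT hordbar
    (hstrict_of_not_resMod_noSide P hpack hpM hpM' hno)

/-- **E8.7 MINDATUM, strict-ordinary case, `p`-new, WITHOUT `hside`**: `M` squarefree, minimal. -/
theorem exists_minDatum_SO_pnew_noSide (hpack : HpackNoSideStmt) [NeZero M] (hpM : p ∣ M)
    (hsq : Squarefree M) (hSu : P.Su = ∅)
    (hordbar : (GaloisRepAdic.ofResidualGaloisRep (rb p W hcard₁ hker)).IsOrdinaryAt p)
    (hno : ¬ W.IsResiduallyModularOfLevel p (M / p)) :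
    ∃ H : HeckeGaloisRepDatum M (↑P.S0 : Set ℕ) P.O P.theta (Tloc P.O P.theta),
      H.π = piT P.O P.theta ∧ CondSO P P.Smin H.ρ ∧
      H.ρ.residual.IsEquiv
        (P.rhobar.baseChangeAlong (ResidueField.map (algebraMap P.O (Tloc P.O P.theta)))) :=
  exists_minDatum_SO P hpM hsq hSu hordbar
    (hstrict_of_not_resMod_noSide P hpack hpM (not_dvd_div_of_squarefree hpM hsq) hno)

/-! ### the residual side (twins of `GE8/MinDatum/Hbar3`, no hypothesis at all) -/

/-- `P.rhobar` is strictly ordinary at a prime of multiplicative reduction (Tate curve). -/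
theorem rhobar_isStrictOrdinaryAt_of_mult (hss : W.IsSemistableModel) (hmult : (p : ℤ) ∣ W.Δ) :
    (GaloisRepAdic.ofResidualGaloisRep P.rhobar).IsStrictOrdinaryAt p :=
  Fermat.Agent.GE7.DictW.ResStrictW.rb_baseChange_isStrictOrdinaryAt_of_mult hcard₁ hker P.hΔ hss
    hmult P.k

/-- `hordbar` from multiplicative reduction. -/
theorem hordbar_of_mult (hΔ : W.Δ ≠ 0) (hss : W.IsSemistableModel) (hmult : (p : ℤ) ∣ W.Δ) :
    (GaloisRepAdic.ofResidualGaloisRep (rb p W hcard₁ hker)).IsOrdinaryAt p :=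
  Fermat.Agent.GE7.DictW.ResStrictW.rb_isOrdinaryAt_of_mult hcard₁ hker hΔ hss hmult

/-- **the residual type, strict-ordinary case, WITHOUT side condition** (twin of
`Hbar3.hbar_SO_side`). -/
theorem hbar_SO_noSide (hss : W.IsSemistableModel) (hmult : (p : ℤ) ∣ W.Δ) (hsq : Squarefree M)
    (T : Finset ℕ) (hT : P.Smin ⊆ T) :
    CondSO P T (GaloisRepAdic.ofResidualGaloisRep P.rhobar) := by
  refine ⟨⟨P.hdet, rhobar_isStrictOrdinaryAt_of_mult P hss hmult, fun q hq hqT => ?_⟩,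
    Fermat.Agent.GB.B9.RhobarCond.hunip_pkg P hsq⟩
  have hqS : q ∉ P.Smin := fun h => hqT (hT h)
  have hqp : q ≠ p := fun h => hqS (h ▸ P.p_mem_Smin)
  have hur : P.rhobar.IsUnramifiedAt q := by
    by_contra hram
    exact hqS ((P.hmin q hq hqp).2 hram)
  exact hur

/-- `hbar` of `GE6/DefRing` in the strict-ordinary branch WITHOUT side condition, any `Σ = Sig`
(twin of `Hbar3.hbar_condSO_side`). -/
theorem hbar_condSO_noSide (hss : W.IsSemistableModel) (hmult : (p : ℤ) ∣ W.Δ)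
    (hsq : Squarefree M) (Sig : Finset ℕ) :
    condSO P.O p P.Smin Sig (GaloisRepAdic.ofResidualGaloisRep P.rhobar) :=
  (condSO_iff P Sig _).mpr
    (hbar_SO_noSide P hss hmult hsq (P.Smin ∪ Sig) Finset.subset_union_left)

/-! ### the base stage (twin of `GE/Engine/Base.exists_base_SO`) -/

/-- **(A), strict-ordinary case, `p`-new, WITHOUT `hside`, `hordbar`, `hbar`** (`p ∥ M`, `W`
multiplicative at `p` and NOT residually modular of level `M / p`): the base stage of the engine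
at a minimal level. -/
theorem exists_base_SO_noSide (hpack : HpackNoSideStmt) [NeZero M]
    (hss : W.IsSemistableModel) (hmult : (p : ℤ) ∣ W.Δ)
    (hpM : p ∣ M) (hsq : Squarefree M) (hSu : P.Su = ∅)
    (hno : ¬ W.IsResiduallyModularOfLevel p (M / p))
    (χ : heckeAlgebra M 2 (↑P.S0 : Set ℕ) →+* P.O)
    (hχ : ∀ t : heckeAlgebra M 2 (↑P.S0 : Set ℕ), residue P.O (χ t) = P.theta t)
    (Sig₀ : Finset ℕ) (hSig₀ : ∀ q : ℕ, q ∈ Sig₀ ↔ q.Prime ∧ (q : ℤ) ∣ W.Δ ∧ q ∉ P.Smin)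
    (lev wf : Finset ℕ → ℕ) (hlev : lev ∅ = M) {d : ℕ}
    (hin : ∀ (D : GaloisRep.DeformationRingData P.O P.rhobar (condSO P.O p P.Smin ∅))
      (H : HeckeGaloisRepDatum M (↑P.S0 : Set ℕ) P.O P.theta (Tloc P.O P.theta))
      (hπ : H.π = piT P.O P.theta)
      (φ : D.R →ₐ[P.O] Tloc P.O P.theta) (hφ : Function.Surjective φ)
      (hloc : IsLocalHom (φ : D.R →+* Tloc P.O P.theta))
      (hρ : (D.ρ.baseChangeAlong (φ : D.R →+* Tloc P.O P.theta) hloc).IsEquiv H.ρ)
      (πO : Tloc P.O P.theta →ₐ[P.O] P.O)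
      (hπO : ∀ t : heckeAlgebra M 2 (↑P.S0 : Set ℕ), πO (piT P.O P.theta t) = χ t),
      ∃ I : BaseInput p D φ πO d,
        Nat.card (Fermat.Agent.GE9.Eta.CongMod I.B (Submodule.span P.O (Set.range I.b))) =
          wf ∅) :
    ∃ Y₀ : RTNum P.rhobar (condSO P.O p P.Smin ∅) d,
      LevelOK' p P.Smin Sig₀ ∅ Y₀.rt.N Y₀.rt.S ∧
        EngInv (↑P.S0 : Set ℕ) lev wf (lamOf χ) ∅ Y₀.rt.N Y₀.rt.S (pointChar Y₀) Y₀.w := by
  -- the datum of type `𝒟^{so}_∅`
  obtain ⟨H, hπ, hc, hres⟩ :=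
    exists_minDatum_SO_pnew_noSide P hpack hpM hsq hSu (hordbar_of_mult P.hΔ hss hmult) hno
  have h𝒟 : condSO P.O p P.Smin ∅ H.ρ := by
    refine (Fermat.Agent.GE8.MinDatum.condSO_iff P ∅ H.ρ).mpr ?_
    rw [Finset.union_empty]
    exact hc
  -- the deformation ring `R^{so}_∅`
  obtain ⟨D⟩ := Fermat.Agent.GE6.DefRing.nonempty_defRing_SO p P.rhobar P.hp2 P.habs P.Smin ∅
    P.p_mem_Smin P.hmin (hbar_condSO_noSide P hss hmult hsq ∅)
  obtain ⟨Y₀, -, hY₀⟩ := exists_base_of_datum P D H hπ h𝒟 hres hsq χ hχ Sig₀ hSig₀ lev wf hlev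
    (fun φ hφ hloc hρ πO hπO => hin D H hπ φ hφ hloc hρ πO hπO)
  exact ⟨Y₀, hY₀⟩

end Fermat.Agent.GE8.Deside.BaseOdd
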