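/-
GATE-E / RISK-3 DESIDE, route (C), file (C2) (helper69): **`M⁰_m` goes UP along a change of level.**

`q ∥ M`, `q ∥ M a`, `A ∣ q`.  The two Gauss valuations of `F_M ⊆ F_{M a}` restrict
(`GB/A/Desc/Level.alphaB_mem_Rw1_iff`, `alphaB_mem_Rw2_iff`), so a unit of `F_M` with constant
reduction at `w_i` still has constant reduction at the `w_i` of level `M a`:

* `val_lt_one_map`            : a field hom with `f x ∈ B' ↔ x ∈ B` preserves `v < 1`;
* `isCstUnit₁_alphaB`, `isCstUnit₂_alphaB` ;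
* `alphaUnits_mem_goodUnitsMod` : `α^*` maps the admissible units of level `M` into those of
  level `M a` (every modulus `m`);
* `pullBar_mem_M0mod`         : **`π^* (M⁰_m(M)) ⊆ M⁰_m(M a)`** on `J₀`, for `pullBar`.

No condition on the residue characteristic; in particular `m = p ^ k`, `q = p`.
-/
import Fermat.Agent.GS.F.Modular
import Fermat.Agent.GB.A.Desc.Level
import Fermat.Agent.GK.UTr.KumAlpha
import Fermat.Agent.GJ.S37.PullPackageInst

set_option autoImplicit false
set_option linter.unusedSectionVars false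

noncomputable section

namespace Fermat.Agent.GE8.Deside.M0Up

open ModularCurve IsLocalRing AlgebraicCurve
open Fermat.Agent.S24 Fermat.Agent.GJ.J1 Fermat.Agent.GJ.J1.Val
open Fermat.Agent.GJ.KumGroup Fermat.Agent.GJ.Kum.KumType Fermat.Agent.GJ.HN
open Fermat.Agent.GK.UqKronecker Fermat.Agent.GK.AL Fermat.Agent.GK.SS Fermat.Agent.GK.UTr
open Fermat.Agent.GB.A.FP Fermat.Agent.GB.A.Desc Fermat.Agent.GS.F
open Fermat.Agent.GJ.S37HeckePullback

local notation "Qb" => AlgebraicClosure ℚ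

/-- a field hom with `f x ∈ B' ↔ x ∈ B` preserves `v < 1`. -/
theorem val_lt_one_map {E E' : Type*} [Field E] [Field E'] (B : ValuationSubring E)
    (B' : ValuationSubring E') (f : E →+* E') (hf : ∀ x, f x ∈ B' ↔ x ∈ B) (x : E) :
    B'.valuation (f x) < 1 ↔ B.valuation x < 1 := by
  rw [vs_val_lt_one_iff, vs_val_lt_one_iff, hf, map_eq_zero, ← map_inv₀, hf]

variable (M a : ℕ) [NeZero M] [NeZero a] (A : ValuationSubring Qb)

/-- constant reduction at `w₁` goes up. -/
theorem isCstUnit₁_alphaB {y : FK M} (hy : (galVal1 M A).IsCstUnit y) :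
    (galVal1 (M * a) A).IsCstUnit (alphaB M a y) := by
  obtain ⟨c, hc, hyc⟩ := hy
  refine ⟨c, hc, ?_⟩
  have h1 := (val_lt_one_map (galVal1 M A).W (galVal1 (M * a) A).W
    (alphaB M a : FK M →+* FK (M * a)) (fun x => alphaB_mem_Rw1_iff M a A x)
    (y - algebraMap Qb (FK M) c)).2 hyc
  have e : (alphaB M a : FK M →+* FK (M * a)) (y - algebraMap Qb (FK M) c) =
      alphaB M a y - algebraMap Qb (FK (M * a)) c := by
    show alphaB M a (y - algebraMap Qb (FK M) c) = _
    rw [map_sub, AlgHom.commutes]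
  rwa [e] at h1

variable {M a A} {q : ℕ} (h : ExactDvd q M) (h' : ExactDvd q (M * a))

/-- constant reduction at `w₂` goes up. -/
theorem isCstUnit₂_alphaB {y : FK M} (hy : (galVal2 M A h).IsCstUnit y) :
    (galVal2 (M * a) A h').IsCstUnit (alphaB M a y) := by
  obtain ⟨c, hc, hyc⟩ := hy
  refine ⟨c, hc, ?_⟩
  have h1 := (val_lt_one_map (galVal2 M A h).W (galVal2 (M * a) A h').W
    (alphaB M a : FK M →+* FK (M * a)) (fun x => alphaB_mem_Rw2_iff A h h' x)
    (y - algebraMap Qb (FK M) c)).2 hyc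
  have e : (alphaB M a : FK M →+* FK (M * a)) (y - algebraMap Qb (FK M) c) =
      alphaB M a y - algebraMap Qb (FK (M * a)) c := by
    show alphaB M a (y - algebraMap Qb (FK M) c) = _
    rw [map_sub, AlgHom.commutes]
  rwa [e] at h1

/-- `α^*` maps the admissible units of level `M` into those of level `M a`. -/
theorem alphaUnits_mem_goodUnitsMod {m : ℕ} {u : (FK M)ˣ} (hu : u ∈ goodUnitsMod M A h m) :
    alphaUnits M a u ∈ goodUnitsMod (M * a) A h' m := by
  obtain ⟨h1, h2, h3⟩ := hu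
  refine ⟨alphaUnits_mem M a m u h1, ?_, ?_⟩
  · rw [coe_alphaUnits]
    exact isCstUnit₁_alphaB M a A h2
  · rw [coe_alphaUnits]
    exact isCstUnit₂_alphaB h h' h3

/-- `levelIncl` along `M ∣ M a` is `alphaB`. -/
theorem levelIncl_eq_alphaB :
    levelIncl (dvd_mul_right M a) = alphaB M a := rfl

/-- **`π^* (M⁰_m(M)) ⊆ M⁰_m(M a)`**. -/
theorem pullBar_mem_M0mod {m : ℕ} [NeZero m] {x : JZero M} (hx : x ∈ M0mod M A h m) :
    pullBar (dvd_mul_right M a) x ∈ M0mod (M * a) A h' m := by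
  have := Fermat.Agent.RR.ModularBar.hasPrincipalDivisors (M * a)
  obtain ⟨u, hu, D, hD, rfl⟩ := mem_M0mod_iff.1 hx
  rw [pullBar_mk]
  refine mem_M0mod_iff.2 ⟨alphaUnits M a u, alphaUnits_mem_goodUnitsMod h h' hu, _, ?_, rfl⟩
  intro w
  show (m : ℤ) * Divisor.pullbackAlong (levelIncl (dvd_mul_right M a))
    (isIntegral_levelIncl (dvd_mul_right M a)) (D : Divisor Qb (FK M)) w = _
  rw [Divisor.pullbackAlong_apply, coe_alphaUnits, ← levelIncl_eq_alphaB,
    Place.ord_restrictAlong (levelIncl (dvd_mul_right M a))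
      (isIntegral_levelIncl (dvd_mul_right M a)) w (u : FK M), ← hD]
  ring

end Fermat.Agent.GE8.Deside.M0Up
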