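/-
GATE-E / RISK-3 DESIDE, route (C), file (C1) (helper69): **the connected package passes down an
equivariant map with small kernel, with the witness NAMED.**

`GS/Alg/Transfer.ConnPackage.of_isSubquotPow` + `GH/Aux23/Subquot.exists_subquot` (the S33 / S19
auxiliary-level trick) only return `∃ W`.  The strict-ordinary chain (`GB/B10`) has to put
explicit elements into the witness, so here the transferred subgroup is a definition:

`π : J →+ J₂` equivariant for a group `G`, `a m : ℕ`, `W₂ ≤ J₂`: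

  `transferSub π a m W₂ = { a • t : m • t = 0, π t ∈ W₂ } ≤ J`.

If the kernel of `π` is killed by `a`, then

* `smul_mem_transferSub(_iff)` : `D`-stability descends;
* `smul_sub_mem_transferSub`   : the increments `σ • u - u` (`σ ∈ I`) of `u = a • t`, `m • t = 0`,
  lie in `transferSub` as soon as the increments of `J₂[m]` lie in `W₂`;
* `hasCE_transferSub`          : (CE) descends — NO injectivity of `π` is needed, the shift by `a`
  absorbs the kernel;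
* `nsmul_mem_transferSub`      : `a • z ∈ transferSub` for `m • z = 0`, `π z ∈ W₂`;
* `eq_of_packages`             : a subgroup with (stab-`I`) + (incr) + (CE) is UNIQUE.

Mathlib only.
-/
import Mathlib

set_option autoImplicit false

namespace Fermat.Agent.GE8.Deside.PackTransfer

variable {G J J₂ : Type*} [Group G] [AddCommGroup J] [AddCommGroup J₂]
  [DistribMulAction G J] [DistribMulAction G J₂]

/-- the transferred subgroup `{ a • t : m • t = 0, π t ∈ W₂ }`. -/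
def transferSub (π : J →+ J₂) (a m : ℕ) (W₂ : AddSubgroup J₂) : AddSubgroup J where
  carrier := {y | ∃ t : J, m • t = 0 ∧ π t ∈ W₂ ∧ a • t = y}
  zero_mem' := ⟨0, smul_zero _, by rw [map_zero]; exact W₂.zero_mem, smul_zero _⟩
  add_mem' := by
    rintro _ _ ⟨t, h1, h2, rfl⟩ ⟨t', h1', h2', rfl⟩
    refine ⟨t + t', ?_, ?_, smul_add _ _ _⟩
    · rw [smul_add, h1, h1', add_zero]
    · rw [map_add]
      exact W₂.add_mem h2 h2'
  neg_mem' := by
    rintro _ ⟨t, h1, h2, rfl⟩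
    refine ⟨-t, ?_, ?_, smul_neg _ _⟩
    · rw [smul_neg, h1, neg_zero]
    · rw [map_neg]
      exact W₂.neg_mem h2

variable {π : J →+ J₂} {a m : ℕ} {W₂ : AddSubgroup J₂}

theorem mem_transferSub {y : J} :
    y ∈ transferSub π a m W₂ ↔ ∃ t : J, m • t = 0 ∧ π t ∈ W₂ ∧ a • t = y := Iff.rfl

/-- the elements one wants to see in the witness. -/
theorem nsmul_mem_transferSub {z : J} (hz : m • z = 0) (hπz : π z ∈ W₂) :
    a • z ∈ transferSub π a m W₂ := ⟨z, hz, hπz, rfl⟩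

/-- the transferred subgroup is killed by `c` as soon as `m ∣ c * a`. -/
theorem nsmul_eq_zero_of_mem_transferSub {c : ℕ} (hc : m ∣ c * a) {y : J}
    (hy : y ∈ transferSub π a m W₂) : c • y = 0 := by
  obtain ⟨t, ht, -, rfl⟩ := hy
  obtain ⟨e, he⟩ := hc
  rw [← mul_smul, he, mul_comm, mul_smul, ht, smul_zero]

section Equivariant

variable (hπ : ∀ (σ : G) (x : J), π (σ • x) = σ • π x)

include hπ

/-- `D`-stability descends. -/
theorem smul_mem_transferSub {σ : G} (hW₂ : ∀ w ∈ W₂, σ • w ∈ W₂) {y : J}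
    (hy : y ∈ transferSub π a m W₂) : σ • y ∈ transferSub π a m W₂ := by
  obtain ⟨t, h1, h2, rfl⟩ := hy
  refine ⟨σ • t, ?_, ?_, ?_⟩
  · rw [← smul_comm σ m t, h1, smul_zero]
  · rw [hπ]
    exact hW₂ _ h2
  · rw [smul_comm σ a t]

/-- `D`-stability, iff form (for `D` closed under inverses). -/
theorem smul_mem_transferSub_iff {D : Set G} (hD : ∀ σ ∈ D, σ⁻¹ ∈ D)
    (hW₂ : ∀ σ ∈ D, ∀ w ∈ W₂, σ • w ∈ W₂) {σ : G} (hσ : σ ∈ D) (y : J) :
    σ • y ∈ transferSub π a m W₂ ↔ y ∈ transferSub π a m W₂ := by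
  constructor
  · intro h
    have h1 := smul_mem_transferSub hπ (hW₂ σ⁻¹ (hD σ hσ)) h
    rwa [inv_smul_smul] at h1
  · exact smul_mem_transferSub hπ (hW₂ σ hσ)

/-- the increments descend. -/
theorem smul_sub_mem_transferSub {σ : G}
    (hincr : ∀ u : J₂, m • u = 0 → σ • u - u ∈ W₂) {t : J} (ht : m • t = 0) :
    σ • (a • t) - a • t ∈ transferSub π a m W₂ := by
  refine ⟨σ • t - t, ?_, ?_, ?_⟩
  · rw [smul_sub, ← smul_comm σ m t, ht, smul_zero, sub_zero]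
  · rw [map_sub, hπ]
    refine hincr _ ?_
    rw [← map_nsmul, ht, map_zero]
  · rw [smul_sub, smul_comm σ a t]

/-- **(CE) descends**: the kernel of `π` only has to be killed by `a`. -/
theorem hasCE_transferSub {I : Set G} (hker : ∀ x : J, π x = 0 → a • x = 0)
    (hce : ∀ N₂ : AddSubgroup J₂, (∀ σ ∈ I, ∀ u ∈ N₂, σ • u ∈ N₂) →
      ∀ w ∈ W₂, (∀ σ ∈ I, σ • w - w ∈ N₂) → w ∈ N₂) :
    ∀ N' : AddSubgroup J, (∀ σ ∈ I, ∀ u ∈ N', σ • u ∈ N') →
      ∀ w ∈ transferSub π a m W₂, (∀ σ ∈ I, σ • w - w ∈ N') → w ∈ N' := by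
  intro N' hN' w hw hwN'
  obtain ⟨t, -, h2, rfl⟩ := hw
  -- `a⁻¹ N'`
  let Na : AddSubgroup J := N'.comap (nsmulAddMonoidHom (α := J) a)
  have hNa : ∀ x : J, x ∈ Na ↔ a • x ∈ N' := fun x => Iff.rfl
  let N₂ : AddSubgroup J₂ := Na.map π
  have hN₂ : ∀ σ ∈ I, ∀ u ∈ N₂, σ • u ∈ N₂ := by
    rintro σ hσ _ ⟨x, hx, rfl⟩
    refine ⟨σ • x, (hNa _).2 ?_, hπ σ x⟩
    rw [← smul_comm σ a x]
    exact hN' σ hσ _ ((hNa x).1 hx)
  have hmem : π t ∈ N₂ := by
    refine hce N₂ hN₂ _ h2 fun σ hσ => ?_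
    refine ⟨σ • t - t, (hNa _).2 ?_, by rw [map_sub, hπ]⟩
    rw [smul_sub, smul_comm a σ t]
    exact hwN' σ hσ
  obtain ⟨x, hx, hxt⟩ := hmem
  have h0 : a • (t - x) = 0 := hker _ (by rw [map_sub, hxt, sub_self])
  rw [smul_sub, sub_eq_zero] at h0
  rw [h0]
  exact (hNa x).1 hx

end Equivariant

/-! ### uniqueness of the package subgroup -/

/-- **a package subgroup is unique**: if `W₁` has (CE) and `W'` is `I`-stable and contains the
increments of `W₁`, then `W₁ ≤ W'`. -/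
theorem le_of_hasCE {I : Set G} {W₁ W' : AddSubgroup J}
    (hce : ∀ N' : AddSubgroup J, (∀ σ ∈ I, ∀ u ∈ N', σ • u ∈ N') →
      ∀ w ∈ W₁, (∀ σ ∈ I, σ • w - w ∈ N') → w ∈ N')
    (hst : ∀ σ ∈ I, ∀ u ∈ W', σ • u ∈ W')
    (hincr : ∀ σ ∈ I, ∀ w ∈ W₁, σ • w - w ∈ W') : W₁ ≤ W' :=
  fun w hw => hce W' hst w hw fun σ hσ => hincr σ hσ w hw

/-- two subgroups with (stab-`I`), (incr) on a common ambient subgroup `T` and (CE) coincide. -/
theorem eq_of_packages {I : Set G} {T W₁ W' : AddSubgroup J} (h₁T : W₁ ≤ T) (h'T : W' ≤ T)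
    (hce₁ : ∀ N' : AddSubgroup J, (∀ σ ∈ I, ∀ u ∈ N', σ • u ∈ N') →
      ∀ w ∈ W₁, (∀ σ ∈ I, σ • w - w ∈ N') → w ∈ N')
    (hce' : ∀ N' : AddSubgroup J, (∀ σ ∈ I, ∀ u ∈ N', σ • u ∈ N') →
      ∀ w ∈ W', (∀ σ ∈ I, σ • w - w ∈ N') → w ∈ N')
    (hincr₁ : ∀ σ ∈ I, ∀ u ∈ T, σ • u - u ∈ W₁)
    (hincr' : ∀ σ ∈ I, ∀ u ∈ T, σ • u - u ∈ W') : W₁ = W' := by
  have hst : ∀ {W : AddSubgroup J}, W ≤ T → (∀ σ ∈ I, ∀ u ∈ T, σ • u - u ∈ W) →
      ∀ σ ∈ I, ∀ u ∈ W, σ • u ∈ W := by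
    intro W hWT hincr σ hσ u hu
    have := W.add_mem (hincr σ hσ u (hWT hu)) hu
    rwa [sub_add_cancel] at this
  refine le_antisymm ?_ ?_
  · exact le_of_hasCE hce₁ (hst h'T hincr') fun σ hσ w hw => hincr' σ hσ w (h₁T hw)
  · exact le_of_hasCE hce' (hst h₁T hincr₁) fun σ hσ w hw => hincr₁ σ hσ w (h'T hw)

end Fermat.Agent.GE8.Deside.PackTransfer
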