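/-
GATE-E / RISK-3 DESIDE, route (C), INTERFACE (helper69; RULING A11.2 of helper10, board 7638 §2).

The ONLY place where the strict-ordinary chain `GB/B10/L/{NewInst,StrictQ,GalPkgSO}` uses the side
condition `hside : p = 3 → 2 ∣ N' * p` is the connected package of `M⁰_{pⁿ} ≤ J₀(N' p)[pⁿ]`
(`ConnM0.connPackage_M0tors_all`).  Route (C) replaces that package by the one TRANSFERRED from the
level `N' p * 2` (`GE8/Deside/PackTransfer`), whose witness `W_n` is only known to contain
`p • M⁰_{p^(n+1)}`.  This file states exactly that, on the concrete Kummer level data: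

* `transK p N hpS hNS n : K (n+1) →+ K n` : the transition map of the Kummer tower (identity on
  Kummer generators, i.e. multiplication by `p` on `J₀(N)[p^(n+1)]`);
* `ConnOddStmt` : for every level `N' p`, `p ∥ N' p`, `p` odd (NO side condition), every place
  `A ∣ p` and every `n` there is `W ≤ K n` with the connected package for `(I_A, D_A)` and
  `transK y' ∈ W` for every `y' ∈ K (n+1)` lying in `M⁰_{p^(n+1)}`.

Consumers (helper39, `GE8/Deside/StrictQOdd.lean`): `CoreSub.exists_package_sq_level_sub` with this `W`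
and `Y n := (newSub (n+1)).map transK`.
-/
import Fermat.Agent.GB.B10.L.NewInst
import Fermat.Agent.GJ.J2.Tower.Trans

set_option autoImplicit false
set_option linter.unusedSectionVars false
set_option linter.dupNamespace false

noncomputable section

namespace Fermat.Agent.GE8.Deside.ConnOddStmt

open CuspForm ModularCurve IsLocalRing
open Fermat.Agent.GJ.KumGroup Fermat.Agent.GJ.Kum.KumType
open Fermat.Agent.GK.AL Fermat.Agent.GS.Alg.Transfer
open Fermat.Agent.GB.B10.KumLevelHecke Fermat.Agent.GB.B10.ConnM0

local notation "Qb" => AlgebraicClosure ℚ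
local notation "GQ" => (AlgebraicClosure ℚ ≃ₐ[ℚ] AlgebraicClosure ℚ)

section Trans

variable (p N : ℕ) [NeZero N] [Fact p.Prime] {S : Finset ℕ}
  (hpS : p ∈ S) (hNS : ∀ q : ℕ, q.Prime → q ∣ N → q ∈ S)

/-- **the transition map `K (n+1) →+ K n`** of the concrete Kummer level data: the identity on
Kummer generators (`Fermat.Agent.GJ.KumTower.trans`). -/
def transK (n : ℕ) : (levelData p N hpS hNS).K (n + 1) →+ (levelData p N hpS hNS).K n :=
  (toKum p N hpS hNS n).symm.toAddMonoidHom.comp
    ((MonoidHom.toAdditive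
      (Fermat.Agent.GJ.KumTower.trans (K := Qb) (F := FK N) (pow_dvd_pow p (Nat.le_succ n)))).comp
      (toKum p N hpS hNS (n + 1)).toAddMonoidHom)

theorem toKum_transK (n : ℕ) (y : (levelData p N hpS hNS).K (n + 1)) :
    toKum p N hpS hNS n (transK p N hpS hNS n y) =
      Additive.ofMul (Fermat.Agent.GJ.KumTower.trans (pow_dvd_pow p (Nat.le_succ n))
        (Additive.toMul (toKum p N hpS hNS (n + 1) y))) := by
  unfold transK
  rw [AddMonoidHom.comp_apply, AddEquiv.coe_toAddMonoidHom, AddEquiv.apply_symm_apply]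
  rfl

end Trans

/-- **the interface of route (C)**: the connected package at EVERY level `N' p` with `p ∥ N' p`,
`p` odd, for a witness containing `transK (M⁰_{p^(n+1)})`. -/
def ConnOddStmt : Prop :=
  ∀ {N' p : ℕ} [NeZero N'] [Fact p.Prime] {S : Finset ℕ} (_ : p ≠ 2)
    (h : ExactDvd p (N' * p)) (hpS : p ∈ S) (hNS : ∀ r : ℕ, r.Prime → r ∣ N' * p → r ∈ S)
    (A : ValuationSubring Qb) (_ : A.LiesOverPrime p) (n : ℕ),
    ∃ W : AddSubgroup ((levelData p (N' * p) hpS hNS).K n),
      ConnPackage (↑(A.inertiaSubgroupIn ℚ) : Set GQ) (↑(A.decompositionSubgroup ℚ) : Set GQ)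
        (fun (σ : GQ) (x : (levelData p (N' * p) hpS hNS).K n) =>
          (levelData p (N' * p) hpS hNS).gal n σ x) W ∧
      ∀ y' : (levelData p (N' * p) hpS hNS).K (n + 1),
        toTors p (N' * p) hpS hNS (n + 1) y' ∈ M0tors A h (n + 1) →
          transK p (N' * p) hpS hNS n y' ∈ W

end Fermat.Agent.GE8.Deside.ConnOddStmt
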