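/-
GATE-E / RISK-3 DESIDE, route (C), file (C3b) (helper69): **the transition map of the concrete Kummer
level data is multiplication by `p` on `J₀(N)`**, and it commutes with Galois.

* `coe_toTors_transK` : `(toTors n (transK n y) : J₀(N)) = p • (toTors (n+1) y : J₀(N))`;
* `transK_gal`        : `transK n (gal (n+1) σ y) = gal n σ (transK n y)`;
* `transK_surjective` : `transK n` is onto.
-/
import Fermat.Agent.GE8.Deside.ConnOddStmt
import Fermat.Agent.GH.Aux23.Data

set_option autoImplicit false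
set_option linter.unusedSectionVars false
set_option linter.style.haveILetI false

noncomputable section

namespace Fermat.Agent.GE8.Deside.TransTors

open CuspForm ModularCurve IsLocalRing AlgebraicCurve
open Fermat.Agent.GJ.KumGroup Fermat.Agent.GJ.Kum.KumType Fermat.Agent.GH.KummerPic
open Fermat.Agent.GH.KummerEquivariant Fermat.Agent.GH.TorsionCount
open Fermat.Agent.GK.AL Fermat.Agent.GB.B10.KumLevelHecke
open Fermat.Agent.GE8.Deside.ConnOddStmt

local notation "Qb" => AlgebraicClosure ℚ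
local notation "GQ" => (AlgebraicClosure ℚ ≃ₐ[ℚ] AlgebraicClosure ℚ)

variable (p N : ℕ) [NeZero N] [Fact p.Prime] {S : Finset ℕ}
  (hpS : p ∈ S) (hNS : ∀ q : ℕ, q.Prime → q ∣ N → q ∈ S)

/-- a point of `Submodule.torsionBy ℤ J (p ^ n)` is killed by the natural number `p ^ n`. -/
theorem pow_nsmul_coe_eq_zero {J : Type*} [AddCommGroup J] {p n : ℕ}
    (x : ↥(Submodule.torsionBy ℤ J ((p : ℤ) ^ n))) : (p ^ n) • (x : J) = 0 := by
  have h1 := (Submodule.mem_torsionBy_iff _ _).1 x.2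
  have h2 : ((p ^ n : ℕ) : ℤ) • (x : J) = 0 := by
    rw [Nat.cast_pow]
    exact h1
  rwa [natCast_zsmul] at h2

/-- every element of `K n` is the class of an `pⁿ`-divisible unit. -/
theorem exists_mk_eq (n : ℕ) (y : (levelData p N hpS hNS).K n) :
    ∃ u : pDivUnits Qb (FK N) (p ^ n),
      toKum p N hpS hNS n y = Additive.ofMul (Kum.mk u) := by
  obtain ⟨u, hu⟩ := Kum.mk_surjective (Additive.toMul (toKum p N hpS hNS n y))
  exact ⟨u, by rw [hu]; rfl⟩

/-- **`toTors n ∘ transK n = p • toTors (n+1)`** on `J₀(N)`. -/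
theorem coe_toTors_transK (n : ℕ) (y : (levelData p N hpS hNS).K (n + 1)) :
    ((toTors p N hpS hNS n (transK p N hpS hNS n y) :
        ↥(Submodule.torsionBy ℤ (JZero N) ((p : ℤ) ^ n))) : JZero N) =
      p • ((toTors p N hpS hNS (n + 1) y :
        ↥(Submodule.torsionBy ℤ (JZero N) ((p : ℤ) ^ (n + 1)))) : JZero N) := by
  have hp : p.Prime := Fact.out
  haveI : NeZero p := ⟨hp.ne_zero⟩
  haveI : NeZero (p ^ n) := ⟨pow_ne_zero n hp.ne_zero⟩
  haveI : NeZero (p ^ (n + 1)) := ⟨pow_ne_zero _ hp.ne_zero⟩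
  haveI := hasPrincipalDivisors_FK N
  obtain ⟨u, hu⟩ := exists_mk_eq p N hpS hNS (n + 1) y
  rw [toTors_apply, toTors_apply, coe_kumTorsionBy, coe_kumTorsionBy, toKum_transK, hu,
    toMul_ofMul, Fermat.Agent.GJ.KumTower.trans_mk, coe_kummerEquivFK_mk, coe_kummerEquivFK_mk]
  have key : (⟨divDiv (p ^ n) (Fermat.Agent.GJ.KumTower.pDivIncl
      (pow_dvd_pow p (Nat.le_succ n)) u), degree_divDiv (p ^ n) _⟩ :
        Divisor.degZero (K := Qb) (F := FK N)) =
      p • (⟨divDiv (p ^ (n + 1)) u, degree_divDiv (p ^ (n + 1)) u⟩ :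
        Divisor.degZero (K := Qb) (F := FK N)) := by
    apply Subtype.ext
    rw [AddSubgroup.coe_nsmul]
    ext v
    have hm : ((p ^ n : ℕ) : ℤ) ≠ 0 := Int.natCast_ne_zero.2 (pow_ne_zero n hp.ne_zero)
    apply mul_left_cancel₀ hm
    rw [mul_divDiv_apply, Fermat.Agent.GJ.KumTower.coe_pDivIncl, Finsupp.smul_apply, nsmul_eq_mul,
      ← mul_assoc, ← Nat.cast_mul, ← pow_succ, mul_divDiv_apply]
  rw [key]
  exact map_nsmul (QuotientAddGroup.mk' _) _ _

/-- `transK` commutes with the Galois action. -/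
theorem transK_gal (n : ℕ) (σ : GQ) (y : (levelData p N hpS hNS).K (n + 1)) :
    transK p N hpS hNS n ((levelData p N hpS hNS).gal (n + 1) σ y) =
      (levelData p N hpS hNS).gal n σ (transK p N hpS hNS n y) := by
  have hp : p.Prime := Fact.out
  haveI : NeZero p := ⟨hp.ne_zero⟩
  apply (toTors p N hpS hNS n).injective
  apply Subtype.ext
  rw [coe_toTors_transK, toTors_gal, toTors_gal, Fermat.Agent.GH.Top.coe_torsAct,
    Fermat.Agent.GH.Top.coe_torsAct, coe_toTors_transK, smul_comm]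

/-- `transK` is onto. -/
theorem transK_surjective (n : ℕ) : Function.Surjective (transK p N hpS hNS n) := by
  intro y
  have hp : p.Prime := Fact.out
  have hu : (p ^ n) • ((toTors p N hpS hNS n y :
      ↥(Submodule.torsionBy ℤ (JZero N) ((p : ℤ) ^ n))) : JZero N) = 0 :=
    pow_nsmul_coe_eq_zero _
  obtain ⟨t, ht⟩ := Fermat.Agent.GH.Aux23.jZero_surj N p hp.ne_zero 1 n _ hu
  rw [pow_one] at ht
  have ht0 : t ∈ Submodule.torsionBy ℤ (JZero N) ((p : ℤ) ^ (n + 1)) := by
    rw [Submodule.mem_torsionBy_iff]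
    have h2 : ((p ^ (n + 1) : ℕ) : ℤ) • t = 0 := by
      rw [natCast_zsmul, pow_succ, mul_smul, ht, hu]
    rwa [Nat.cast_pow] at h2
  refine ⟨(toTors p N hpS hNS (n + 1)).symm ⟨t, ht0⟩, ?_⟩
  apply (toTors p N hpS hNS n).injective
  apply Subtype.ext
  rw [coe_toTors_transK, AddEquiv.apply_symm_apply]
  exact ht

end Fermat.Agent.GE8.Deside.TransTors
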