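/-
GATE-E / RISK-3 DESIDE, route (C), file (C3) (helper69): **`ConnOddStmt` is a theorem.**

Level `N = N' p`, `p ∥ N`, `p` odd, `A ∣ p`.

* if `(p = 3 → 2 ∣ N)` : the landed package `ConnM0.connPackage_M0tors_all` on `M⁰_{pⁿ}`, and
  `transK (M⁰_{p^(n+1)}) ⊆ M⁰_{pⁿ}` (`p • M⁰_{p^(n+1)} ⊆ M⁰_{pⁿ}`, `HGeom.nsmul_mem_M0fam`);
* if `p = 3` and `N` is odd : the package TRANSFERRED from the level `N * 2` along
  `π^* = pullBar : J₀(N) → J₀(N * 2)` (`PackTransfer.transferSub π^* p (p^(n+1)) M⁰_{p^(n+1)}(N * 2)`):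
  stab/incr from `GS/F/Modular`, (CE) from `ConnM0.hasCE_M0fam_all` at `N * 2` (side condition true
  there) and `PackTransfer.hasCE_transferSub` (`[F_{2N} : F_N] ∣ 3` kills `ker π^*`), and the witness
  contains `p • M⁰_{p^(n+1)}(N)` by `M0Up.pullBar_mem_M0mod`.
-/
import Fermat.Agent.GE8.Deside.TransTors
import Fermat.Agent.GE8.Deside.PackTransfer
import Fermat.Agent.GE8.Deside.M0Up
import Fermat.Agent.GH.Aux23.Data

set_option autoImplicit false
set_option linter.unusedSectionVars false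
set_option linter.style.haveILetI false

noncomputable section

namespace Fermat.Agent.GE8.Deside.ConnOdd

open CuspForm ModularCurve IsLocalRing AlgebraicCurve IntermediateField
open Fermat.Agent.GJ.KumGroup Fermat.Agent.GJ.Kum.KumType
open Fermat.Agent.GK.AL Fermat.Agent.GS.Alg.Transfer Fermat.Agent.GS.Old Fermat.Agent.GS.F
open Fermat.Agent.GS.Top.HGeom
open Fermat.Agent.GB.B10.KumLevelHecke Fermat.Agent.GB.B10.ConnM0
open Fermat.Agent.GJ.S37HeckePullback
open Fermat.Agent.GE8.Deside.ConnOddStmt Fermat.Agent.GE8.Deside.TransTors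
open Fermat.Agent.GE8.Deside.PackTransfer Fermat.Agent.GE8.Deside.M0Up

local notation "Qb" => AlgebraicClosure ℚ
local notation "GQ" => (AlgebraicClosure ℚ ≃ₐ[ℚ] AlgebraicClosure ℚ)

/-- `[F_{N₂} : F_N] ∈ {1, 3}` for `N₂ = lcm 2 N`. -/
theorem relfinrank_two {N N₂ : ℕ} [NeZero N] [NeZero N₂] (e : N₂ = Nat.lcm 2 N) :
    relfinrank (modularFunctionFieldBar N) (modularFunctionFieldBar N₂) = 1 ∨
      relfinrank (modularFunctionFieldBar N) (modularFunctionFieldBar N₂) = 3 := by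
  subst e
  exact Fermat.Agent.GJ.J1.Desc.relfinrank_lcm_prime Nat.prime_two N

/-- `p ∥ N`, `p` odd `⟹ p ∥ N * 2`. -/
theorem exactDvd_mul_two {p N : ℕ} (h : ExactDvd p N) (hp2 : p ≠ 2) : ExactDvd p (N * 2) := by
  refine ⟨h.prime, h.dvd.trans (dvd_mul_right N 2), fun h9 => ?_⟩
  have hcop : Nat.Coprime (p ^ 2) 2 :=
    Nat.Coprime.pow_left 2 ((Nat.coprime_primes h.prime Nat.prime_two).2 hp2)
  exact h.not_sq (hcop.dvd_of_dvd_mul_right h9)

section Odd

variable {p N : ℕ} [NeZero N] (A : ValuationSubring Qb)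

/-- the transferred witness inside `J₀(N)`. -/
def WJ (h₂ : ExactDvd p (N * 2)) (n : ℕ) : AddSubgroup (JZero N) :=
  transferSub (pullBar (dvd_mul_right N 2)) p (p ^ (n + 1)) (M0fam A h₂ (n + 1))

/-- the transferred witness inside `J₀(N)[pⁿ]`. -/
def WT (h₂ : ExactDvd p (N * 2)) (n : ℕ) :
    AddSubgroup ↥(Submodule.torsionBy ℤ (JZero N) ((p : ℤ) ^ n)) :=
  (WJ A h₂ n).comap (Submodule.torsionBy ℤ (JZero N) ((p : ℤ) ^ n)).subtype.toAddMonoidHom

theorem mem_WT (h₂ : ExactDvd p (N * 2)) (n : ℕ)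
    (w : ↥(Submodule.torsionBy ℤ (JZero N) ((p : ℤ) ^ n))) :
    w ∈ WT A h₂ n ↔ (w : JZero N) ∈ WJ A h₂ n := Iff.rfl

/-- **the connected package of the transferred witness**, `p = 3`, `N` odd. -/
theorem connPackage_WT (hp3 : p = 3) (h2N : ¬ 2 ∣ N) (h : ExactDvd p N) (h₂ : ExactDvd p (N * 2))
    (hA : A.LiesOverPrime p) (n : ℕ) :
    ConnPackage (↑(A.inertiaSubgroupIn ℚ) : Set GQ) (↑(A.decompositionSubgroup ℚ) : Set GQ)
      (fun (σ : GQ) (x : ↥(Submodule.torsionBy ℤ (JZero N) ((p : ℤ) ^ n))) =>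
        Fermat.Agent.GH.Top.torsAct N ((p : ℤ) ^ n) σ x) (WT A h₂ n) := by
  have hp : p.Prime := h.prime
  have hp2 : p ≠ 2 := by rw [hp3]; norm_num
  haveI : NeZero p := ⟨hp.ne_zero⟩
  haveI : NeZero (p ^ (n + 1)) := ⟨pow_ne_zero _ hp.ne_zero⟩
  obtain ⟨hπ, hker0⟩ := Fermat.Agent.GJ.S37PullPackageInst.pullPackage N (N * 2)
    (dvd_mul_right N 2)
  have hlcm : N * 2 = Nat.lcm 2 N := by
    have hc : Nat.Coprime 2 N := (Nat.Prime.coprime_iff_not_dvd Nat.prime_two).2 h2N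
    rw [hc.lcm_eq_mul, mul_comm]
  have hker : ∀ x : JZero N, pullBar (dvd_mul_right N 2) x = 0 → p • x = 0 := by
    intro x hx
    have h1 := hker0 x hx
    rcases relfinrank_two (N := N) (N₂ := N * 2) hlcm with h3 | h3
    · rw [h3, one_smul] at h1
      rw [h1, smul_zero]
    · rw [h3] at h1
      rw [hp3]
      exact h1
  have hW₂ : ∀ σ ∈ (↑(A.decompositionSubgroup ℚ) : Set GQ), ∀ w ∈ M0fam A h₂ (n + 1),
      σ • w ∈ M0fam A h₂ (n + 1) := fun σ hσ w hw => smul_mem_M0mod (h := h₂) hσ hw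
  have hDinv : ∀ σ ∈ (↑(A.decompositionSubgroup ℚ) : Set GQ),
      σ⁻¹ ∈ (↑(A.decompositionSubgroup ℚ) : Set GQ) := fun σ hσ => inv_mem hσ
  refine ⟨?_, ?_, ?_⟩
  · -- stab
    intro σ hσ w
    rw [mem_WT, mem_WT, Fermat.Agent.GH.Top.coe_torsAct]
    exact smul_mem_transferSub_iff hπ hDinv hW₂ hσ (w : JZero N)
  · -- incr
    intro σ hσ u
    rw [mem_WT, AddSubgroupClass.coe_sub, Fermat.Agent.GH.Top.coe_torsAct]
    have hu : (p ^ n) • (u : JZero N) = 0 := pow_nsmul_coe_eq_zero u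
    obtain ⟨t, ht⟩ := Fermat.Agent.GH.Aux23.jZero_surj N p hp.ne_zero 1 n (u : JZero N) hu
    rw [pow_one] at ht
    have ht0 : (p ^ (n + 1)) • t = 0 := by
      rw [pow_succ, mul_smul, ht, hu]
    rw [← ht]
    refine smul_sub_mem_transferSub hπ (fun u₂ hu₂ => ?_) ht0
    refine smul_sub_mem_M0mod_torsionBy (h := h₂) hA (n + 1) hσ ?_
    rw [Submodule.mem_torsionBy_iff]
    have h2 : ((p ^ (n + 1) : ℕ) : ℤ) • u₂ = 0 := by
      rw [natCast_zsmul]
      exact hu₂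
    rwa [Nat.cast_pow] at h2
  · -- (CE)
    intro N' hN' w hw hwN'
    have hce₂ := hasCE_M0fam_all hp2 h₂ (fun _ => dvd_mul_left 2 N) A hA (n + 1)
    let N'' : AddSubgroup (JZero N) :=
      N'.map (Submodule.torsionBy ℤ (JZero N) ((p : ℤ) ^ n)).subtype.toAddMonoidHom
    have hmem : (w : JZero N) ∈ N'' := by
      refine hasCE_transferSub hπ hker hce₂ N'' ?_ (w : JZero N) hw ?_
      · rintro σ hσ _ ⟨u, hu, rfl⟩
        exact ⟨_, hN' σ hσ u hu, rfl⟩
      · intro σ hσ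
        exact ⟨_, hwN' σ hσ, rfl⟩
    obtain ⟨w', hw', hww'⟩ := hmem
    have : w' = w := Subtype.ext hww'
    rw [← this]
    exact hw'

end Odd

/-- **`ConnOddStmt`**. -/
theorem connOddStmt : ConnOddStmt := by
  intro N' p _ _ S hp2 h hpS hNS A hA n
  have hp : p.Prime := Fact.out
  haveI : NeZero p := ⟨hp.ne_zero⟩
  by_cases hside : p = 3 → 2 ∣ N' * p
  · -- the landed package
    refine ⟨(M0tors A h n).comap (toTors p (N' * p) hpS hNS n).toAddMonoidHom,
      Fermat.Agent.GB.B10.Pack.connPackage_comap_addEquiv (toTors p (N' * p) hpS hNS n)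
        (fun σ x => toTors_gal p (N' * p) hpS hNS n σ x)
        (connPackage_M0tors_all hp2 h hside A hA n), ?_⟩
    intro y' hy'
    show toTors p (N' * p) hpS hNS n (transK p (N' * p) hpS hNS n y') ∈ M0tors A h n
    rw [mem_M0tors_iff_fam, coe_toTors_transK]
    exact nsmul_mem_M0fam A h n hy'
  · -- `p = 3`, odd level: the transferred package
    rw [Classical.not_imp] at hside
    obtain ⟨hp3, h2N⟩ := hside
    have h₂ : ExactDvd p (N' * p * 2) := exactDvd_mul_two h hp2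
    refine ⟨(WT A h₂ n).comap (toTors p (N' * p) hpS hNS n).toAddMonoidHom,
      Fermat.Agent.GB.B10.Pack.connPackage_comap_addEquiv (toTors p (N' * p) hpS hNS n)
        (fun σ x => toTors_gal p (N' * p) hpS hNS n σ x)
        (connPackage_WT A hp3 h2N h h₂ hA n), ?_⟩
    intro y' hy'
    show toTors p (N' * p) hpS hNS n (transK p (N' * p) hpS hNS n y') ∈ WT A h₂ n
    rw [mem_WT, coe_toTors_transK]
    have hz : (p ^ (n + 1)) •
        ((toTors p (N' * p) hpS hNS (n + 1) y' :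
          ↥(Submodule.torsionBy ℤ (JZero (N' * p)) ((p : ℤ) ^ (n + 1)))) : JZero (N' * p)) = 0 :=
      pow_nsmul_coe_eq_zero _
    haveI : NeZero (p ^ (n + 1)) := ⟨pow_ne_zero _ hp.ne_zero⟩
    exact nsmul_mem_transferSub hz (pullBar_mem_M0mod h h₂ hy')

end Fermat.Agent.GE8.Deside.ConnOdd
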