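/-
GATE-E / RISK-3 DESIDE, route (C), file (C3b'), (helper69): **the transition map of the concrete
Kummer level data commutes with `Θ` and with the Hecke action.**

* `transK_Θ`        : `transK n (D.Θ (n+1) x) = D.Θ n x`            (`GL/Tate/S36End.ThetaN_trans`);
* `transK_heckeHom` : `transK n (D.heckeHom (n+1) t y) = D.heckeHom n t (transK n y)`.

(`transK_gal`, `transK_surjective`, `coe_toTors_transK` are in `GE8/Deside/TransTors`.)
-/
import Fermat.Agent.GE8.Deside.TransTors
import Fermat.Agent.GL.Tate.S36End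

set_option autoImplicit false
set_option linter.unusedSectionVars false

noncomputable section

namespace Fermat.Agent.GE8.Deside.TransHecke

open CuspForm ModularCurve IsLocalRing
open Fermat.Agent.GJ.KumGroup Fermat.Agent.GJ.Kum.KumType Fermat.Agent.GJ.Tate
open Fermat.Agent.GK.AL Fermat.Agent.GB.B10.KumLevelHecke
open Fermat.Agent.GE8.Deside.ConnOddStmt Fermat.Agent.GE8.Deside.TransTors

local notation "Qb" => AlgebraicClosure ℚ
local notation "GQ" => (AlgebraicClosure ℚ ≃ₐ[ℚ] AlgebraicClosure ℚ)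

variable (p N : ℕ) [NeZero N] [Fact p.Prime] {S : Finset ℕ}
  (hpS : p ∈ S) (hNS : ∀ q : ℕ, q.Prime → q ∣ N → q ∈ S)

/-- `transK` sends `Θ (n+1)` to `Θ n`. -/
theorem transK_Θ (n : ℕ) (x : (levelData p N hpS hNS).Λ) :
    transK p N hpS hNS n ((levelData p N hpS hNS).Θ (n + 1) x) =
      (levelData p N hpS hNS).Θ n x := by
  apply (toKum p N hpS hNS n).injective
  rw [toKum_transK]
  exact Fermat.Agent.GL.Tate.S36End.ThetaN_trans N p (Nat.le_succ n) x

/-- `transK` commutes with the Hecke action. -/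
theorem transK_heckeHom (n : ℕ) (t : heckeAlgebra N 2 (↑S : Set ℕ))
    (y : (levelData p N hpS hNS).K (n + 1)) :
    transK p N hpS hNS n ((levelData p N hpS hNS).heckeHom (n + 1) t y) =
      (levelData p N hpS hNS).heckeHom n t (transK p N hpS hNS n y) := by
  obtain ⟨x, rfl⟩ := (levelData p N hpS hNS).Θ_surjective (n + 1) y
  rw [KumLevelData.heckeHom_Θ, transK_Θ, transK_Θ, KumLevelData.heckeHom_Θ]

end Fermat.Agent.GE8.Deside.TransHecke
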