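/-
GATE-E / RISK-3 DESIDE, route (C), file (C4a) (helper69): **`GB/B10/Pack.hpack_levelData` WITHOUT the
side condition `hside : p = 3 → 2 ∣ N' * p`.**

`hpack_levelData_noSide` has the type of `Pack.hpack_levelData` with the binder `hside` DELETED, i.e.
the body of helper10's `GE8/Deside/PackOdd.HpackNoSideStmt` verbatim:

  `theorem hpackNoSideStmt : HpackNoSideStmt :=
     fun hp2 h hpS hNS hN'S P hP A hA n => hpack_levelData_noSide hp2 h hpS hNS hN'S P hP A hA n`.

Proof: `W := W_n` of `ConnOdd.connOddStmt`; every `x ∈ K n` is `transK x₁` (`transK_surjective`); the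
square relation `τ²(t x₁) − t x₁ ∈ M⁰_{p^(n+1)}` at the level `n + 1` is SIDE-FREE
(`FrobSqLevel.frobSq_heckeHom_mem` + `Phi2.Merge.kumTorsionBy_mem_M0mod`, as in the landed proof);
`transK` commutes with `gal` and `heckeHom`; the second clause of `ConnOddStmt` puts the image
into `W_n`.
-/
import Fermat.Agent.GE8.Deside.ConnOdd
import Fermat.Agent.GE8.Deside.TransHecke
import Fermat.Agent.GB.B10.Pack

set_option autoImplicit false
set_option linter.unusedSectionVars false

namespace Fermat.Agent.GE8.Deside.PackOddProof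

open CuspForm IsLocalRing
open Fermat.Agent.Common_helper32 Fermat.Agent.GJ.Tate Fermat.Agent.GS.Alg.Transfer
open Fermat.Agent.GK.AL Fermat.Agent.GK.New Fermat.Agent.GK.UqKronecker
open Fermat.Agent.GB.B10.KumLevelHecke Fermat.Agent.GB.B10.ConnM0
open Fermat.Agent.GE8.Deside.ConnOddStmt Fermat.Agent.GE8.Deside.TransTors
open Fermat.Agent.GE8.Deside.TransHecke

local notation "Qb" => AlgebraicClosure ℚ
local notation "GQ" => (AlgebraicClosure ℚ ≃ₐ[ℚ] AlgebraicClosure ℚ)

variable {N' p : ℕ} [NeZero N'] [Fact p.Prime] {S : Finset ℕ}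

/-- **`Pack.hpack_levelData` without `hside`.** -/
theorem hpack_levelData_noSide (hp2 : p ≠ 2) (h : ExactDvd p (N' * p))
    (hpS : p ∈ S) (hNS : ∀ r : ℕ, r.Prime → r ∣ N' * p → r ∈ S)
    (hN'S : ∀ r : ℕ, r.Prime → r ∣ N' → r ∈ S)
    (P : MvPolynomial (PrimeIdx S) ℤ)
    (hP : MvPolynomial.aeval (TfamH (N' := N') (S := S) hN'S) P = 0)
    (A : ValuationSubring Qb) (hA : A.LiesOverPrime p) (n : ℕ) :
    ∃ W : AddSubgroup ((levelData p (N' * p) hpS hNS).K n),
      ConnPackage (↑(A.inertiaSubgroupIn ℚ) : Set GQ) (↑(A.decompositionSubgroup ℚ) : Set GQ)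
        (fun (σ : GQ) (x : (levelData p (N' * p) hpS hNS).K n) =>
          (levelData p (N' * p) hpS hNS).gal n σ x) W ∧
      ∀ τ ∈ {τ : GQ | A.IsFrobeniusAt τ p}, ∀ x : (levelData p (N' * p) hpS hNS).K n,
        (levelData p (N' * p) hpS hNS).gal n τ ((levelData p (N' * p) hpS hNS).gal n τ
            ((levelData p (N' * p) hpS hNS).heckeHom n (MvPolynomial.aeval (TfamH hNS) P) x))
          - (levelData p (N' * p) hpS hNS).heckeHom n (MvPolynomial.aeval (TfamH hNS) P) x ∈ W := by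
  have hp : p.Prime := Fact.out
  have : NeZero p := ⟨hp.ne_zero⟩
  have : NeZero (p ^ (n + 1)) := ⟨pow_ne_zero (n + 1) hp.ne_zero⟩
  obtain ⟨W, hW, hcont⟩ :=
    Fermat.Agent.GE8.Deside.ConnOdd.connOddStmt hp2 h hpS hNS A hA n
  refine ⟨W, hW, ?_⟩
  intro τ hτ x
  have hτ' : A.IsFrobeniusAt τ p := hτ
  obtain ⟨x₁, rfl⟩ := transK_surjective p (N' * p) hpS hNS n x
  rw [← transK_heckeHom, ← transK_gal, ← transK_gal, ← map_sub]
  apply hcont
  have key := Fermat.Agent.GB.B10.FrobSqLevel.frobSq_heckeHom_mem h hpS hNS hN'S hA hτ' P hP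
    (n + 1) x₁
  rw [AddSubgroup.mem_inf] at key
  rw [mem_M0tors_iff, toTors_apply]
  exact Fermat.Agent.GB.B10.Phi2.Merge.kumTorsionBy_mem_M0mod h hA (n + 1) key.1 key.2

end Fermat.Agent.GE8.Deside.PackOddProof
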