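/-
GATE-E / RISK-3 DESIDE, base stage CLOSED (helper10): **the `Σ = ∅` stage of the strict-ordinary
(`p`-new) branch, BINDER-FREE on the Galois side** — `BaseOdd.exists_base_SO_noSide` with its
hypothesis `hpack : PackOdd.HpackNoSideStmt` discharged by helper69's
`PackOddProof.hpack_levelData_noSide` (route (C): connected package at odd level transferred from
level `N * 2`).

* `hpackNoSideStmt : PackOdd.HpackNoSideStmt`;
* `isStrictOrdinaryAt_of_not_resMod_level_odd` : `GB/B10/Consumer.isStrictOrdinaryAt_of_not_resMod_level`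
  WITHOUT `hside`;
* `exists_minDatum_SO_pnew_odd` : `GE8/MinDatum/PNew.exists_minDatum_SO_pnew` WITHOUT `hside`;
* **`exists_base_SO_odd`** : `GE/Engine/Base.exists_base_SO` WITHOUT `hside`, `hordbar`, `hbar`
  (inputs `hss : W.IsSemistableModel`, `hmult : (p : ℤ) ∣ W.Δ` instead).
-/
import Mathlib
import Fermat.Agent.GE8.Deside.BaseOdd
import Fermat.Agent.GE8.Deside.PackOddProof

set_option autoImplicit false
set_option linter.unusedSectionVars false
set_option linter.unusedVariables false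
set_option linter.style.haveILetI false

open WeierstrassCurve WeierstrassCurve.Affine.Point IsLocalRing CuspForm Polynomial
open scoped WeierstrassCurve.Affine

namespace Fermat.Agent.GE8.Deside.BaseOddFinal

open Fermat.Agent.GB.Setup.RhoBar Fermat.Agent.GB.Setup.SetupPkg
  Fermat.Agent.GB.B4.Datum.Carrier Fermat.Agent.GB.B4.Datum.HeckeCarrier
  Fermat.Agent.GE.Graph Fermat.Agent.GE9.Ind Fermat.Agent.GE9.NumCrit
  Fermat.Agent.GE9.NumCrit.ModForm Fermat.Agent.GE9.Asm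
  Fermat.Agent.GE8.MinDatum Fermat.Agent.GE.Engine Fermat.Agent.GE8.Deside.PackOdd
  Fermat.Agent.GE8.Deside.BaseOdd

/-- **`GB/B10/Pack.hpack_levelData` holds without the side condition.** -/
theorem hpackNoSideStmt : HpackNoSideStmt :=
  fun hp2 h hpS hNS hN'S P hP A hA n =>
    Fermat.Agent.GE8.Deside.PackOddProof.hpack_levelData_noSide hp2 h hpS hNS hN'S P hP A hA n

section Level

variable {N N' p : ℕ} [NeZero N] [NeZero N'] [Fact p.Prime] {S : Finset ℕ}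
  {𝒪 : Type} [CommRing 𝒪] [IsDomain 𝒪] [IsDiscreteValuationRing 𝒪]
  [IsAdicComplete (IsLocalRing.maximalIdeal 𝒪) 𝒪]
  {θ : CuspForm.heckeAlgebra N 2 (↑S : Set ℕ) →+* IsLocalRing.ResidueField 𝒪}
  {T : Type} [CommRing T] [IsLocalRing T] [IsNoetherianRing T]
  [IsAdicComplete (IsLocalRing.maximalIdeal T) T] [Algebra 𝒪 T] [IsLocalHom (algebraMap 𝒪 T)]
  [Module.Finite 𝒪 T] [Module.Free 𝒪 T]

/-- **B10' for the eigensystem of a curve, every odd `p`, NO side condition.** -/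
theorem isStrictOrdinaryAt_of_not_resMod_level_odd
    [Finite (IsLocalRing.ResidueField 𝒪)] [CharZero 𝒪]
    (W : WeierstrassCurve ℤ) (hΔ : W.Δ ≠ 0)
    (hN : N = N' * p) (hpN' : ¬ p ∣ N') (hp2 : p ≠ 2) (hp𝒪 : (p : 𝒪) ∈ maximalIdeal 𝒪)
    (hNS : ∀ r : ℕ, r.Prime → r ∣ N → r ∈ S)
    (H : CuspForm.HeckeGaloisRepDatum N (↑S : Set ℕ) 𝒪 θ T)
    (hθ : ∀ (ℓ : ℕ) (hℓ : ℓ.Prime) (hℓN : ¬ ℓ ∣ N) (hℓS : ℓ ∉ (↑S : Set ℕ)),
      θ (heckeAlgebra.T hℓ hℓN hℓS) = ((W.apOfModel ℓ : ℤ) : IsLocalRing.ResidueField 𝒪))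
    (hno : ¬ W.IsResiduallyModularOfLevel p N')
    (hord : H.ρ.IsOrdinaryAt p) :
    H.ρ.IsStrictOrdinaryAt p :=
  isStrictOrdinaryAt_of_not_resMod_level_noSide hpackNoSideStmt W hΔ hN hpN' hp2 hp𝒪 hNS H hθ hno
    hord

end Level

variable {p : ℕ} [Fact p.Prime] {W : WeierstrassCurve ℤ}
  {hcard₁ : Nat.card (Submodule.torsionBy ℤ
    ((W.map (Int.castRingHom ℚ))⁄(AlgebraicClosure ℚ)).Point p) = p ^ 2}
  {hker : GaloisFactorsThroughFiniteLevel
    (galoisRepModuleEnd (K := AlgebraicClosure ℚ) ℚ (W.map (Int.castRingHom ℚ)) p)}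
  {M A : ℕ} (P : Pkg p W hcard₁ hker M A)

/-- **E8.7 MINDATUM, strict-ordinary case, `p`-new, every odd `p`, NO side condition.** -/
theorem exists_minDatum_SO_pnew_odd [NeZero M] (hpM : p ∣ M)
    (hsq : Squarefree M) (hSu : P.Su = ∅)
    (hordbar : (GaloisRepAdic.ofResidualGaloisRep (rb p W hcard₁ hker)).IsOrdinaryAt p)
    (hno : ¬ W.IsResiduallyModularOfLevel p (M / p)) :
    ∃ H : HeckeGaloisRepDatum M (↑P.S0 : Set ℕ) P.O P.theta (Tloc P.O P.theta),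
      H.π = piT P.O P.theta ∧ CondSO P P.Smin H.ρ ∧
      H.ρ.residual.IsEquiv
        (P.rhobar.baseChangeAlong (ResidueField.map (algebraMap P.O (Tloc P.O P.theta)))) :=
  exists_minDatum_SO_pnew_noSide P hpackNoSideStmt hpM hsq hSu hordbar hno

/-- **(A), strict-ordinary case, `p`-new, every odd `p`: the base stage of the engine at a minimal
level, with NO `hside`, `hordbar`, `hbar`** (`W` semistable, multiplicative at `p`, `p ∥ M`, NOT
residually modular of level `M / p`). -/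
theorem exists_base_SO_odd [NeZero M]
    (hss : W.IsSemistableModel) (hmult : (p : ℤ) ∣ W.Δ)
    (hpM : p ∣ M) (hsq : Squarefree M) (hSu : P.Su = ∅)
    (hno : ¬ W.IsResiduallyModularOfLevel p (M / p))
    (χ : heckeAlgebra M 2 (↑P.S0 : Set ℕ) →+* P.O)
    (hχ : ∀ t : heckeAlgebra M 2 (↑P.S0 : Set ℕ), residue P.O (χ t) = P.theta t)
    (Sig₀ : Finset ℕ) (hSig₀ : ∀ q : ℕ, q ∈ Sig₀ ↔ q.Prime ∧ (q : ℤ) ∣ W.Δ ∧ q ∉ P.Smin)
    (lev wf : Finset ℕ → ℕ) (hlev : lev ∅ = M) {d : ℕ}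
    (hin : ∀ (D : GaloisRep.DeformationRingData P.O P.rhobar (condSO P.O p P.Smin ∅))
      (H : HeckeGaloisRepDatum M (↑P.S0 : Set ℕ) P.O P.theta (Tloc P.O P.theta))
      (hπ : H.π = piT P.O P.theta)
      (φ : D.R →ₐ[P.O] Tloc P.O P.theta) (hφ : Function.Surjective φ)
      (hloc : IsLocalHom (φ : D.R →+* Tloc P.O P.theta))
      (hρ : (D.ρ.baseChangeAlong (φ : D.R →+* Tloc P.O P.theta) hloc).IsEquiv H.ρ)
      (πO : Tloc P.O P.theta →ₐ[P.O] P.O)
      (hπO : ∀ t : heckeAlgebra M 2 (↑P.S0 : Set ℕ), πO (piT P.O P.theta t) = χ t),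
      ∃ I : BaseInput p D φ πO d,
        Nat.card (Fermat.Agent.GE9.Eta.CongMod I.B (Submodule.span P.O (Set.range I.b))) =
          wf ∅) :
    ∃ Y₀ : RTNum P.rhobar (condSO P.O p P.Smin ∅) d,
      LevelOK' p P.Smin Sig₀ ∅ Y₀.rt.N Y₀.rt.S ∧
        EngInv (↑P.S0 : Set ℕ) lev wf (lamOf χ) ∅ Y₀.rt.N Y₀.rt.S (pointChar Y₀) Y₀.w :=
  exists_base_SO_noSide P hpackNoSideStmt hss hmult hpM hsq hSu hno χ hχ Sig₀ hSig₀ lev wf hlev hin

end Fermat.Agent.GE8.Deside.BaseOddFinal
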