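/-
GATE-E (S59) / RISK-3 DESIDE (helper10, gate lead): **strict ordinarity is read off ANY strictly
ordinary representation with the same Frobenius characteristic polynomials** — the abstract half of
"the frame side condition `p = 3 → 2 ∣ N` is removed on the Hecke side".

Situation: `ρ` over `A = T_Q` (Hecke ring of the ODD level `L = N' p`, `p = 3`), `ρ'` over a local
ring `A'` with a local hom `j : A' → A` (`A'` = the image of the Hecke algebra of the EVEN level
`2 L` without `T_2`, acting on the `2`-old part; `ρ'` strictly ordinary by `GB/B10` with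
`hside`).  Both lift the same absolutely irreducible `ρ̄` and have the same Frobenius
characteristic polynomials outside a finite set; then `ρ ≅ ρ' ⊗_j A` (Chebotarev + Carayol,
`GE9/CotGrowth/Same.isEquiv_of_charpoly_frob_eq`), and strict ordinarity passes to base changes
(`GP/Tan/BaseChangeCond`) and equivalent representations (`GP/Tan/CondIsEquiv`).

* `isStrictOrdinaryAt_of_charpoly_frob_eq`, `isOrdinaryAt_of_charpoly_frob_eq`.
-/
import Mathlib
import Fermat.Agent.GE9.CotGrowth.Same
import Fermat.Agent.GP.Tan.BaseChangeCond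
import Fermat.Agent.GP.Tan.CondIsEquiv

set_option autoImplicit false

open IsLocalRing Polynomial

namespace Fermat.Agent.GE8.Deside.Abs

open Fermat.Agent.GE.Graph Fermat.Agent.GE9.CotGrowth

/-- `G_ℚ`. -/
local notation "GQ" => (AlgebraicClosure ℚ ≃ₐ[ℚ] AlgebraicClosure ℚ)

variable {A' A : Type} [CommRing A'] [IsLocalRing A'] [CommRing A] [IsLocalRing A]
  [IsNoetherianRing A]

/-- **strict ordinarity from a strictly ordinary representation with the same Frobenius
characteristic polynomials** (over a ring mapping to `A`). -/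
theorem isStrictOrdinaryAt_of_charpoly_frob_eq (j : A' →+* A) (hj : IsLocalHom j)
    (ρ' : GaloisRepAdic A') {p : ℕ} (hρ' : ρ'.IsStrictOrdinaryAt p) (ρ : GaloisRepAdic A)
    {k : Type} [Field k] (ρbar : ResidualGaloisRep k) (habs : ρbar.IsAbsolutelyIrreducible)
    (ι : k →+* ResidueField A)
    (h : ρ.residual.IsEquiv (ρbar.baseChangeAlong ι))
    (h' : (ρ'.baseChangeAlong j hj).residual.IsEquiv (ρbar.baseChangeAlong ι)) (B : Finset ℕ)
    (hfrob : ∀ ℓ : ℕ, ℓ.Prime → ℓ ∉ B → ∀ P : ValuationSubring (AlgebraicClosure ℚ),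
      P.LiesOverPrime ℓ → ∀ σ : GQ, P.IsFrobeniusAt σ ℓ →
        LinearMap.charpoly (ρ.ρ σ) = (LinearMap.charpoly (ρ'.ρ σ)).map j) :
    ρ.IsStrictOrdinaryAt p := by
  have he : (ρ'.baseChangeAlong j hj).IsEquiv ρ :=
    isEquiv_of_charpoly_frob_eq _ _ ρbar habs ι h' h B
      (fun ℓ hℓ hℓB P hP σ hσ => by
        rw [charpoly_baseChangeAlongE, hfrob ℓ hℓ hℓB P hP σ hσ])
  exact Fermat.Agent.GP.Tan.isStrictOrdinaryAt_of_isEquiv he
    (Fermat.Agent.GP.Tan.isStrictOrdinaryAt_baseChangeAlong j hj hρ')

end Fermat.Agent.GE8.Deside.Abs
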