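/-
GATE-E / RISK-3 DESIDE, consumer twins (helper32; RULING A11.1 §3 of helper10): **the `p`-NEW
(strict-ordinary) group G3 WITHOUT the side condition `hside : p = 3 → 2 ∣ N' * p`**, in hypothesis
form over the Galois package of the DESIDE sub-gate.

* `GalPkgSONoSideGen` : the type of `GB/B10/L/GalPkgSO.exists_galRep_strict_of_ann` VERBATIM with the
  binder `hside` DELETED (every other binder universally quantified);
* `GalPkgSONoSideNew` : the same for `Λ' := LamNew` only (`hY` discharged by the landed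
  `ThetaNew.hY_lamNew`, which has no side condition) — the only form the consumers use;
* `galPkgSONoSideNew_of_gen : GalPkgSONoSideGen → GalPkgSONoSideNew`;
* `exists_psi_strict_noSide`, `exists_psi_TQ_strict_noSide` : `ProviderNew/G3.exists_psi_strict`,
  `exists_psi_TQ_strict` with `hside` replaced by `hpkg : GalPkgSONoSideNew` (same proofs).
-/
import Fermat.Agent.GB.B9.ProviderNew.G3

set_option autoImplicit false
set_option linter.style.haveILetI false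
set_option linter.unusedSectionVars false
set_option linter.unusedVariables false

noncomputable section

namespace Fermat.Agent.GE8.Deside.G3

open TensorProduct CuspForm IsLocalRing Polynomial GaloisRep
open Fermat.Agent.GK.AL
open Fermat.Agent.GB.B4.Datum.Carrier Fermat.Agent.GB.B4.Datum.ImageRing
open Fermat.Agent.GB.B4.Datum.Push Fermat.Agent.GB.Def.FramedNodes
open Fermat.Agent.GB.B10.KumLevelHecke Fermat.Agent.GB.B10.L.NewInst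
open Fermat.Agent.GB.B10.L.ThetaNew Fermat.Agent.GB.B10.L.StrictQNew

local notation "GQ" => (AlgebraicClosure ℚ ≃ₐ[ℚ] AlgebraicClosure ℚ)
local notation "Qb" => AlgebraicClosure ℚ

/-- **the strict-ordinary Galois package WITHOUT the side condition, general `Λ'`** : the type of
`GB/B10/L/GalPkgSO.exists_galRep_strict_of_ann` with the binder `hside` deleted. -/
def GalPkgSONoSideGen : Prop :=
  ∀ {N' p : ℕ} [NeZero N'] [Fact p.Prime] {S : Finset ℕ}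
    {𝒪 : Type} [CommRing 𝒪] [IsDomain 𝒪] [IsDiscreteValuationRing 𝒪]
    [IsAdicComplete (maximalIdeal 𝒪) 𝒪] [Finite (ResidueField 𝒪)] [CharZero 𝒪]
    {θ : heckeAlgebra (N' * p) 2 (↑S : Set ℕ) →+* ResidueField 𝒪}
    {TQ : Type} [CommRing TQ] [IsLocalRing TQ] [Algebra 𝒪 TQ] [IsLocalHom (algebraMap 𝒪 TQ)]
    (hp2 : p ≠ 2) (hp𝒪 : (p : 𝒪) ∈ maximalIdeal 𝒪)
    (h : ExactDvd p (N' * p))
    (hpS : p ∈ S) (hNS : ∀ r : ℕ, r.Prime → r ∣ N' * p → r ∈ S)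
    (H : HeckeGaloisRepDatum (N' * p) (↑S : Set ℕ) 𝒪 θ (Tloc 𝒪 θ)) (hπ : H.π = piT 𝒪 θ)
    (hres : (GaloisRepAdic.ofResidualGaloisRep H.ρ.residual).IsOrdinaryAt p)
    (tw : heckeAlgebra (N' * p) 2 (↑S : Set ℕ) →+* TQ)
    (htw : ∀ t, residue TQ (tw t) = ResidueField.map (algebraMap 𝒪 TQ) (θ t))
    (hgen : Algebra.adjoin 𝒪 (Set.range tw) = ⊤)
    (Tram Smin : Finset ℕ) (hST : S ⊆ Tram)
    (hSmin : ∀ q ∈ Smin, q.Prime → q ≠ p → q ∣ N' * p ∧ ¬ q ^ 2 ∣ N' * p)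
    (Λ' : AddSubgroup (levelData p (N' * p) hpS hNS).Λ)
    (hann : ∀ t₀ : 𝒪 ⊗[ℤ] heckeAlgebra (N' * p) 2 (↑S : Set ℕ),
      (∀ (a : 𝒪), ∀ x ∈ Λ',
        (levelData p (N' * p) hpS hNS).heckeTensor 𝒪 t₀ (a ⊗ₜ[ℤ] x) = 0) →
          Fermat.Agent.GB.B10.L.GalPkgSO.twO (𝒪 := 𝒪) tw t₀ = 0)
    (hY : ∀ n : ℕ, ∀ x ∈ Λ', (levelData p (N' * p) hpS hNS).Θ n x ∈ newSub h hpS hNS n),
    ∃ (φ : Tloc 𝒪 θ →ₐ[𝒪] TQ) (hφ : IsLocalHom φ.toRingHom), Function.Surjective φ ∧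
      (∀ t, φ (piT 𝒪 θ t) = tw t) ∧
      (∀ (ℓ : ℕ) (hℓ : ℓ.Prime) (hℓN : ¬ ℓ ∣ N' * p) (hℓS : ℓ ∉ (↑S : Set ℕ))
        (A : ValuationSubring Qb), A.LiesOverPrime ℓ → ∀ σ : GQ, A.IsFrobeniusAt σ ℓ →
          LinearMap.charpoly ((pushRep H φ.toRingHom hφ).ρ σ) =
            X ^ 2 - C (tw (heckeAlgebra.T hℓ hℓN hℓS)) * X + C ((ℓ : TQ))) ∧
      (GaloisRep.strictOrdinaryCondition 𝒪 p Tram (pushRep H φ.toRingHom hφ) ∧
        ∀ q ∈ Smin, q.Prime → q ≠ p → (pushRep H φ.toRingHom hφ).IsUnipotentOnInertiaAt q)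

/-- **the strict-ordinary Galois package WITHOUT the side condition, for `Λ' := LamNew`** (the form
used by every consumer: `GE9/Stage/RawSO`, `GB/B9/ProviderNew/G3`). -/
def GalPkgSONoSideNew : Prop :=
  ∀ {N' p : ℕ} [NeZero N'] [Fact p.Prime] {S : Finset ℕ}
    {𝒪 : Type} [CommRing 𝒪] [IsDomain 𝒪] [IsDiscreteValuationRing 𝒪]
    [IsAdicComplete (maximalIdeal 𝒪) 𝒪] [Finite (ResidueField 𝒪)] [CharZero 𝒪]
    {θ : heckeAlgebra (N' * p) 2 (↑S : Set ℕ) →+* ResidueField 𝒪}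
    {TQ : Type} [CommRing TQ] [IsLocalRing TQ] [Algebra 𝒪 TQ] [IsLocalHom (algebraMap 𝒪 TQ)]
    (hp2 : p ≠ 2) (hp𝒪 : (p : 𝒪) ∈ maximalIdeal 𝒪)
    (h : ExactDvd p (N' * p))
    (hpS : p ∈ S) (hNS : ∀ r : ℕ, r.Prime → r ∣ N' * p → r ∈ S)
    (H : HeckeGaloisRepDatum (N' * p) (↑S : Set ℕ) 𝒪 θ (Tloc 𝒪 θ)) (hπ : H.π = piT 𝒪 θ)
    (hres : (GaloisRepAdic.ofResidualGaloisRep H.ρ.residual).IsOrdinaryAt p)
    (tw : heckeAlgebra (N' * p) 2 (↑S : Set ℕ) →+* TQ)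
    (htw : ∀ t, residue TQ (tw t) = ResidueField.map (algebraMap 𝒪 TQ) (θ t))
    (hgen : Algebra.adjoin 𝒪 (Set.range tw) = ⊤)
    (Tram Smin : Finset ℕ) (hST : S ⊆ Tram)
    (hSmin : ∀ q ∈ Smin, q.Prime → q ≠ p → q ∣ N' * p ∧ ¬ q ^ 2 ∣ N' * p)
    (hann : ∀ t₀ : 𝒪 ⊗[ℤ] heckeAlgebra (N' * p) 2 (↑S : Set ℕ),
      (∀ (a : 𝒪), ∀ x ∈ (LamNew (not_dvd_of_exactDvd h) :
          AddSubgroup (levelData p (N' * p) hpS hNS).Λ),
        (levelData p (N' * p) hpS hNS).heckeTensor 𝒪 t₀ (a ⊗ₜ[ℤ] x) = 0) →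
          Fermat.Agent.GB.B10.L.GalPkgSO.twO (𝒪 := 𝒪) tw t₀ = 0),
    ∃ (φ : Tloc 𝒪 θ →ₐ[𝒪] TQ) (hφ : IsLocalHom φ.toRingHom), Function.Surjective φ ∧
      (∀ t, φ (piT 𝒪 θ t) = tw t) ∧
      (∀ (ℓ : ℕ) (hℓ : ℓ.Prime) (hℓN : ¬ ℓ ∣ N' * p) (hℓS : ℓ ∉ (↑S : Set ℕ))
        (A : ValuationSubring Qb), A.LiesOverPrime ℓ → ∀ σ : GQ, A.IsFrobeniusAt σ ℓ →
          LinearMap.charpoly ((pushRep H φ.toRingHom hφ).ρ σ) =
            X ^ 2 - C (tw (heckeAlgebra.T hℓ hℓN hℓS)) * X + C ((ℓ : TQ))) ∧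
      (GaloisRep.strictOrdinaryCondition 𝒪 p Tram (pushRep H φ.toRingHom hφ) ∧
        ∀ q ∈ Smin, q.Prime → q ≠ p → (pushRep H φ.toRingHom hφ).IsUnipotentOnInertiaAt q)

/-- the general package gives the `LamNew` package (`hY := ThetaNew.hY_lamNew`, no side
condition). -/
theorem galPkgSONoSideNew_of_gen (hgenpkg : GalPkgSONoSideGen) : GalPkgSONoSideNew := by
  intro N' p _ _ S 𝒪 _ _ _ _ _ _ θ TQ _ _ _ _ hp2 hp𝒪 h hpS hNS H hπ hres tw htw hgen Tram Smin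
    hST hSmin hann
  exact hgenpkg hp2 hp𝒪 h hpS hNS H hπ hres tw htw hgen Tram Smin hST hSmin
    (LamNew (not_dvd_of_exactDvd h)) hann (hY_lamNew h hpS hNS (not_dvd_of_exactDvd h))

variable {N' p : ℕ} [NeZero N'] [Fact p.Prime] {S : Finset ℕ}
  {𝒪 : Type} [CommRing 𝒪] [IsDomain 𝒪] [IsDiscreteValuationRing 𝒪]
  [IsAdicComplete (maximalIdeal 𝒪) 𝒪] [Finite (ResidueField 𝒪)] [CharZero 𝒪]
  {θ : heckeAlgebra (N' * p) 2 (↑S : Set ℕ) →+* ResidueField 𝒪}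

/-- **G3 (strict-ordinary branch), general carrier, WITHOUT `hside`** — twin of
`ProviderNew/G3.exists_psi_strict` over `hpkg : GalPkgSONoSideNew`. -/
theorem exists_psi_strict_noSide (hpkg : GalPkgSONoSideNew)
    {TQ : Type} [CommRing TQ] [IsLocalRing TQ] [IsNoetherianRing TQ]
    [IsAdicComplete (maximalIdeal TQ) TQ] [Algebra 𝒪 TQ] [IsLocalHom (algebraMap 𝒪 TQ)]
    (hp2 : p ≠ 2) (hp𝒪 : (p : 𝒪) ∈ maximalIdeal 𝒪)
    (h : ExactDvd p (N' * p)) (hpS : p ∈ S)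
    (hNS : ∀ q : ℕ, q.Prime → q ∣ N' * p → q ∈ S)
    (ρbar : ResidualGaloisRep (ResidueField 𝒪)) (habs : ρbar.IsAbsolutelyIrreducible)
    (hfrob : ∀ (ℓ : ℕ) (hℓ : ℓ.Prime) (hℓN : ¬ ℓ ∣ N' * p) (hℓS : ℓ ∉ (↑S : Set ℕ)),
      ∀ P : ValuationSubring Qb, P.LiesOverPrime ℓ → ∀ σ : GQ, P.IsFrobeniusAt σ ℓ →
        ∃ d₀ : ResidueField 𝒪, LinearMap.charpoly (ρbar.ρ σ) =
          X ^ 2 - C (θ (heckeAlgebra.T hℓ hℓN hℓS)) * X + C d₀)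
    (hordbar : (GaloisRepAdic.ofResidualGaloisRep ρbar).IsOrdinaryAt p)
    (tw : heckeAlgebra (N' * p) 2 (↑S : Set ℕ) →+* TQ)
    (hres : ∀ t, residue TQ (tw t) = ResidueField.map (algebraMap 𝒪 TQ) (θ t))
    (hgen : Algebra.adjoin 𝒪 (Set.range tw) = ⊤)
    (hressurj : Function.Surjective (residue TQ ∘ algebraMap 𝒪 TQ))
    (hann : ∀ t₀ : 𝒪 ⊗[ℤ] heckeAlgebra (N' * p) 2 (↑S : Set ℕ),
      (∀ (a : 𝒪), ∀ x ∈ (LamNew (not_dvd_of_exactDvd h) :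
          AddSubgroup (levelData p (N' * p) hpS hNS).Λ),
        (levelData p (N' * p) hpS hNS).heckeTensor 𝒪 t₀ (a ⊗ₜ[ℤ] x) = 0) →
          Fermat.Agent.GB.B10.L.GalPkgSO.twO (𝒪 := 𝒪) tw t₀ = 0)
    (Smin Su Q Sun : Finset ℕ) (hpT : p ∈ Smin ∪ Su ∪ Q)
    (hNT : ∀ q : ℕ, q.Prime → q ∣ N' * p → q ∈ Smin ∪ Su ∪ Q)
    (hSmin : ∀ q ∈ Smin, q.Prime → q ≠ p → q ∣ N' * p ∧ ¬ q ^ 2 ∣ N' * p)
    (hSun : ∀ q ∈ Sun, q.Prime → q ≠ p → q ∣ N' * p ∧ ¬ q ^ 2 ∣ N' * p)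
    (DQ : DeformationRingData 𝒪 ρbar (framedCond p (strictOrdinaryCondition 𝒪 p) Smin Su Q)) :
    ∃ (ψ : DQ.R →ₐ[𝒪] TQ) (hψ : IsLocalHom (ψ : DQ.R →+* TQ)) (ρQ : GaloisRepAdic TQ),
      Function.Surjective ψ ∧
      (DQ.ρ.baseChangeAlong (ψ : DQ.R →+* TQ) hψ).IsEquiv ρQ ∧
      (∀ (ℓ : ℕ) (hℓ : ℓ.Prime) (hℓN : ¬ ℓ ∣ N' * p) (hℓS : ℓ ∉ (↑S : Set ℕ))
        (A : ValuationSubring Qb), A.LiesOverPrime ℓ → ∀ σ : GQ, A.IsFrobeniusAt σ ℓ →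
          LinearMap.charpoly (ρQ.ρ σ) =
            X ^ 2 - C (tw (heckeAlgebra.T hℓ hℓN hℓS)) * X + C ((ℓ : TQ))) ∧
      ρQ.DetIsCyclotomic p ∧
      (∀ q ∈ Sun, q.Prime → q ≠ p → ρQ.IsUnipotentOnInertiaAt q) ∧
      ρQ.residual.IsEquiv (ρbar.baseChangeAlong (ResidueField.map (algebraMap 𝒪 TQ))) := by
  have hp : p.Prime := Fact.out
  obtain ⟨H, hπ, -, hunrH, hresH⟩ :=
    Fermat.Agent.GB.Glue.DatumOfRhobar.exists_datum p (N' * p) S 𝒪 θ hp2 hpS hNS hp𝒪 ρbar habs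
      hfrob
  -- S33's residual hypothesis for the datum
  have hresord : (GaloisRepAdic.ofResidualGaloisRep H.ρ.residual).IsOrdinaryAt p := by
    obtain ⟨e⟩ := hresH
    exact Fermat.Agent.GB.ResOrd.Plug.isOrdinaryAt_of_isEquiv ⟨e.symm⟩
      (Fermat.Agent.GB.ResOrd.Plug.isOrdinaryAt_baseChangeAlong ρbar _ hordbar)
  obtain ⟨φ, hφ, hφs, hφt, hchar, hstrict, hunip⟩ :=
    hpkg (TQ := TQ) hp2 hp𝒪 h hpS hNS
      H hπ hresord tw hres hgen S (Smin ∪ Sun) (Finset.Subset.refl S)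
      (fun q hq hqpr hqp => by
        rcases Finset.mem_union.mp hq with h' | h'
        · exact hSmin q h' hqpr hqp
        · exact hSun q h' hqpr hqp)
      hann
  -- the type of the pushed representation
  have h𝒟 : framedCond p (strictOrdinaryCondition 𝒪 p) Smin Su Q
      (pushRep H φ.toRingHom hφ) := by
    refine ⟨⟨hstrict.1, hstrict.2.1, fun q hq hqT => ?_⟩, fun q hq hqpr hqp =>
      hunip q (Finset.mem_union_left _ hq) hqpr hqp⟩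
    exact Fermat.Agent.GP.Tan.isUnramifiedAt_baseChangeAlong φ.toRingHom hφ
      (hunrH q hq (fun hqN => hqT (hNT q hq hqN)) (fun hqp => hqT (by rw [hqp]; exact hpT)))
  -- its residual representation
  have hresQ : (pushRep H φ.toRingHom hφ).residual.IsEquiv
      (ρbar.baseChangeAlong (ResidueField.map (algebraMap 𝒪 TQ))) := by
    have h1 := Fermat.Agent.GB.B4.Datum.PushTloc.residual_push H.ρ φ.toRingHom hφ ρbar
      (ResidueField.map (algebraMap 𝒪 (Tloc 𝒪 θ))) hresH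
    haveI := hφ
    have e : (ResidueField.map φ.toRingHom).comp (ResidueField.map (algebraMap 𝒪 (Tloc 𝒪 θ))) =
        ResidueField.map (algebraMap 𝒪 TQ) := by
      ext x
      obtain ⟨a, rfl⟩ := residue_surjective x
      rw [RingHom.comp_apply, ResidueField.map_residue, ResidueField.map_residue,
        ResidueField.map_residue]
      congr 1
      exact φ.commutes a
    rw [e] at h1
    exact h1
  obtain ⟨ψ, hψ, hsurj, he⟩ := Fermat.Agent.GB.B4.Datum.PsiTQPush.exists_psi_of_type DQ hNS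
    hressurj (pushRep H φ.toRingHom hφ) h𝒟 hresQ tw hgen hchar
  exact ⟨ψ, hψ, pushRep H φ.toRingHom hφ, hsurj, he, hchar,
    detIsCyclotomic_push hp hp𝒪 hpS H φ.toRingHom hφ,
    fun q hq hqpr hqp => hunip q (Finset.mem_union_right _ hq) hqpr hqp, hresQ⟩

variable {M : Type} [AddCommGroup M] [Module 𝒪 M] [Module.Finite 𝒪 M] [Module.Free 𝒪 M]
  [Nontrivial M] {tw : heckeAlgebra (N' * p) 2 (↑S : Set ℕ) →+* Module.End 𝒪 M}

/-- **G3 (strict-ordinary branch) over the image ring `TQ 𝒪 θ tw`, WITHOUT `hside`** — twin of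
`ProviderNew/G3.exists_psi_TQ_strict` over `hpkg : GalPkgSONoSideNew`. -/
theorem exists_psi_TQ_strict_noSide (hpkg : GalPkgSONoSideNew) [hloc : Fact (LocHyp 𝒪 θ tw)]
    (hp2 : p ≠ 2) (hp𝒪 : (p : 𝒪) ∈ maximalIdeal 𝒪)
    (h : ExactDvd p (N' * p)) (hpS : p ∈ S)
    (hNS : ∀ q : ℕ, q.Prime → q ∣ N' * p → q ∈ S)
    (ρbar : ResidualGaloisRep (ResidueField 𝒪)) (habs : ρbar.IsAbsolutelyIrreducible)
    (hfrob : ∀ (ℓ : ℕ) (hℓ : ℓ.Prime) (hℓN : ¬ ℓ ∣ N' * p) (hℓS : ℓ ∉ (↑S : Set ℕ)),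
      ∀ P : ValuationSubring Qb, P.LiesOverPrime ℓ → ∀ σ : GQ, P.IsFrobeniusAt σ ℓ →
        ∃ d₀ : ResidueField 𝒪, LinearMap.charpoly (ρbar.ρ σ) =
          X ^ 2 - C (θ (heckeAlgebra.T hℓ hℓN hℓS)) * X + C d₀)
    (hordbar : (GaloisRepAdic.ofResidualGaloisRep ρbar).IsOrdinaryAt p)
    (hAnn : ∀ t₀ : 𝒪 ⊗[ℤ] heckeAlgebra (N' * p) 2 (↑S : Set ℕ),
      (∀ (a : 𝒪), ∀ x ∈ (LamNew (not_dvd_of_exactDvd h) :
          AddSubgroup (levelData p (N' * p) hpS hNS).Λ),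
        (levelData p (N' * p) hpS hNS).heckeTensor 𝒪 t₀ (a ⊗ₜ[ℤ] x) = 0) →
          ∀ m : M, twO 𝒪 tw t₀ m = 0)
    (Smin Su Q Sun : Finset ℕ) (hpT : p ∈ Smin ∪ Su ∪ Q)
    (hNT : ∀ q : ℕ, q.Prime → q ∣ N' * p → q ∈ Smin ∪ Su ∪ Q)
    (hSmin : ∀ q ∈ Smin, q.Prime → q ≠ p → q ∣ N' * p ∧ ¬ q ^ 2 ∣ N' * p)
    (hSun : ∀ q ∈ Sun, q.Prime → q ≠ p → q ∣ N' * p ∧ ¬ q ^ 2 ∣ N' * p)
    (DQ : DeformationRingData 𝒪 ρbar (framedCond p (strictOrdinaryCondition 𝒪 p) Smin Su Q)) :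
    ∃ (ψ : DQ.R →ₐ[𝒪] TQ 𝒪 θ tw) (hψ : IsLocalHom (ψ : DQ.R →+* TQ 𝒪 θ tw))
      (ρQ : GaloisRepAdic (TQ 𝒪 θ tw)),
      Function.Surjective ψ ∧
      (DQ.ρ.baseChangeAlong (ψ : DQ.R →+* TQ 𝒪 θ tw) hψ).IsEquiv ρQ ∧
      (∀ (ℓ : ℕ) (hℓ : ℓ.Prime) (hℓN : ¬ ℓ ∣ N' * p) (hℓS : ℓ ∉ (↑S : Set ℕ))
        (A : ValuationSubring Qb), A.LiesOverPrime ℓ → ∀ σ : GQ, A.IsFrobeniusAt σ ℓ →
          LinearMap.charpoly (ρQ.ρ σ) =
            X ^ 2 - C (chi 𝒪 θ tw (heckeAlgebra.T hℓ hℓN hℓS)) * X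
              + C ((ℓ : TQ 𝒪 θ tw))) ∧
      ρQ.DetIsCyclotomic p ∧
      (∀ q ∈ Sun, q.Prime → q ≠ p → ρQ.IsUnipotentOnInertiaAt q) ∧
      ρQ.residual.IsEquiv
        (ρbar.baseChangeAlong (ResidueField.map (algebraMap 𝒪 (TQ 𝒪 θ tw)))) :=
  exists_psi_strict_noSide hpkg hp2 hp𝒪 h hpS hNS ρbar habs hfrob hordbar (chi 𝒪 θ tw)
    (fun t => residue_chi (θ := θ) (tw := tw) t) (adjoin_range_chi 𝒪 θ tw)
    (residue_comp_algebraMap_surjective (θ := θ) (tw := tw))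
    (Fermat.Agent.GB.B10.L.GalPkgSOImg.hann_of_module (θ := θ) tw _ hAnn)
    Smin Su Q Sun hpT hNT hSmin hSun DQ

end Fermat.Agent.GE8.Deside.G3
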