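/-
GATE-E / RISK-3 DESIDE, (g5) = THE GALOIS-SIDE ASSEMBLY (helper11; RULING A11 of helper10, plan (D2)):
**the de-sided strict-ordinary Galois package `GalPkgSONoSideNew` from ONE Hecke-side statement
`G4Stmt`.**

`G4Stmt` (= (g4), no Galois content): at the levels `L = N' * p` and `L₂ = N' * 2 * p` (`p ∤ N' * 2`)
there is a ring hom `resH : heckeAlgebra L₂ 2 (insert 2 S) →+* heckeAlgebra L 2 S` with `T_ℓ ↦ T_ℓ`
such that a Hecke operator `t₀ ∈ 𝒪 ⊗ 𝕋(L₂)` killing `𝒪 ⊗ LamNew(L₂)` has image `(1 ⊗ resH) t₀` killing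
`𝒪 ⊗ LamNew(L)`  [helper81 `LevelRes` + `LevelCast`, helper42 `ResNew`: `resLeP` maps `LamNew(L)` into
`LamNew(L₂)`, is `T_ℓ`-equivariant and injective, `𝒪` flat over `ℤ`].

From it (`galPkgSONoSideNew_of_g4`): at `p = 3`, `L` odd, put `θ₂ := θ ∘ resH`, `tw₂ := tw ∘ resH`,
`A' := Algebra.adjoin 𝒪 (range tw₂) ⊆ T_Q` (local, helper33 `SubLocal`), descend `H.ρ.residual` to
`ρbar` over `k = ResidueField 𝒪` (`exists_rhobar_of_datum`), take the datum `H₂` at `L₂` on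
`Tloc 𝒪 θ₂` (`DatumOfRhobar.exists_datum`), run the LANDED lemma
`GalPkgSO.exists_galRep_strict_of_ann` at `L₂` (side condition true) over `A'`, and transfer strict
ordinarity to `pushRep H φ` over `T_Q` by helper10's `Abs.isStrictOrdinaryAt_of_charpoly_frob_eq`
(equal Frobenius characteristic polynomials `X² − tw(T_ℓ) X + ℓ`).
-/
import Fermat.Agent.GE8.Deside.G3
import Fermat.Agent.GE8.Deside.Abs
import Fermat.Agent.GE8.Deside.SubLocal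

set_option autoImplicit false
set_option linter.unusedSectionVars false
set_option linter.unusedVariables false
set_option linter.style.haveILetI false

noncomputable section

namespace Fermat.Agent.GE8.Deside.Assemble

open TensorProduct CuspForm IsLocalRing Polynomial GaloisRep
open Fermat.Agent.GK.AL
open Fermat.Agent.GB.B4.Datum.Carrier Fermat.Agent.GB.B4.Datum.Push
open Fermat.Agent.GB.B10.KumLevelHecke Fermat.Agent.GB.B10.L.NewInst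
open Fermat.Agent.GB.B10.L.ThetaNew Fermat.Agent.GB.B10.L.StrictQNew
open Fermat.Agent.GB.B10.L.GalPkgSO

local notation "GQ" => (AlgebraicClosure ℚ ≃ₐ[ℚ] AlgebraicClosure ℚ)
local notation "Qb" => AlgebraicClosure ℚ

/-! ### descent of the residual representation of a datum to `k = ResidueField 𝒪` -/

section Descent

variable {𝒪 : Type} [CommRing 𝒪] [IsDomain 𝒪] [IsDiscreteValuationRing 𝒪]
  [IsAdicComplete (maximalIdeal 𝒪) 𝒪] {N : ℕ} [NeZero N] {S : Finset ℕ}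
  {θ : heckeAlgebra N 2 (↑S : Set ℕ) →+* ResidueField 𝒪}
  {T : Type} [CommRing T] [IsLocalRing T] [IsNoetherianRing T]
  [IsAdicComplete (maximalIdeal T) T] [Algebra 𝒪 T] [IsLocalHom (algebraMap 𝒪 T)]
  [Module.Finite 𝒪 T] [Module.Free 𝒪 T]

/-- **the residual representation of a Hecke–Galois datum descends to `k = ResidueField 𝒪`**
(`ResidueField 𝒪 → ResidueField T` is bijective by `residue_surjective`): an absolutely irreducible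
`ρbar` over `k` with the Hecke polynomials `X² − θ(T_ℓ) X + d₀`, ordinary at `p` when `H.ρ.residual`
is. -/
theorem exists_rhobar_of_datum (H : HeckeGaloisRepDatum N (↑S : Set ℕ) 𝒪 θ T) :
    ∃ ρbar : ResidualGaloisRep (ResidueField 𝒪), ρbar.IsAbsolutelyIrreducible ∧
      (∀ (ℓ : ℕ) (hℓ : ℓ.Prime) (hℓN : ¬ ℓ ∣ N) (hℓS : ℓ ∉ (↑S : Set ℕ)),
        ∀ P : ValuationSubring Qb, P.LiesOverPrime ℓ → ∀ σ : GQ, P.IsFrobeniusAt σ ℓ →
          ∃ d₀ : ResidueField 𝒪, LinearMap.charpoly (ρbar.ρ σ) =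
            X ^ 2 - C (θ (heckeAlgebra.T hℓ hℓN hℓS)) * X + C d₀) ∧
      (∀ p : ℕ, (GaloisRepAdic.ofResidualGaloisRep H.ρ.residual).IsOrdinaryAt p →
        (GaloisRepAdic.ofResidualGaloisRep ρbar).IsOrdinaryAt p) := by
  -- the bijection `k → ResidueField T`
  set ι : ResidueField 𝒪 →+* ResidueField T := ResidueField.map (algebraMap 𝒪 T) with hι
  have hbij : Function.Bijective ι := by
    refine ⟨ι.injective, fun y => ?_⟩
    obtain ⟨t, rfl⟩ := residue_surjective y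
    obtain ⟨a, ha⟩ := H.residue_surjective (residue T t)
    refine ⟨residue 𝒪 a, ?_⟩
    rw [hι, ResidueField.map_residue]
    exact ha
  let e : ResidueField 𝒪 ≃+* ResidueField T := RingEquiv.ofBijective ι hbij
  have he : ∀ x, e.symm (ι x) = x := fun x => e.symm_apply_apply x
  refine ⟨H.ρ.residual.baseChangeAlong (e.symm : ResidueField T →+* ResidueField 𝒪),
    Fermat.Agent.GB.Glue.Habs.isAbsolutelyIrreducible_baseChangeAlong _ _ H.residual_absIrr,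
    ?_, fun p hp => Fermat.Agent.GB.ResOrd.Plug.isOrdinaryAt_baseChangeAlong _ _ hp⟩
  intro ℓ hℓ hℓN hℓS P hP σ hσ
  refine ⟨e.symm (residue T ((ℓ : ℕ) : T)), ?_⟩
  rw [Fermat.Agent.GB.Glue.Habs.charpoly_baseChangeAlong,
    Fermat.Agent.GB.Glue.Habs.charpoly_residual, H.charpoly_frob ℓ hℓ hℓN hℓS P hP σ hσ]
  simp only [Polynomial.map_add, Polynomial.map_sub, Polynomial.map_mul, Polynomial.map_pow,
    Polynomial.map_X, Polynomial.map_C]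
  rw [H.residue_π]
  have h1 : (e.symm : ResidueField T →+* ResidueField 𝒪)
      (ResidueField.map (algebraMap 𝒪 T) (θ (heckeAlgebra.T hℓ hℓN hℓS))) =
        θ (heckeAlgebra.T hℓ hℓN hℓS) := he _
  rw [h1]
  rfl

end Descent

/-! ### the Hecke-side statement (g4) -/

section G4

/-- `1 ⊗ r : 𝒪 ⊗ A₂ →ₐ[𝒪] 𝒪 ⊗ A₁` for a ring hom `r : A₂ →+* A₁`. -/
def mapO (𝒪 : Type) [CommRing 𝒪] {A₂ A₁ : Type} [CommRing A₂] [CommRing A₁] (r : A₂ →+* A₁) :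
    𝒪 ⊗[ℤ] A₂ →ₐ[𝒪] 𝒪 ⊗[ℤ] A₁ :=
  Algebra.TensorProduct.map (AlgHom.id 𝒪 𝒪) r.toIntAlgHom

theorem mapO_tmul {𝒪 : Type} [CommRing 𝒪] {A₂ A₁ : Type} [CommRing A₂] [CommRing A₁]
    (r : A₂ →+* A₁) (a : 𝒪) (t : A₂) : mapO 𝒪 r (a ⊗ₜ[ℤ] t) = a ⊗ₜ[ℤ] r t := by
  rw [mapO, Algebra.TensorProduct.map_tmul]
  rfl

/-- `twO tw ∘ (1 ⊗ r) = twO (tw ∘ r)`. -/
theorem twO_mapO {𝒪 : Type} [CommRing 𝒪] {A₂ A₁ : Type} [CommRing A₂] [CommRing A₁]
    {TQ : Type} [CommRing TQ] [Algebra 𝒪 TQ] (tw : A₁ →+* TQ) (r : A₂ →+* A₁)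
    (t₀ : 𝒪 ⊗[ℤ] A₂) : twO (𝒪 := 𝒪) tw (mapO 𝒪 r t₀) = twO (𝒪 := 𝒪) (tw.comp r) t₀ := by
  induction t₀ using TensorProduct.induction_on with
  | zero => rw [map_zero, map_zero, map_zero]
  | tmul a t => rw [mapO_tmul, twO_tmul, twO_tmul, RingHom.comp_apply]
  | add x y hx hy => rw [map_add, map_add, map_add, hx, hy]

/-- an `𝒪`-algebra hom commutes with `twO`. -/
theorem map_twO {𝒪 : Type} [CommRing 𝒪] {A₂ : Type} [CommRing A₂]
    {A' TQ : Type} [CommRing A'] [Algebra 𝒪 A'] [CommRing TQ] [Algebra 𝒪 TQ] (j : A' →ₐ[𝒪] TQ)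
    (tw' : A₂ →+* A') (t₀ : 𝒪 ⊗[ℤ] A₂) :
    j (twO (𝒪 := 𝒪) tw' t₀) = twO (𝒪 := 𝒪) ((j : A' →+* TQ).comp tw') t₀ := by
  induction t₀ using TensorProduct.induction_on with
  | zero => rw [map_zero, map_zero, map_zero]
  | tmul a t =>
    rw [twO_tmul, twO_tmul, map_mul, AlgHom.commutes, RingHom.comp_apply]
    rfl
  | add x y hx hy => rw [map_add, map_add, map_add, hx, hy]

/-- **the Hecke-side statement (g4) of DESIDE**: the restriction hom of the anemic Hecke algebras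
from the even level `N' * 2 * p` to the level `N' * p`, with the transfer of annihilators of the
`p`-new lattices. -/
def G4Stmt : Prop :=
  ∀ {N' p : ℕ} [NeZero N'] [Fact p.Prime] {S : Finset ℕ}
    (𝒪 : Type) [CommRing 𝒪] [IsDomain 𝒪] [CharZero 𝒪]
    (h : ExactDvd p (N' * p)) (h₂ : ExactDvd p (N' * 2 * p))
    (hpS : p ∈ S) (hNS : ∀ r : ℕ, r.Prime → r ∣ N' * p → r ∈ S)
    (hpS₂ : p ∈ insert 2 S) (hNS₂ : ∀ r : ℕ, r.Prime → r ∣ N' * 2 * p → r ∈ insert 2 S),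
    ∃ resH : heckeAlgebra (N' * 2 * p) 2 (↑(insert 2 S) : Set ℕ) →+*
        heckeAlgebra (N' * p) 2 (↑S : Set ℕ),
      (∀ (ℓ : ℕ) (hℓ : ℓ.Prime) (hℓN₂ : ¬ ℓ ∣ N' * 2 * p)
        (hℓS₂ : ℓ ∉ (↑(insert 2 S) : Set ℕ)) (hℓN : ¬ ℓ ∣ N' * p) (hℓS : ℓ ∉ (↑S : Set ℕ)),
        resH (heckeAlgebra.T hℓ hℓN₂ hℓS₂) = heckeAlgebra.T hℓ hℓN hℓS) ∧
      ∀ t₀ : 𝒪 ⊗[ℤ] heckeAlgebra (N' * 2 * p) 2 (↑(insert 2 S) : Set ℕ),
        (∀ (a : 𝒪), ∀ x ∈ (LamNew (not_dvd_of_exactDvd h₂) :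
            AddSubgroup (levelData p (N' * 2 * p) hpS₂ hNS₂).Λ),
          (levelData p (N' * 2 * p) hpS₂ hNS₂).heckeTensor 𝒪 t₀ (a ⊗ₜ[ℤ] x) = 0) →
        ∀ (a : 𝒪), ∀ x ∈ (LamNew (not_dvd_of_exactDvd h) :
            AddSubgroup (levelData p (N' * p) hpS hNS).Λ),
          (levelData p (N' * p) hpS hNS).heckeTensor 𝒪 (mapO 𝒪 resH t₀) (a ⊗ₜ[ℤ] x) = 0

end G4

/-! ### the even level, over a local subring `A' ↪ T_Q` -/

section Even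

variable {N'' p : ℕ} [NeZero N''] [Fact p.Prime] {S₂ : Finset ℕ}
  {𝒪 : Type} [CommRing 𝒪] [IsDomain 𝒪] [IsDiscreteValuationRing 𝒪]
  [IsAdicComplete (IsLocalRing.maximalIdeal 𝒪) 𝒪] [Finite (ResidueField 𝒪)] [CharZero 𝒪]
  {TQ : Type} [CommRing TQ] [IsLocalRing TQ] [Algebra 𝒪 TQ] [IsLocalHom (algebraMap 𝒪 TQ)]
  {A' : Type} [CommRing A'] [IsLocalRing A'] [Algebra 𝒪 A'] [IsLocalHom (algebraMap 𝒪 A')]

/-- **the landed strict package at an even-if-`p = 3` level, over a local ring `A'` injecting into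
`T_Q`**: a strictly ordinary `ρ'` over `A'` with the Hecke polynomials of `tw₂'`, whose push to `T_Q`
lifts `ρbar`. -/
theorem exists_strict_over_sub (j : A' →ₐ[𝒪] TQ) (hj : IsLocalHom (j : A' →+* TQ))
    (hjinj : Function.Injective j)
    (hp2 : p ≠ 2) (hp𝒪 : (p : 𝒪) ∈ maximalIdeal 𝒪)
    (h₂ : ExactDvd p (N'' * p)) (hside₂ : p = 3 → 2 ∣ N'' * p)
    (hpS₂ : p ∈ S₂) (hNS₂ : ∀ r : ℕ, r.Prime → r ∣ N'' * p → r ∈ S₂)
    (θ₂ : heckeAlgebra (N'' * p) 2 (↑S₂ : Set ℕ) →+* ResidueField 𝒪)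
    (ρbar : ResidualGaloisRep (ResidueField 𝒪)) (habs : ρbar.IsAbsolutelyIrreducible)
    (hfrob₂ : ∀ (ℓ : ℕ) (hℓ : ℓ.Prime) (hℓN : ¬ ℓ ∣ N'' * p) (hℓS : ℓ ∉ (↑S₂ : Set ℕ)),
      ∀ P : ValuationSubring Qb, P.LiesOverPrime ℓ → ∀ σ : GQ, P.IsFrobeniusAt σ ℓ →
        ∃ d₀ : ResidueField 𝒪, LinearMap.charpoly (ρbar.ρ σ) =
          X ^ 2 - C (θ₂ (heckeAlgebra.T hℓ hℓN hℓS)) * X + C d₀)
    (hordbar : (GaloisRepAdic.ofResidualGaloisRep ρbar).IsOrdinaryAt p)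
    (tw₂' : heckeAlgebra (N'' * p) 2 (↑S₂ : Set ℕ) →+* A')
    (htw₂ : ∀ t, residue TQ (j (tw₂' t)) = ResidueField.map (algebraMap 𝒪 TQ) (θ₂ t))
    (hgen₂ : Algebra.adjoin 𝒪 (Set.range tw₂') = ⊤)
    (hann₂ : ∀ t₀ : 𝒪 ⊗[ℤ] heckeAlgebra (N'' * p) 2 (↑S₂ : Set ℕ),
      (∀ (a : 𝒪), ∀ x ∈ (LamNew (not_dvd_of_exactDvd h₂) :
          AddSubgroup (levelData p (N'' * p) hpS₂ hNS₂).Λ),
        (levelData p (N'' * p) hpS₂ hNS₂).heckeTensor 𝒪 t₀ (a ⊗ₜ[ℤ] x) = 0) →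
          twO (𝒪 := 𝒪) ((j : A' →+* TQ).comp tw₂') t₀ = 0) :
    ∃ ρ' : GaloisRepAdic A', ρ'.IsStrictOrdinaryAt p ∧
      (∀ (ℓ : ℕ) (hℓ : ℓ.Prime) (hℓN : ¬ ℓ ∣ N'' * p) (hℓS : ℓ ∉ (↑S₂ : Set ℕ))
        (A : ValuationSubring Qb), A.LiesOverPrime ℓ → ∀ σ : GQ, A.IsFrobeniusAt σ ℓ →
          LinearMap.charpoly (ρ'.ρ σ) =
            X ^ 2 - C (tw₂' (heckeAlgebra.T hℓ hℓN hℓS)) * X + C ((ℓ : A'))) ∧
      (ρ'.baseChangeAlong (j : A' →+* TQ) hj).residual.IsEquiv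
        (ρbar.baseChangeAlong (ResidueField.map (algebraMap 𝒪 TQ))) := by
  have hp : p.Prime := Fact.out
  haveI := hj
  -- the residual clause over `A'`
  have hcomp : (ResidueField.map (j : A' →+* TQ)).comp (ResidueField.map (algebraMap 𝒪 A')) =
      ResidueField.map (algebraMap 𝒪 TQ) := by
    ext x
    obtain ⟨a, rfl⟩ := residue_surjective x
    rw [RingHom.comp_apply, ResidueField.map_residue, ResidueField.map_residue,
      ResidueField.map_residue]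
    congr 1
    exact j.commutes a
  have htw₂' : ∀ t, residue A' (tw₂' t) = ResidueField.map (algebraMap 𝒪 A') (θ₂ t) := by
    intro t
    apply (ResidueField.map (j : A' →+* TQ)).injective
    have e1 : ResidueField.map (j : A' →+* TQ) (residue A' (tw₂' t)) = residue TQ (j (tw₂' t)) :=
      ResidueField.map_residue _ _
    have e2 : ResidueField.map (j : A' →+* TQ) (ResidueField.map (algebraMap 𝒪 A') (θ₂ t)) =
        ResidueField.map (algebraMap 𝒪 TQ) (θ₂ t) := by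
      rw [← hcomp]
      rfl
    rw [e1, e2]
    exact htw₂ t
  -- the annihilator clause over `A'`
  have hann₂' : ∀ t₀ : 𝒪 ⊗[ℤ] heckeAlgebra (N'' * p) 2 (↑S₂ : Set ℕ),
      (∀ (a : 𝒪), ∀ x ∈ (LamNew (not_dvd_of_exactDvd h₂) :
          AddSubgroup (levelData p (N'' * p) hpS₂ hNS₂).Λ),
        (levelData p (N'' * p) hpS₂ hNS₂).heckeTensor 𝒪 t₀ (a ⊗ₜ[ℤ] x) = 0) →
          twO (𝒪 := 𝒪) tw₂' t₀ = 0 := by
    intro t₀ ht₀
    apply hjinj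
    rw [map_twO, hann₂ t₀ ht₀, map_zero]
  -- the datum at the even level
  obtain ⟨H₂, hπ₂, -, -, hresH₂⟩ :=
    Fermat.Agent.GB.Glue.DatumOfRhobar.exists_datum p (N'' * p) S₂ 𝒪 θ₂ hp2 hpS₂ hNS₂ hp𝒪 ρbar
      habs hfrob₂
  have hresord : (GaloisRepAdic.ofResidualGaloisRep H₂.ρ.residual).IsOrdinaryAt p := by
    obtain ⟨e⟩ := hresH₂
    exact Fermat.Agent.GB.ResOrd.Plug.isOrdinaryAt_of_isEquiv ⟨e.symm⟩
      (Fermat.Agent.GB.ResOrd.Plug.isOrdinaryAt_baseChangeAlong ρbar _ hordbar)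
  -- the landed lemma
  obtain ⟨φ₂, hφ₂, -, hφt₂, hchar₂, hstrict₂, -⟩ :=
    Fermat.Agent.GB.B10.L.GalPkgSO.exists_galRep_strict_of_ann (TQ := A') hp2 hp𝒪 h₂ hside₂ hpS₂
      hNS₂ H₂ hπ₂ hresord tw₂' htw₂' hgen₂ S₂ (∅ : Finset ℕ) (Finset.Subset.refl S₂)
      (fun q hq => absurd hq (Finset.notMem_empty q))
      (LamNew (not_dvd_of_exactDvd h₂)) hann₂'
      (hY_lamNew h₂ hpS₂ hNS₂ (not_dvd_of_exactDvd h₂))
  refine ⟨pushRep H₂ φ₂.toRingHom hφ₂, hstrict₂.2.1, hchar₂, ?_⟩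
  -- the residual representation of the push to `T_Q`
  refine (Fermat.Agent.GB.Glue.Habs.residual_isEquiv_of_charpoly _ ρbar _ habs
    (S₂ ∪ (N'' * p).primeFactors) ?_).1
  intro ℓ hℓ hℓB P hP σ hσ
  obtain ⟨hℓN, hℓS⟩ := Fermat.Agent.GB.Glue.Habs.good_of_not_mem (N'' * p) S₂ hℓ hℓB
  obtain ⟨d₀, h0⟩ := hfrob₂ ℓ hℓ hℓN hℓS P hP σ hσ
  refine ⟨j (tw₂' (heckeAlgebra.T hℓ hℓN hℓS)), ((ℓ : ℕ) : TQ),
    θ₂ (heckeAlgebra.T hℓ hℓN hℓS), d₀, ?_, h0, htw₂ _⟩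
  rw [Fermat.Agent.GE.Graph.charpoly_baseChangeAlongE, hchar₂ ℓ hℓ hℓN hℓS P hP σ hσ]
  rw [Polynomial.map_add, Polynomial.map_sub, Polynomial.map_mul, Polynomial.map_pow,
    Polynomial.map_X, Polynomial.map_C, Polynomial.map_C, map_natCast]
  rfl

end Even

/-! ### the assembly -/

section Main

/-- `p ∥ N' p`, `p` odd `⟹ p ∥ N' 2 p`. -/
theorem exactDvd_two {N' p : ℕ} (h : ExactDvd p (N' * p)) (hp2 : p ≠ 2) :
    ExactDvd p (N' * 2 * p) := by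
  refine ⟨h.prime, Dvd.intro_left _ rfl, fun h9 => ?_⟩
  have hpN' : ¬ p ∣ N' := not_dvd_of_exactDvd h
  have h1 : p ∣ N' * 2 := by
    have h2 : p * p ∣ N' * 2 * p := by rwa [← sq]
    exact Nat.dvd_of_mul_dvd_mul_right h.prime.pos h2
  rcases (Nat.Prime.dvd_mul h.prime).mp h1 with h3 | h3
  · exact hpN' h3
  · exact hp2 ((Nat.prime_dvd_prime_iff_eq h.prime Nat.prime_two).mp h3)

/-- **DESIDE**: the de-sided strict-ordinary Galois package on the `p`-new lattice, from the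
Hecke-side statement `(g4)`. -/
theorem galPkgSONoSideNew_of_g4 (hG4 : G4Stmt) :
    Fermat.Agent.GE8.Deside.G3.GalPkgSONoSideNew := by
  intro N' p _ _ S 𝒪 _ _ _ _ _ _ θ TQ _ _ _ _ hp2 hp𝒪 h hpS hNS H hπ hres tw htw hgen Tram Smin
    hST hSmin hann
  by_cases hside : p = 3 → 2 ∣ N' * p
  · exact Fermat.Agent.GB.B10.L.GalPkgSO.exists_galRep_strict_of_ann (TQ := TQ) hp2 hp𝒪 h hside
      hpS hNS H hπ hres tw htw hgen Tram Smin hST hSmin (LamNew (not_dvd_of_exactDvd h)) hann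
      (hY_lamNew h hpS hNS (not_dvd_of_exactDvd h))
  have hp : p.Prime := Fact.out
  -- the push to `T_Q`
  obtain ⟨φ, hφt, hloc, hsurj⟩ :=
    Fermat.Agent.GB.B4.Datum.PushTloc.exists_phi 𝒪 θ tw htw hgen
  haveI : IsNoetherianRing TQ := isNoetherianRing_of_surjective _ _ φ.toRingHom hsurj
  haveI : Module.Finite 𝒪 TQ := Module.Finite.of_surjective φ.toLinearMap hsurj
  have hφH : ∀ t, φ (H.π t) = tw t := fun t => by rw [hπ]; exact hφt t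
  have hcharQ : ∀ (ℓ : ℕ) (hℓ : ℓ.Prime) (hℓN : ¬ ℓ ∣ N' * p) (hℓS : ℓ ∉ (↑S : Set ℕ))
      (A : ValuationSubring Qb), A.LiesOverPrime ℓ → ∀ σ : GQ, A.IsFrobeniusAt σ ℓ →
        LinearMap.charpoly ((pushRep H φ.toRingHom hloc).ρ σ) =
          X ^ 2 - C (tw (heckeAlgebra.T hℓ hℓN hℓS)) * X + C ((ℓ : TQ)) := by
    intro ℓ hℓ hℓN hℓS A hA σ hσ
    have h1 := charpoly_frob_push H φ.toRingHom hloc ℓ hℓ hℓN hℓS A hA σ hσ
    rw [h1]
    congr 3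
    exact congrArg _ (hφH _)
  refine ⟨φ, hloc, hsurj, hφt, hcharQ, ?_⟩
  -- `ρbar` over `k`
  obtain ⟨ρbar, habs, hfrobbar, hordtr⟩ := exists_rhobar_of_datum H
  have hordbar : (GaloisRepAdic.ofResidualGaloisRep ρbar).IsOrdinaryAt p := hordtr p hres
  -- the even level
  have h₂ : ExactDvd p (N' * 2 * p) := exactDvd_two h hp2
  have hside₂ : p = 3 → 2 ∣ N' * 2 * p := fun _ => ⟨N' * p, by ring⟩
  have hpS₂ : p ∈ insert 2 S := Finset.mem_insert_of_mem hpS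
  have hNS₂ : ∀ r : ℕ, r.Prime → r ∣ N' * 2 * p → r ∈ insert 2 S := by
    intro r hr hd
    have hd' : r ∣ N' * p * 2 := by rwa [Nat.mul_right_comm] at hd
    rcases (Nat.Prime.dvd_mul hr).mp hd' with h3 | h3
    · exact Finset.mem_insert_of_mem (hNS r hr h3)
    · rw [(Nat.prime_dvd_prime_iff_eq hr Nat.prime_two).mp h3]
      exact Finset.mem_insert_self 2 S
  obtain ⟨resH, hresT, htrans⟩ := hG4 𝒪 h h₂ hpS hNS hpS₂ hNS₂
  -- good primes of the even level are good at the odd level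
  have hgood : ∀ {ℓ : ℕ}, ¬ ℓ ∣ N' * 2 * p → ℓ ∉ (↑(insert 2 S) : Set ℕ) →
      ¬ ℓ ∣ N' * p ∧ ℓ ∉ (↑S : Set ℕ) := by
    intro ℓ h1 h2
    refine ⟨fun hd => h1 ?_, fun hS => h2 ?_⟩
    · rw [Nat.mul_right_comm]
      exact Dvd.dvd.mul_right hd 2
    · exact Finset.mem_coe.mpr (Finset.mem_insert_of_mem (Finset.mem_coe.mp hS))
  -- the local subring `A'` of `T_Q`
  set tw₂ : heckeAlgebra (N' * 2 * p) 2 (↑(insert 2 S) : Set ℕ) →+* TQ := tw.comp resH with htw₂def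
  let A'sub : Subalgebra 𝒪 TQ := Algebra.adjoin 𝒪 (Set.range tw₂)
  letI : IsLocalRing A'sub := Fermat.Agent.GE8.Deside.SubLocal.isLocalRing A'sub
  haveI : IsLocalHom (algebraMap 𝒪 A'sub) :=
    Fermat.Agent.GE8.Deside.SubLocal.isLocalHom_algebraMap A'sub
  have hj : IsLocalHom ((A'sub.val : A'sub →ₐ[𝒪] TQ) : A'sub →+* TQ) :=
    Fermat.Agent.GE8.Deside.SubLocal.isLocalHom_val A'sub
  let tw₂' : heckeAlgebra (N' * 2 * p) 2 (↑(insert 2 S) : Set ℕ) →+* A'sub :=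
    tw₂.codRestrict A'sub (fun t => Algebra.subset_adjoin ⟨t, rfl⟩)
  have hjtw : ((A'sub.val : A'sub →ₐ[𝒪] TQ) : A'sub →+* TQ).comp tw₂' = tw₂ := RingHom.ext fun t => rfl
  have hgen₂ : Algebra.adjoin 𝒪 (Set.range tw₂') = ⊤ :=
    Fermat.Agent.GE8.Deside.SubLocal.adjoin_range_eq_top (𝒪 := 𝒪) tw₂
  obtain ⟨ρ', hstrict', hchar', hres'⟩ :=
    exists_strict_over_sub (N'' := N' * 2) (A'sub.val : A'sub →ₐ[𝒪] TQ) hj Subtype.val_injective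
      hp2 hp𝒪 h₂ hside₂ hpS₂ hNS₂ (θ.comp resH) ρbar habs
      (fun ℓ hℓ hℓN₂ hℓS₂ P hP σ hσ => by
        obtain ⟨hℓN, hℓS⟩ := hgood hℓN₂ hℓS₂
        obtain ⟨d₀, h0⟩ := hfrobbar ℓ hℓ hℓN hℓS P hP σ hσ
        refine ⟨d₀, ?_⟩
        rw [h0, RingHom.comp_apply, hresT ℓ hℓ hℓN₂ hℓS₂ hℓN hℓS])
      hordbar tw₂'
      (fun t => htw (resH t))
      hgen₂
      (fun t₀ ht₀ => by
        rw [hjtw, htw₂def, ← twO_mapO]
        exact hann _ (htrans t₀ ht₀))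
  -- transfer of strict ordinarity
  have hresQ : (pushRep H φ.toRingHom hloc).residual.IsEquiv
      (ρbar.baseChangeAlong (ResidueField.map (algebraMap 𝒪 TQ))) := by
    refine (Fermat.Agent.GB.Glue.Habs.residual_isEquiv_of_charpoly _ ρbar _ habs
      (S ∪ (N' * p).primeFactors) ?_).1
    intro ℓ hℓ hℓB P hP σ hσ
    obtain ⟨hℓN, hℓS⟩ := Fermat.Agent.GB.Glue.Habs.good_of_not_mem (N' * p) S hℓ hℓB
    obtain ⟨d₀, h0⟩ := hfrobbar ℓ hℓ hℓN hℓS P hP σ hσ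
    exact ⟨tw (heckeAlgebra.T hℓ hℓN hℓS), ((ℓ : ℕ) : TQ), θ (heckeAlgebra.T hℓ hℓN hℓS), d₀,
      hcharQ ℓ hℓ hℓN hℓS P hP σ hσ, h0, htw _⟩
  have hstrict : (pushRep H φ.toRingHom hloc).IsStrictOrdinaryAt p := by
    refine Fermat.Agent.GE8.Deside.Abs.isStrictOrdinaryAt_of_charpoly_frob_eq
      ((A'sub.val : A'sub →ₐ[𝒪] TQ) : A'sub →+* TQ) hj ρ' hstrict' _ ρbar habs
      (ResidueField.map (algebraMap 𝒪 TQ)) hresQ hres'
      (insert 2 S ∪ (N' * 2 * p).primeFactors) ?_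
    intro ℓ hℓ hℓB P hP σ hσ
    obtain ⟨hℓN₂, hℓS₂⟩ :=
      Fermat.Agent.GB.Glue.Habs.good_of_not_mem (N' * 2 * p) (insert 2 S) hℓ hℓB
    obtain ⟨hℓN, hℓS⟩ := hgood hℓN₂ hℓS₂
    rw [hcharQ ℓ hℓ hℓN hℓS P hP σ hσ, hchar' ℓ hℓ hℓN₂ hℓS₂ P hP σ hσ]
    rw [Polynomial.map_add, Polynomial.map_sub, Polynomial.map_mul, Polynomial.map_pow,
      Polynomial.map_X, Polynomial.map_C, Polynomial.map_C]
    have e1 : ((A'sub.val : A'sub →ₐ[𝒪] TQ) : A'sub →+* TQ)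
        (tw₂' (heckeAlgebra.T hℓ hℓN₂ hℓS₂)) = tw (heckeAlgebra.T hℓ hℓN hℓS) := by
      show tw (resH (heckeAlgebra.T hℓ hℓN₂ hℓS₂)) = _
      rw [hresT ℓ hℓ hℓN₂ hℓS₂ hℓN hℓS]
    have e2 : ((A'sub.val : A'sub →ₐ[𝒪] TQ) : A'sub →+* TQ) ((ℓ : ℕ) : A'sub) = ((ℓ : ℕ) : TQ) :=
      map_natCast _ _
    rw [e1, e2]
  exact strictCond_push_of_strictQ hp hp𝒪 hpS hNS H φ.toRingHom hloc hstrict Tram Smin hST hSmin

end Main

end Fermat.Agent.GE8.Deside.Assemble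

end
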