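/-
GATE-E (S59) / RISK-3 **DESIDE**, node (N1) (helper57): **the restriction homomorphism of Hecke
algebras along a divisibility of levels**.

`M₁ ∣ M₂`; `S₁ ⊆ S₂` sets of primes, `S₂` containing every prime divisor of `M₂`.  The Hecke algebra
`heckeAlgebra M₂ 2 S₂` (generated by the `T_ℓ`, `ℓ ∤ M₂`, `ℓ ∉ S₂`) acts on the image of the
restriction `S₂(Γ₀(M₁)) ↪ S₂(Γ₀(M₂))`, and this action is through `heckeAlgebra M₁ 2 S₁`:

* `Intertwine.resHom`    : ABSTRACT — `ι : V₁ → V₂` injective linear, `A₂ ≤ End V₂` a subalgebra all of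
  whose elements restrict along `ι` to elements of `A₁ ≤ End V₁` ⟹ the ring hom `A₂ →+* A₁`;
* `resForm h`            : the restriction of forms `Γ₀(M₁) → Γ₀(M₂)` as a `ℂ`-linear map, injective;
* `heckeTLin_resForm`    : `T_ℓ^{(M₂)} ∘ res = res ∘ T_ℓ^{(M₁)}` for `ℓ ∤ M₂` (`q`-expansions);
* **`rHecke`**           : `heckeAlgebra M₂ 2 S₂ →+* heckeAlgebra M₁ 2 S₁`;
* `rHecke_spec`          : `t (res f) = res (rHecke t f)`;
* **`rHecke_T`**         : `rHecke (T_ℓ) = T_ℓ`.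
-/
import Mathlib
import Fermat.Agent.GE9.OldQ.Commute

set_option autoImplicit false
set_option linter.unusedSectionVars false
set_option linter.unusedVariables false

open CongruenceSubgroup ModularFormClass UpperHalfPlane CuspForm

namespace Fermat.Agent.GE8.Deside.HeckeRes

open Fermat.Agent.GE.Mod.Stab (restrict G0)
open Fermat.Agent.GE9.OldQ (ext_qCoeff)
open Fermat.Agent.S49_helper65 (qCoeff_heckeTLin)

/-! ### abstract: a subalgebra of endomorphisms restricted along an injective intertwiner -/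

namespace Intertwine

variable {R : Type*} [CommRing R] {V₁ V₂ : Type*} [AddCommGroup V₁] [Module R V₁]
  [AddCommGroup V₂] [Module R V₂]

/-- the endomorphisms of `V₂` which restrict along `ι` to an element of `A₁`. -/
def sub (ι : V₁ →ₗ[R] V₂) (A₁ : Subalgebra ℤ (Module.End R V₁)) :
    Subalgebra ℤ (Module.End R V₂) where
  carrier := {t₂ | ∃ t ∈ A₁, t₂ ∘ₗ ι = ι ∘ₗ t}
  mul_mem' := by
    rintro a b ⟨s, hs, ha⟩ ⟨t, ht, hb⟩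
    refine ⟨s * t, A₁.mul_mem hs ht, ?_⟩
    rw [Module.End.mul_eq_comp, Module.End.mul_eq_comp, LinearMap.comp_assoc, hb,
      ← LinearMap.comp_assoc, ha, LinearMap.comp_assoc]
  add_mem' := by
    rintro a b ⟨s, hs, ha⟩ ⟨t, ht, hb⟩
    refine ⟨s + t, A₁.add_mem hs ht, ?_⟩
    rw [LinearMap.add_comp, LinearMap.comp_add, ha, hb]
  algebraMap_mem' := by
    intro z
    refine ⟨algebraMap ℤ (Module.End R V₁) z, A₁.algebraMap_mem z, ?_⟩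
    refine LinearMap.ext fun v => ?_
    rw [LinearMap.comp_apply, LinearMap.comp_apply, Module.algebraMap_end_apply,
      Module.algebraMap_end_apply, map_zsmul]

theorem mem_sub {ι : V₁ →ₗ[R] V₂} {A₁ : Subalgebra ℤ (Module.End R V₁)}
    {t₂ : Module.End R V₂} : t₂ ∈ sub ι A₁ ↔ ∃ t ∈ A₁, t₂ ∘ₗ ι = ι ∘ₗ t := Iff.rfl

/-- uniqueness of the restriction. -/
theorem eq_of_comp_eq {ι : V₁ →ₗ[R] V₂} (hι : Function.Injective ι) {s t : Module.End R V₁}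
    (h : ι ∘ₗ s = ι ∘ₗ t) : s = t :=
  LinearMap.ext fun v => hι (LinearMap.congr_fun h v)

variable (ι : V₁ →ₗ[R] V₂) (hι : Function.Injective ι) (A₁ : Subalgebra ℤ (Module.End R V₁))
  (A₂ : Subalgebra ℤ (Module.End R V₂)) (hA : A₂ ≤ sub ι A₁)

/-- the restriction of `t₂ ∈ A₂` along `ι`, an element of `A₁`. -/
noncomputable def resFun (t₂ : A₂) : A₁ :=
  ⟨(hA t₂.2).choose, (hA t₂.2).choose_spec.1⟩

theorem resFun_spec (t₂ : A₂) :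
    (t₂ : Module.End R V₂) ∘ₗ ι = ι ∘ₗ (resFun ι A₁ A₂ hA t₂ : Module.End R V₁) :=
  (hA t₂.2).choose_spec.2

include hι in
theorem resFun_eq (t₂ : A₂) (t : A₁)
    (h : (t₂ : Module.End R V₂) ∘ₗ ι = ι ∘ₗ (t : Module.End R V₁)) :
    resFun ι A₁ A₂ hA t₂ = t :=
  Subtype.ext (eq_of_comp_eq hι ((resFun_spec ι A₁ A₂ hA t₂).symm.trans h))

/-- **the restriction homomorphism** `A₂ →+* A₁`. -/
noncomputable def resHom : A₂ →+* A₁ where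
  toFun := resFun ι A₁ A₂ hA
  map_one' := resFun_eq ι hι A₁ A₂ hA 1 1 (by
    show (1 : Module.End R V₂) ∘ₗ ι = ι ∘ₗ (1 : Module.End R V₁)
    rw [Module.End.one_eq_id, Module.End.one_eq_id, LinearMap.id_comp, LinearMap.comp_id])
  map_mul' a b := resFun_eq ι hι A₁ A₂ hA (a * b) _ (by
    show ((a : Module.End R V₂) * (b : Module.End R V₂)) ∘ₗ ι
      = ι ∘ₗ ((resFun ι A₁ A₂ hA a : Module.End R V₁) * (resFun ι A₁ A₂ hA b : Module.End R V₁))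
    rw [Module.End.mul_eq_comp, Module.End.mul_eq_comp, LinearMap.comp_assoc,
      resFun_spec ι A₁ A₂ hA b, ← LinearMap.comp_assoc, resFun_spec ι A₁ A₂ hA a,
      LinearMap.comp_assoc])
  map_zero' := resFun_eq ι hι A₁ A₂ hA 0 0 (by
    show (0 : Module.End R V₂) ∘ₗ ι = ι ∘ₗ (0 : Module.End R V₁)
    rw [LinearMap.zero_comp, LinearMap.comp_zero])
  map_add' a b := resFun_eq ι hι A₁ A₂ hA (a + b) _ (by
    show ((a : Module.End R V₂) + (b : Module.End R V₂)) ∘ₗ ι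
      = ι ∘ₗ ((resFun ι A₁ A₂ hA a : Module.End R V₁) + (resFun ι A₁ A₂ hA b : Module.End R V₁))
    rw [LinearMap.add_comp, LinearMap.comp_add, resFun_spec ι A₁ A₂ hA a,
      resFun_spec ι A₁ A₂ hA b])

theorem resHom_spec (t₂ : A₂) :
    (t₂ : Module.End R V₂) ∘ₗ ι = ι ∘ₗ (resHom ι hι A₁ A₂ hA t₂ : Module.End R V₁) :=
  resFun_spec ι A₁ A₂ hA t₂

theorem resHom_apply_apply (t₂ : A₂) (v : V₁) :
    (t₂ : Module.End R V₂) (ι v) = ι ((resHom ι hι A₁ A₂ hA t₂ : Module.End R V₁) v) :=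
  LinearMap.congr_fun (resHom_spec ι hι A₁ A₂ hA t₂) v

theorem resHom_eq (t₂ : A₂) (t : A₁)
    (h : (t₂ : Module.End R V₂) ∘ₗ ι = ι ∘ₗ (t : Module.End R V₁)) :
    resHom ι hι A₁ A₂ hA t₂ = t :=
  resFun_eq ι hι A₁ A₂ hA t₂ t h

end Intertwine

/-! ### restriction of forms along `M₁ ∣ M₂` -/

section Forms

variable {M₁ M₂ : ℕ}

theorem gamma0_le_of_dvd (h : M₁ ∣ M₂) : Gamma0 M₂ ≤ Gamma0 M₁ := by
  intro γ hγ
  rw [Gamma0_mem] at hγ ⊢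
  rw [CharP.intCast_eq_zero_iff (ZMod M₂) M₂] at hγ
  rw [CharP.intCast_eq_zero_iff (ZMod M₁) M₁]
  exact (Int.natCast_dvd_natCast.mpr h).trans hγ

theorem G0_le_of_dvd (h : M₁ ∣ M₂) : G0 M₂ ≤ G0 M₁ :=
  Subgroup.map_mono (gamma0_le_of_dvd h)

/-- the restriction `S₂(Γ₀(M₁)) → S₂(Γ₀(M₂))`, `M₁ ∣ M₂`, as a `ℂ`-linear map. -/
noncomputable def resForm (h : M₁ ∣ M₂) :
    CuspForm (Gamma0 M₁) 2 →ₗ[ℂ] CuspForm (Gamma0 M₂) 2 where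
  toFun := restrict (G0_le_of_dvd h)
  map_add' _ _ := rfl
  map_smul' _ _ := rfl

theorem qCoeff_resForm (h : M₁ ∣ M₂) (g : CuspForm (Gamma0 M₁) 2) (n : ℕ) :
    qCoeff (resForm h g) n = qCoeff g n := rfl

theorem resForm_injective (h : M₁ ∣ M₂) : Function.Injective (resForm h) :=
  fun f g hfg => ext_qCoeff fun n => by rw [← qCoeff_resForm h f n, hfg, qCoeff_resForm]

/-- **`T_ℓ` commutes with the restriction to a deeper level** (`ℓ ∤ M₂`). -/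
theorem heckeTLin_resForm (h : M₁ ∣ M₂) {ℓ : ℕ} (hℓ : ℓ.Prime) (hℓ₁ : ¬ ℓ ∣ M₁) (hℓ₂ : ¬ ℓ ∣ M₂)
    (g : CuspForm (Gamma0 M₁) 2) :
    heckeTLin 2 hℓ hℓ₂ (resForm h g) = resForm h (heckeTLin 2 hℓ hℓ₁ g) := by
  refine ext_qCoeff fun n => ?_
  rw [qCoeff_resForm, qCoeff_heckeTLin, qCoeff_heckeTLin, qCoeff_resForm, qCoeff_resForm]

theorem heckeTLin_comp_resForm (h : M₁ ∣ M₂) {ℓ : ℕ} (hℓ : ℓ.Prime) (hℓ₁ : ¬ ℓ ∣ M₁)
    (hℓ₂ : ¬ ℓ ∣ M₂) :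
    heckeTLin 2 hℓ hℓ₂ ∘ₗ resForm h = resForm h ∘ₗ heckeTLin 2 hℓ hℓ₁ :=
  LinearMap.ext fun g => heckeTLin_resForm h hℓ hℓ₁ hℓ₂ g

end Forms

/-! ### the restriction homomorphism of Hecke algebras -/

section Hecke

variable {M₁ M₂ : ℕ} [NeZero M₁] [NeZero M₂] {S₁ S₂ : Set ℕ}

/-- every element of `heckeAlgebra M₂ 2 S₂` restricts along `resForm` into `heckeAlgebra M₁ 2 S₁`. -/
theorem heckeAlgebra_le_sub (h : M₁ ∣ M₂) (hS : S₁ ⊆ S₂)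
    (hMS : ∀ q : ℕ, q.Prime → q ∣ M₂ → q ∈ S₂) :
    heckeAlgebra M₂ 2 S₂ ≤ Intertwine.sub (resForm h) (heckeAlgebra M₁ 2 S₁) := by
  refine Algebra.adjoin_le ?_
  rintro T (⟨ℓ, hℓ, hℓN, hℓS, rfl⟩ | ⟨q, hqN, hq, hqS, rfl⟩)
  · have hℓ₁ : ¬ ℓ ∣ M₁ := fun h' => hℓN (h'.trans h)
    exact ⟨heckeTLin 2 hℓ hℓ₁, heckeTLin_mem_heckeAlgebra hℓ hℓ₁ (fun h' => hℓS (hS h')),
      heckeTLin_comp_resForm h hℓ hℓ₁ hℓN⟩
  · exact absurd (hMS q hq hqN) hqS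

/-- **the restriction homomorphism** `heckeAlgebra M₂ 2 S₂ →+* heckeAlgebra M₁ 2 S₁`
(`M₁ ∣ M₂`, `S₁ ⊆ S₂`, `S₂` contains the primes of `M₂`). -/
noncomputable def rHecke (h : M₁ ∣ M₂) (hS : S₁ ⊆ S₂)
    (hMS : ∀ q : ℕ, q.Prime → q ∣ M₂ → q ∈ S₂) :
    heckeAlgebra M₂ 2 S₂ →+* heckeAlgebra M₁ 2 S₁ :=
  Intertwine.resHom (resForm h) (resForm_injective h) (heckeAlgebra M₁ 2 S₁)
    (heckeAlgebra M₂ 2 S₂) (heckeAlgebra_le_sub h hS hMS)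

theorem rHecke_spec (h : M₁ ∣ M₂) (hS : S₁ ⊆ S₂) (hMS : ∀ q : ℕ, q.Prime → q ∣ M₂ → q ∈ S₂)
    (t : heckeAlgebra M₂ 2 S₂) (f : CuspForm (Gamma0 M₁) 2) :
    (t : Module.End ℂ (CuspForm (Gamma0 M₂) 2)) (resForm h f)
      = resForm h ((rHecke h hS hMS t : Module.End ℂ (CuspForm (Gamma0 M₁) 2)) f) :=
  Intertwine.resHom_apply_apply (resForm h) (resForm_injective h) _ _
    (heckeAlgebra_le_sub h hS hMS) t f

/-- **`rHecke (T_ℓ) = T_ℓ`**. -/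
theorem rHecke_T (h : M₁ ∣ M₂) (hS : S₁ ⊆ S₂) (hMS : ∀ q : ℕ, q.Prime → q ∣ M₂ → q ∈ S₂)
    {ℓ : ℕ} (hℓ : ℓ.Prime) (hℓ₂ : ¬ ℓ ∣ M₂) (hℓS₂ : ℓ ∉ S₂) (hℓ₁ : ¬ ℓ ∣ M₁) (hℓS₁ : ℓ ∉ S₁) :
    rHecke h hS hMS (heckeAlgebra.T hℓ hℓ₂ hℓS₂) = heckeAlgebra.T hℓ hℓ₁ hℓS₁ :=
  Intertwine.resHom_eq (resForm h) (resForm_injective h) _ _ (heckeAlgebra_le_sub h hS hMS)
    (heckeAlgebra.T hℓ hℓ₂ hℓS₂) (heckeAlgebra.T hℓ hℓ₁ hℓS₁)
    (heckeTLin_comp_resForm h hℓ hℓ₁ hℓ₂)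

end Hecke

end Fermat.Agent.GE8.Deside.HeckeRes
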