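/-
GATE-E / RISK-3 DESIDE, (g4) in hypothesis form over the LATTICE statement (helper11; node table 7617
of helper57): **`G4Stmt` (the Hecke-side binder of `Assemble.galPkgSONoSideNew_of_g4`) from
helper57's `HeckeRes.rHecke` and the lattice restriction (R2) of helper42.**

* `tensorEndAlg_intertwine`, `ann_transfer` : ABSTRACT (Mathlib + `GJ/Tate/Faithful`) — `f : Λ₁ → Λ₂`
  `ℤ`-linear injective intertwining the actions of `A₁`, `A₂` through `r : A₂ →+* A₁`, `f Λ'₁ ⊆ Λ'₂`,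
  `R` flat over `ℤ`: an element `t₀ ∈ R ⊗ A₂` killing `R ⊗ Λ'₂` has `(1 ⊗ r) t₀` killing `R ⊗ Λ'₁`;
* `LatStmt` : the lattice statement (R2) in the exact form used: for every ring hom `r` of the Hecke
  algebras with `r (T_ℓ) = T_ℓ` an injective `ℤ`-linear `f : Lam (N' p) → Lam (N' 2 p)` intertwining
  the lattice actions through `r` and mapping `LamNew` into `LamNew`;
* `g4Stmt_of_lat : LatStmt → Assemble.G4Stmt` (with `resH := HeckeRes.rHecke`).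
-/
import Fermat.Agent.GE8.Deside.Assemble
import Fermat.Agent.GE8.Deside.HeckeRes

set_option autoImplicit false
set_option linter.unusedSectionVars false
set_option linter.unusedVariables false

noncomputable section

namespace Fermat.Agent.GE8.Deside.G4OfLat

open TensorProduct CuspForm
open Fermat.Agent.GK.AL Fermat.Agent.GJ.Tate Fermat.Agent.GJ.Tate.Lim
open Fermat.Agent.GB.B10.KumLevelHecke Fermat.Agent.GB.B10.L.ThetaNew
open Fermat.Agent.GB.B10.L.StrictQNew Fermat.Agent.GE8.Deside.Assemble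

/-! ### abstract transfer of annihilators -/

section Abstract

variable {R : Type} [CommRing R] {Λ₁ Λ₂ : Type} [AddCommGroup Λ₁] [AddCommGroup Λ₂]
  {A₁ A₂ : Type} [CommRing A₁] [CommRing A₂]

/-- `(1 ⊗ f)` intertwines the action of `(1 ⊗ r) t₀` on `R ⊗ Λ₁` with the action of `t₀` on
`R ⊗ Λ₂`. -/
theorem tensorEndAlg_intertwine (ι₁ : A₁ →ₐ[ℤ] Module.End ℤ Λ₁)
    (ι₂ : A₂ →ₐ[ℤ] Module.End ℤ Λ₂) (r : A₂ →+* A₁) (f : Λ₁ →ₗ[ℤ] Λ₂)
    (hf : ∀ t x, ι₂ t (f x) = f (ι₁ (r t) x)) (t₀ : R ⊗[ℤ] A₂) (z : R ⊗[ℤ] Λ₁) :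
    f.baseChange R (tensorEndAlg R ι₁ (mapO R r t₀) z) =
      tensorEndAlg R ι₂ t₀ (f.baseChange R z) := by
  induction t₀ using TensorProduct.induction_on generalizing z with
  | zero => rw [map_zero, map_zero, map_zero, LinearMap.zero_apply, LinearMap.zero_apply, map_zero]
  | tmul c t =>
    rw [mapO_tmul, tensorEndAlg_tmul, tensorEndAlg_tmul, LinearMap.smul_apply,
      LinearMap.smul_apply, map_smul]
    congr 1
    induction z using TensorProduct.induction_on with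
    | zero => rw [map_zero, map_zero, map_zero]
    | tmul a x =>
      rw [LinearMap.baseChange_tmul, LinearMap.baseChange_tmul, LinearMap.baseChange_tmul,
        LinearMap.baseChange_tmul, hf]
    | add z w hz hw => rw [map_add, map_add, map_add, map_add, hz, hw]
  | add s t hs ht =>
    rw [map_add, map_add, map_add, LinearMap.add_apply, LinearMap.add_apply, map_add, hs, ht]

/-- **transfer of annihilators** along an injective intertwiner (`R` flat over `ℤ`). -/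
theorem ann_transfer [Module.Flat ℤ R] (ι₁ : A₁ →ₐ[ℤ] Module.End ℤ Λ₁)
    (ι₂ : A₂ →ₐ[ℤ] Module.End ℤ Λ₂) (r : A₂ →+* A₁) (f : Λ₁ →ₗ[ℤ] Λ₂)
    (hf : ∀ t x, ι₂ t (f x) = f (ι₁ (r t) x)) (hfinj : Function.Injective f)
    (Λ'₁ : AddSubgroup Λ₁) (Λ'₂ : AddSubgroup Λ₂) (hmem : ∀ x ∈ Λ'₁, f x ∈ Λ'₂)
    (t₀ : R ⊗[ℤ] A₂)
    (h₂ : ∀ (a : R), ∀ y ∈ Λ'₂, tensorEndAlg R ι₂ t₀ (a ⊗ₜ[ℤ] y) = 0) :
    ∀ (a : R), ∀ x ∈ Λ'₁, tensorEndAlg R ι₁ (mapO R r t₀) (a ⊗ₜ[ℤ] x) = 0 := by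
  intro a x hx
  have hinj : Function.Injective (f.baseChange R) := by
    rw [LinearMap.baseChange_eq_ltensor]
    exact Module.Flat.lTensor_preserves_injective_linearMap f hfinj
  apply hinj
  rw [tensorEndAlg_intertwine ι₁ ι₂ r f hf, map_zero, LinearMap.baseChange_tmul]
  exact h₂ a (f x) (hmem x hx)

end Abstract

/-! ### the lattice statement and `G4Stmt` -/

section G4

/-- **the lattice statement (R2)**, in the form used by `g4Stmt_of_lat`. -/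
def LatStmt : Prop :=
  ∀ {N' p : ℕ} [NeZero N'] [Fact p.Prime] {S : Finset ℕ}
    (h : ExactDvd p (N' * p)) (h₂ : ExactDvd p (N' * 2 * p))
    (hpS : p ∈ S) (hNS : ∀ r : ℕ, r.Prime → r ∣ N' * p → r ∈ S)
    (hpS₂ : p ∈ insert 2 S) (hNS₂ : ∀ r : ℕ, r.Prime → r ∣ N' * 2 * p → r ∈ insert 2 S)
    (r : heckeAlgebra (N' * 2 * p) 2 (↑(insert 2 S) : Set ℕ) →+*
      heckeAlgebra (N' * p) 2 (↑S : Set ℕ))
    (hr : ∀ (ℓ : ℕ) (hℓ : ℓ.Prime) (hℓN₂ : ¬ ℓ ∣ N' * 2 * p)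
      (hℓS₂ : ℓ ∉ (↑(insert 2 S) : Set ℕ)) (hℓN : ¬ ℓ ∣ N' * p) (hℓS : ℓ ∉ (↑S : Set ℕ)),
      r (heckeAlgebra.T hℓ hℓN₂ hℓS₂) = heckeAlgebra.T hℓ hℓN hℓS),
    ∃ f : (levelData p (N' * p) hpS hNS).Λ →ₗ[ℤ] (levelData p (N' * 2 * p) hpS₂ hNS₂).Λ,
      Function.Injective f ∧
      (∀ t x, (levelData p (N' * 2 * p) hpS₂ hNS₂).act t (f x) =
        f ((levelData p (N' * p) hpS hNS).act (r t) x)) ∧
      ∀ x ∈ (LamNew (not_dvd_of_exactDvd h) : AddSubgroup (levelData p (N' * p) hpS hNS).Λ),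
        f x ∈ (LamNew (not_dvd_of_exactDvd h₂) :
          AddSubgroup (levelData p (N' * 2 * p) hpS₂ hNS₂).Λ)

/-- **`G4Stmt` from the lattice statement**, with `resH := HeckeRes.rHecke`. -/
theorem g4Stmt_of_lat (hLat : LatStmt) : G4Stmt := by
  intro N' p _ _ S 𝒪 _ _ _ h h₂ hpS hNS hpS₂ hNS₂
  have hdvd : N' * p ∣ N' * 2 * p := Nat.mul_dvd_mul_right (Dvd.intro 2 rfl) p
  have hSS : (↑S : Set ℕ) ⊆ (↑(insert 2 S) : Set ℕ) := fun x hx =>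
    Finset.mem_coe.mpr (Finset.mem_insert_of_mem (Finset.mem_coe.mp hx))
  have hMS : ∀ q : ℕ, q.Prime → q ∣ N' * 2 * p → q ∈ (↑(insert 2 S) : Set ℕ) :=
    fun q hq hd => Finset.mem_coe.mpr (hNS₂ q hq hd)
  have hrT : ∀ (ℓ : ℕ) (hℓ : ℓ.Prime) (hℓN₂ : ¬ ℓ ∣ N' * 2 * p)
      (hℓS₂ : ℓ ∉ (↑(insert 2 S) : Set ℕ)) (hℓN : ¬ ℓ ∣ N' * p) (hℓS : ℓ ∉ (↑S : Set ℕ)),
      Fermat.Agent.GE8.Deside.HeckeRes.rHecke hdvd hSS hMS (heckeAlgebra.T hℓ hℓN₂ hℓS₂) =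
        heckeAlgebra.T hℓ hℓN hℓS := fun ℓ hℓ hℓN₂ hℓS₂ hℓN hℓS =>
    Fermat.Agent.GE8.Deside.HeckeRes.rHecke_T hdvd hSS hMS hℓ hℓN₂ hℓS₂ hℓN hℓS
  refine ⟨Fermat.Agent.GE8.Deside.HeckeRes.rHecke hdvd hSS hMS, hrT, ?_⟩
  obtain ⟨f, hfinj, hf, hmem⟩ := hLat h h₂ hpS hNS hpS₂ hNS₂ _ hrT
  have hflat : Module.Flat ℤ 𝒪 := inferInstance
  intro t₀ ht₀
  exact ann_transfer (R := 𝒪) (levelData p (N' * p) hpS hNS).actAlg
    (levelData p (N' * 2 * p) hpS₂ hNS₂).actAlg _ f hf hfinj _ _ hmem t₀ ht₀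

end G4

end Fermat.Agent.GE8.Deside.G4OfLat

end
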