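/-
GATE-E / RISK-3 DESIDE, leaf (g3') (helper42): **restriction to a deeper level commutes with the
`p`-transfers**, hence maps `p`-new classes to `p`-new classes.

`N ∣ N'`, `p` prime, `p ∤ N'`.  On `Hom(Γ₀(·), A)` (GATE-M vocabulary, `GM/B`):

* `resLe A h : Hom(Γ₀(M₁), A) →+ Hom(Γ₀(M₂), A)` for `h : M₁ ∣ M₂` (precomposition with the
  inclusion; `resLe_eq_res : resLe A (dvd_mul_right N q) = res A N q`);
* `resLe_cohT`      : `resLe` commutes with `T_ℓ`, `ℓ ∤ M₂`;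
* `resLe_injective` : `resLe` is injective for torsion-free coefficients (`M₂ ≠ 0`);
* `cores_resLe`     : `cores_p^{N'} ∘ resLe = resLe ∘ cores_p^{N}`   (Mackey, ONE double coset);
* `wOp_resLe`       : `w_p^{N'} ∘ resLe = resLe ∘ w_p^{N}`            (Atkin–Lehner at `p`);
* `coresD_resLe`    : `coresD_p^{N'} ∘ resLe = resLe ∘ coresD_p^{N}`;
* `cores_resLe_eq_zero`, `coresD_resLe_eq_zero` : the `p`-new conditions are preserved;
* `resLeP` : the same map on parabolic classes (`opPar`), with `resLeP_coe`.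
-/
import Mathlib
import Fermat.Agent.GM.B.EquivCores
import Fermat.Agent.GM.B.AtkinLehner

set_option autoImplicit false
set_option linter.unusedSectionVars false
set_option linter.unreachableTactic false
set_option linter.unusedTactic false

open scoped MatrixGroups
open CongruenceSubgroup Matrix Matrix.SpecialLinearGroup ModularCurve.Period
open P2MW.S_ModularForm_heckeT_slash_eq_self_of_mem_Gamma0.ModularForm.HeckeSlashInvariance
open P2MW.S_ModularForm_heckeT_slash_eq_self_of_mem_Gamma0.ModularForm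
open Fermat.Agent.S16_helper49
open Fermat.Agent.GM.Amalgam
open Fermat.Agent.GM.B
open scoped OnePoint

namespace Fermat.Agent.GE8.Deside.ResNew

/-! ### restriction along a divisibility of levels -/

section Res

variable {M₁ M₂ : ℕ}

theorem gamma0_le_of_dvd (h : M₁ ∣ M₂) : Gamma0 M₂ ≤ Gamma0 M₁ := by
  intro g hg
  have h1 : (M₂ : ℤ) ∣ g 1 0 := dvd_of_mem_Gamma0 (⟨g, hg⟩ : Gamma0 M₂)
  exact mem_Gamma0_of_dvd (dvd_trans (Int.natCast_dvd_natCast.mpr h) h1)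

/-- the coset system of the restriction `Hom(Γ₀(M₁)) → Hom(Γ₀(M₂))`, `M₁ ∣ M₂` -/
noncomputable def resLeSys (h : M₁ ∣ M₂) : CosetSys embR (Gamma0 M₁) (Gamma0 M₂) :=
  CosetSys.single embR 1 (Subgroup.inclusion (gamma0_le_of_dvd h))
    (fun g => by rw [one_mul, mul_one]; rfl)

theorem resLeSys_a (h : M₁ ∣ M₂) (u : Unit) : (resLeSys h).a u = 1 := rfl

variable (A : Type*) [AddCommGroup A]

/-- **restriction** `Hom(Γ₀(M₁), A) →+ Hom(Γ₀(M₂), A)` for `M₁ ∣ M₂` -/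
noncomputable def resLe (h : M₁ ∣ M₂) :
    (Additive (Gamma0 M₁) →+ A) →+ (Additive (Gamma0 M₂) →+ A) :=
  (resLeSys h).op A

variable {A}

theorem resLe_apply (h : M₁ ∣ M₂) (φ : Additive (Gamma0 M₁) →+ A) (g : Gamma0 M₂) :
    resLe A h φ (Additive.ofMul g)
      = φ (Additive.ofMul (Subgroup.inclusion (gamma0_le_of_dvd h) g)) :=
  CosetSys.single_op_apply _ _ _ φ g

/-- `resLe` along `N ∣ N q` is GATE-M's `res`. -/
theorem resLe_eq_res (N q : ℕ) (φ : Additive (Gamma0 N) →+ A) :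
    resLe A (dvd_mul_right N q) φ = res A N q φ := by
  refine AddMonoidHom.ext fun g => ?_
  obtain ⟨g, rfl⟩ : ∃ g' : Gamma0 (N * q), Additive.ofMul g' = g := ⟨Additive.toMul g, rfl⟩
  rw [resLe_apply, res_apply]
  congr 2
  exact Subtype.ext (degenOne_coe g).symm

/-- **`resLe` commutes with `T_ℓ`** (`ℓ ∤ M₂`). -/
theorem resLe_cohT {ℓ : ℕ} [Fact ℓ.Prime] (h : M₁ ∣ M₂) (hℓ₁ : ¬ ℓ ∣ M₁) (hℓ : ¬ ℓ ∣ M₂)
    (φ : Additive (Gamma0 M₁) →+ A) :
    resLe A h (cohT hℓ₁ A φ) = cohT hℓ A (resLe A h φ) := by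
  rw [← heckeSys_op, ← heckeSys_op]
  unfold resLe
  rw [← CosetSys.op_comp, ← CosetSys.op_comp]
  have hdist : ((heckeSys hℓ₁).comp (resLeSys h)).Distinct := by
    rintro ⟨(x : OnePoint (ZMod ℓ)), (u : Unit)⟩ ⟨(x' : OnePoint (ZMod ℓ)), (u' : Unit)⟩ γ h'
    have h1 := (CosetSys.comp_a (heckeSys hℓ₁) (resLeSys h) x u).symm.trans
      (h'.trans (congrArg (fun t => embR ((γ : Gamma0 M₁) : SL(2, ℤ)) * t)
        (CosetSys.comp_a (heckeSys hℓ₁) (resLeSys h) x' u')))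
    simp only [resLeSys_a, mul_one] at h1
    have hx : x = x' := heckeSys_distinct hℓ₁ x x' γ h1
    subst hx
    rfl
  refine CosetSys.op_eq_of_cosets ((resLeSys h).comp (heckeSys hℓ))
    ((heckeSys hℓ₁).comp (resLeSys h)) embR_injective hdist
    (Equiv.prodComm Unit (OnePoint (ZMod ℓ))) 1 (fun x => by rw [one_mul, mul_one])
    (fun _ => 1) ?_ φ
  rintro ⟨(u : Unit), (x : OnePoint (ZMod ℓ))⟩
  refine (CosetSys.comp_a (heckeSys hℓ₁) (resLeSys h) x u).trans ?_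
  refine Eq.trans ?_ (congrArg (fun t => 1 * embR (((1 : Gamma0 M₁)) : SL(2, ℤ)) * t)
    (CosetSys.comp_a (resLeSys h) (heckeSys hℓ) u x).symm)
  have h4 : (heckeSys hℓ).a x = heckeRep ℓ x := rfl
  have h5 : (heckeSys hℓ₁).a x = heckeRep ℓ x := rfl
  rw [h4, h5]
  simp only [resLeSys_a, Subgroup.coe_one, map_one, one_mul, mul_one]

/-- a positive power of every element of `SL(2, ℤ)` lies in `Γ₀(M)`, `M ≠ 0`. -/
theorem exists_pow_mem_gamma0 (M : ℕ) [NeZero M] (g : SL(2, ℤ)) :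
    ∃ k : ℕ, 0 < k ∧ g ^ k ∈ Gamma0 M := by
  have : (Gamma M).Normal := Gamma_normal M
  refine ⟨(Gamma M).index, Nat.pos_of_ne_zero Subgroup.FiniteIndex.index_ne_zero, ?_⟩
  have h1 : g ^ (Gamma M).index ∈ Gamma M := Subgroup.pow_index_mem (Gamma M) g
  exact Gamma0_mem.mpr (Gamma_mem.mp h1).2.2.1

/-- **`resLe` is injective** for torsion-free coefficients. -/
theorem resLe_injective [NeZero M₂] [IsAddTorsionFree A] (h : M₁ ∣ M₂) :
    Function.Injective (resLe A h) := by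
  rw [injective_iff_map_eq_zero]
  intro φ hφ
  refine AddMonoidHom.ext fun g => ?_
  obtain ⟨g, rfl⟩ : ∃ g' : Gamma0 M₁, Additive.ofMul g' = g := ⟨Additive.toMul g, rfl⟩
  obtain ⟨k, hk, hmem⟩ := exists_pow_mem_gamma0 M₂ (g : SL(2, ℤ))
  have h1 := congrArg (fun ψ : Additive (Gamma0 M₂) →+ A =>
    ψ (Additive.ofMul (⟨(g : SL(2, ℤ)) ^ k, hmem⟩ : Gamma0 M₂))) hφ
  simp only [resLe_apply, AddMonoidHom.zero_apply] at h1
  have h2 : Subgroup.inclusion (gamma0_le_of_dvd h) (⟨(g : SL(2, ℤ)) ^ k, hmem⟩ : Gamma0 M₂)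
      = g ^ k := Subtype.ext rfl
  rw [h2, ofMul_pow, map_nsmul] at h1
  rw [AddMonoidHom.zero_apply]
  exact (nsmul_eq_zero_iff_right hk.ne').mp h1

/-- `resLe` on parabolic classes. -/
noncomputable def resLeP (A : Type*) [AddCommGroup A] (h : M₁ ∣ M₂) :
    parabolicHoms ℤ (Gamma0 M₁) A →+ parabolicHoms ℤ (Gamma0 M₂) A := opPar (resLeSys h) A

@[simp] theorem resLeP_coe (h : M₁ ∣ M₂) (φ : parabolicHoms ℤ (Gamma0 M₁) A) :
    ((resLeP A h φ : parabolicHoms ℤ (Gamma0 M₂) A) : Additive (Gamma0 M₂) →+ A)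
      = resLe A h φ.1 := rfl

end Res

/-! ### commutation with the `p`-transfers -/

section Transfers

variable {N N' p : ℕ} [Fact p.Prime] {A : Type*} [AddCommGroup A]

theorem not_dvd_of_dvd (hNN' : N ∣ N') (hpN' : ¬ p ∣ N') : ¬ p ∣ N :=
  fun h => hpN' (h.trans hNN')

theorem lower_left_mul_inv (a b : SL(2, ℤ)) : (a * b⁻¹) 1 0 = a 1 0 * b 1 1 - a 1 1 * b 1 0 := by
  have h : ((a * b⁻¹ : SL(2, ℤ)) : Matrix (Fin 2) (Fin 2) ℤ)
      = (a : Matrix (Fin 2) (Fin 2) ℤ) * (b : Matrix (Fin 2) (Fin 2) ℤ).adjugate := by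
    rw [Matrix.SpecialLinearGroup.coe_mul, Matrix.SpecialLinearGroup.coe_inv]
  show ((a * b⁻¹ : SL(2, ℤ)) : Matrix (Fin 2) (Fin 2) ℤ) 1 0 = _
  rw [h, Matrix.adjugate_fin_two, Matrix.mul_apply, Fin.sum_univ_two]
  simp
  ring

/-- `Γ₀(N') ∩ Γ₀(N p) ≤ Γ₀(N' p)` for `p ∤ N'`. -/
theorem mem_gamma0_mul_of_mem (hpN' : ¬ p ∣ N') {g : SL(2, ℤ)} (h1 : g ∈ Gamma0 N')
    (h2 : g ∈ Gamma0 (N * p)) : g ∈ Gamma0 (N' * p) := by
  have d1 : (N' : ℤ) ∣ g 1 0 := dvd_of_mem_Gamma0 (⟨g, h1⟩ : Gamma0 N')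
  have d2 : ((N * p : ℕ) : ℤ) ∣ g 1 0 := dvd_of_mem_Gamma0 (⟨g, h2⟩ : Gamma0 (N * p))
  have d3 : (p : ℤ) ∣ g 1 0 := by
    refine Dvd.dvd.trans ?_ d2
    push_cast
    exact dvd_mul_left _ _
  have hcop : IsCoprime (N' : ℤ) (p : ℤ) := by
    have hcopNat : Nat.Coprime p N' := (Nat.Prime.coprime_iff_not_dvd Fact.out).mpr hpN'
    exact (Nat.isCoprime_iff_coprime.mpr hcopNat).symm
  apply mem_Gamma0_of_dvd
  push_cast
  exact hcop.mul_dvd d1 d3

/-- the transversal of level `N'`, viewed in `Γ₀(N)` -/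
noncomputable def gx (hNN' : N ∣ N') (hpN' : ¬ p ∣ N') (x : OnePoint (ZMod p)) : Gamma0 N :=
  Subgroup.inclusion (gamma0_le_of_dvd hNN')
    (rC N' p (bez hpN').1 (bez hpN').2 (bez_spec hpN') x)

theorem gx_coe (hNN' : N ∣ N') (hpN' : ¬ p ∣ N') (x : OnePoint (ZMod p)) :
    ((gx hNN' hpN' x : Gamma0 N) : SL(2, ℤ))
      = ((rC N' p (bez hpN').1 (bez hpN').2 (bez_spec hpN') x : Gamma0 N') : SL(2, ℤ)) := rfl

/-- `resLe` then `cores` at level `N'` has distinct cosets modulo `Γ₀(N p)` -/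
theorem resLeSys_comp_coresSys'_distinct (hNN' : N ∣ N') (hpN' : ¬ p ∣ N') :
    ((resLeSys (Nat.mul_dvd_mul_right hNN' p)).comp (coresSys' hpN')).Distinct := by
  rintro ⟨(u : Unit), (x : OnePoint (ZMod p))⟩ ⟨(u' : Unit), (x' : OnePoint (ZMod p))⟩ γ h
  have h1 := (CosetSys.comp_a (resLeSys (Nat.mul_dvd_mul_right hNN' p)) (coresSys' hpN') u x).symm.trans
    (h.trans (congrArg (fun t => embR ((γ : Gamma0 (N * p)) : SL(2, ℤ)) * t)
      (CosetSys.comp_a (resLeSys (Nat.mul_dvd_mul_right hNN' p)) (coresSys' hpN') u' x')))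
  simp only [resLeSys_a, one_mul] at h1
  have h3 : ∀ y : OnePoint (ZMod p), (coresSys' hpN').a y
      = embR ((rC N' p (bez hpN').1 (bez hpN').2 (bez_spec hpN') y : Gamma0 N') : SL(2, ℤ)) :=
    fun y => coresSys_a hpN' _ _ _ y
  have h1' := h1
  rw [h3, h3, ← map_mul] at h1'
  have h4 := embR_injective h1'
  -- γ = r_x r_{x'}⁻¹ ∈ Γ₀(N') ∩ Γ₀(N p)
  have hγ : ((γ : Gamma0 (N * p)) : SL(2, ℤ))
      = ((rC N' p (bez hpN').1 (bez hpN').2 (bez_spec hpN') x *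
          (rC N' p (bez hpN').1 (bez hpN').2 (bez_spec hpN') x')⁻¹ : Gamma0 N') : SL(2, ℤ)) := by
    rw [Subgroup.coe_mul, Subgroup.coe_inv, h4, mul_inv_cancel_right]
  have hmem : ((γ : Gamma0 (N * p)) : SL(2, ℤ)) ∈ Gamma0 (N' * p) :=
    mem_gamma0_mul_of_mem hpN' (by rw [hγ]; exact SetLike.coe_mem _) γ.2
  have hx : x = x' := coresSys'_distinct hpN' x x' ⟨_, hmem⟩ h1
  subst hx
  rfl

/-- `cores` at level `N` then `resLe` has distinct cosets -/
theorem coresSys'_comp_resLeSys_distinct (hNN' : N ∣ N') (hpN : ¬ p ∣ N) :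
    ((coresSys' hpN).comp (resLeSys hNN')).Distinct := by
  rintro ⟨(y : OnePoint (ZMod p)), (u : Unit)⟩ ⟨(y' : OnePoint (ZMod p)), (u' : Unit)⟩ γ h
  have h1 := (CosetSys.comp_a (coresSys' hpN) (resLeSys hNN') y u).symm.trans
    (h.trans (congrArg (fun t => embR ((γ : Gamma0 (N * p)) : SL(2, ℤ)) * t)
      (CosetSys.comp_a (coresSys' hpN) (resLeSys hNN') y' u')))
  simp only [resLeSys_a, mul_one] at h1
  have hy : y = y' := coresSys'_distinct hpN y y' γ h1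
  subst hy
  rfl

/-- **`cores` commutes with the restriction to a deeper level prime to `p`** (Mackey: one double
coset). -/
theorem cores_resLe (hNN' : N ∣ N') (hpN' : ¬ p ∣ N') (ψ : Additive (Gamma0 (N * p)) →+ A) :
    cores A hpN' (resLe A (Nat.mul_dvd_mul_right hNN' p) ψ)
      = resLe A hNN' (cores A (not_dvd_of_dvd hNN' hpN') ψ) := by
  have hpN : ¬ p ∣ N := not_dvd_of_dvd hNN' hpN'
  unfold cores resLe
  rw [← CosetSys.op_comp, ← CosetSys.op_comp]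
  symm
  refine CosetSys.op_eq_of_contained
    ((resLeSys (Nat.mul_dvd_mul_right hNN' p)).comp (coresSys' hpN'))
    ((coresSys' hpN).comp (resLeSys hNN')) embR_injective
    (resLeSys_comp_coresSys'_distinct hNN' hpN') (coresSys'_comp_resLeSys_distinct hNN' hpN)
    (Fintype.card_congr (Equiv.prodComm Unit (OnePoint (ZMod p))))
    (fun i : Unit × OnePoint (ZMod p) =>
      (((coresSys' hpN).σ (gx hNN' hpN' i.2) (∞ : OnePoint (ZMod p)) : OnePoint (ZMod p)), ()))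
    1 (fun x => by rw [one_mul, mul_one])
    (fun i : Unit × OnePoint (ZMod p) =>
      ((coresSys' hpN).c (gx hNN' hpN' i.2) (∞ : OnePoint (ZMod p)))⁻¹)
    ?_ ψ
  rintro ⟨(u : Unit), (x : OnePoint (ZMod p))⟩
  have h2 := (coresSys' hpN).rel (gx hNN' hpN' x) (∞ : OnePoint (ZMod p))
  rw [coresSys'_a_infty, one_mul, gx_coe] at h2
  refine (CosetSys.comp_a (coresSys' hpN) (resLeSys hNN') _ _).trans ?_
  refine Eq.trans ?_ (congrArg (fun t => 1 * embR (((((coresSys' hpN).c (gx hNN' hpN' x)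
    (∞ : OnePoint (ZMod p)))⁻¹ : Gamma0 (N * p)) : SL(2, ℤ))) * t)
    (CosetSys.comp_a (resLeSys (Nat.mul_dvd_mul_right hNN' p)) (coresSys' hpN') u x).symm)
  have h3 : (coresSys' hpN').a x
      = embR ((rC N' p (bez hpN').1 (bez hpN').2 (bez_spec hpN') x : Gamma0 N') : SL(2, ℤ)) :=
    coresSys_a hpN' _ _ _ x
  rw [resLeSys_a, resLeSys_a, mul_one, one_mul, one_mul, h3, Subgroup.coe_inv, map_inv,
    eq_inv_mul_iff_mul_eq]
  exact h2.symm

/-- the comparison element `r₀' r₀⁻¹ ∈ Γ₀(N p)` of the two Atkin–Lehner matrices -/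
theorem rZero_mul_inv_mem (hNN' : N ∣ N') (hpN' : ¬ p ∣ N') :
    ((rZero hpN' : Gamma0 N') : SL(2, ℤ))
        * ((rZero (not_dvd_of_dvd hNN' hpN') : Gamma0 N) : SL(2, ℤ))⁻¹ ∈ Gamma0 (N * p) := by
  obtain ⟨k, rfl⟩ := hNN'
  apply mem_Gamma0_of_dvd
  rw [lower_left_mul_inv, rZero_coe, rZero_coe]
  refine ⟨(k : ℤ) * (bez (not_dvd_of_dvd (Dvd.intro k rfl) hpN')).2 - (bez hpN').2, ?_⟩
  simp [repC]
  ring

/-- **the Atkin–Lehner operator `w_p` commutes with the restriction to a deeper level prime to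
`p`.** -/
theorem wOp_resLe (hNN' : N ∣ N') (hpN' : ¬ p ∣ N') (ψ : Additive (Gamma0 (N * p)) →+ A) :
    wOp hpN' A (resLe A (Nat.mul_dvd_mul_right hNN' p) ψ)
      = resLe A (Nat.mul_dvd_mul_right hNN' p) (wOp (not_dvd_of_dvd hNN' hpN') A ψ) := by
  have hpN : ¬ p ∣ N := not_dvd_of_dvd hNN' hpN'
  unfold wOp resLe
  rw [← CosetSys.op_comp, ← CosetSys.op_comp]
  refine CosetSys.op_eq_of_equiv
    ((wSys hpN).comp (resLeSys (Nat.mul_dvd_mul_right hNN' p)))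
    ((resLeSys (Nat.mul_dvd_mul_right hNN' p)).comp (wSys hpN')) embR_injective
    (Equiv.refl (Unit × Unit)) 1 (fun x => by rw [one_mul, mul_one])
    (fun _ => ⟨_, rZero_mul_inv_mem hNN' hpN'⟩) ?_ ?_ ψ
  · rintro ⟨(u : Unit), (u' : Unit)⟩
    show (resLeSys (Nat.mul_dvd_mul_right hNN' p)).a u * wMat hpN'
      = 1 * embR (((rZero hpN' : Gamma0 N') : SL(2, ℤ)) * ((rZero hpN : Gamma0 N) : SL(2, ℤ))⁻¹)
        * (wMat hpN * (resLeSys (Nat.mul_dvd_mul_right hNN' p)).a u')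
    have e1 : ∀ v : Unit, (resLeSys (Nat.mul_dvd_mul_right hNN' p)).a v = 1 := fun _ => rfl
    rw [e1 u, one_mul, one_mul, mul_one]
    unfold wMat
    rw [map_mul, map_inv]
    group
  · intro g i
    rfl

/-- **`cores_δ` commutes with the restriction to a deeper level prime to `p`.** -/
theorem coresD_resLe (hNN' : N ∣ N') (hpN' : ¬ p ∣ N') (ψ : Additive (Gamma0 (N * p)) →+ A) :
    coresD A hpN' (resLe A (Nat.mul_dvd_mul_right hNN' p) ψ)
      = resLe A hNN' (coresD A (not_dvd_of_dvd hNN' hpN') ψ) := by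
  rw [← cores_wOp hpN', wOp_resLe hNN' hpN', cores_resLe hNN' hpN', cores_wOp]

/-- the first `p`-new condition is preserved by the restriction -/
theorem cores_resLe_eq_zero (hNN' : N ∣ N') (hpN' : ¬ p ∣ N')
    (ψ : Additive (Gamma0 (N * p)) →+ A) (h : cores A (not_dvd_of_dvd hNN' hpN') ψ = 0) :
    cores A hpN' (resLe A (Nat.mul_dvd_mul_right hNN' p) ψ) = 0 := by
  rw [cores_resLe hNN' hpN', h, map_zero]

/-- the second `p`-new condition is preserved by the restriction -/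
theorem coresD_resLe_eq_zero (hNN' : N ∣ N') (hpN' : ¬ p ∣ N')
    (ψ : Additive (Gamma0 (N * p)) →+ A) (h : coresD A (not_dvd_of_dvd hNN' hpN') ψ = 0) :
    coresD A hpN' (resLe A (Nat.mul_dvd_mul_right hNN' p) ψ) = 0 := by
  rw [coresD_resLe hNN' hpN', h, map_zero]

end Transfers

end Fermat.Agent.GE8.Deside.ResNew
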