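/-
GATE-E / RISK-3 DESIDE, leaf (R2) (helper42; pinned by helper57): **restriction of lattices
`latRes : Lam M₁ →ₗ[ℤ] Lam M₂` (`M₁ ∣ M₂`)** — injective, commutes with `latT ℓ` (`ℓ ∤ M₂`), intertwines
the Hecke actions `latAct` through ANY ring hom `r : 𝕋(M₂, S₂) → 𝕋(M₁, S₁)` with `r T_ℓ = T_ℓ`, and
maps the `p`-new lattice `ThetaNew.LamNew` at level `N p` into the one at level `N' p`
(`N ∣ N'`, `p ∤ N'`).

* `latRes h`, `latRes_coe` (`= ResNew.resLe ℤ h` on the underlying homs, `rfl`);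
* `latRes_injective`;
* `latT_latRes`       : `latT M₂ l (latRes h x) = latRes h (latT M₁ l x)`, `l ∤ M₂`;
* `latAct_latRes`     : `latAct M₂ S₂ t (latRes h x) = latRes h (latAct M₁ S₁ (r t) x)`;
* `latRes_mem_lamNew` : `x ∈ LamNew _ → latRes _ x ∈ LamNew hpN'`.
-/
import Fermat.Agent.GE8.Deside.ResNew
import Fermat.Agent.GM.B.Equivariance
import Fermat.Agent.GJ.J2.LatAct
import Fermat.Agent.GB.B10.L.ThetaNew

set_option autoImplicit false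
set_option linter.unusedSectionVars false

open scoped MatrixGroups
open CongruenceSubgroup ModularCurve ModularCurve.Period CuspForm
open Fermat.Agent.S16_helper49
open Fermat.Agent.GM.B
open Fermat.Agent.GJ.J2.Lat Fermat.Agent.GJ.J2.LatAct
open Fermat.Agent.GB.B10.L.ThetaNew
open Fermat.Agent.GE8.Deside.ResNew

noncomputable section

namespace Fermat.Agent.GE8.Deside.LatRes

section Gen

variable {M₁ M₂ : ℕ} [NeZero M₁] [NeZero M₂]

/-- **restriction of integral parabolic classes** `Lam M₁ →ₗ[ℤ] Lam M₂`, `M₁ ∣ M₂`. -/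
def latRes (h : M₁ ∣ M₂) : Lam M₁ →ₗ[ℤ] Lam M₂ := (resLeP ℤ h).toIntLinearMap

theorem latRes_coe (h : M₁ ∣ M₂) (x : Lam M₁) :
    ((latRes h x : Lam M₂) : Additive (Gamma0 M₂) →+ ℤ)
      = resLe ℤ h (x : Additive (Gamma0 M₁) →+ ℤ) := rfl

theorem latRes_apply (h : M₁ ∣ M₂) (x : Lam M₁) (g : Gamma0 M₂) :
    ((latRes h x : Lam M₂) : Additive (Gamma0 M₂) →+ ℤ) (Additive.ofMul g)
      = (x : Additive (Gamma0 M₁) →+ ℤ)
          (Additive.ofMul (Subgroup.inclusion (gamma0_le_of_dvd h) g)) := by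
  rw [latRes_coe, resLe_apply]

/-- `latRes` is injective. -/
theorem latRes_injective (h : M₁ ∣ M₂) : Function.Injective (latRes h) := by
  intro x y hxy
  apply Subtype.ext
  have h1 := congrArg (fun z : Lam M₂ => (z : Additive (Gamma0 M₂) →+ ℤ)) hxy
  simp only [latRes_coe] at h1
  exact resLe_injective (A := ℤ) h h1

/-- **`latRes` commutes with `latT l`**, `l ∤ M₂`. -/
theorem latT_latRes (h : M₁ ∣ M₂) (l : Nat.Primes) (hl : ¬ (l : ℕ) ∣ M₂) (x : Lam M₁) :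
    latT M₂ l (latRes h x) = latRes h (latT M₁ l x) := by
  have : Fact (l : ℕ).Prime := ⟨l.2⟩
  have hl₁ : ¬ (l : ℕ) ∣ M₁ := fun h' => hl (h'.trans h)
  apply Subtype.ext
  rw [coe_latT_eq_cohT l hl, latRes_coe, latRes_coe, coe_latT_eq_cohT l hl₁]
  exact (resLe_cohT h hl₁ hl _).symm

/-- **`latRes` intertwines the Hecke actions** through any ring hom `r` of Hecke algebras with
`r T_ℓ = T_ℓ` (the `U_q` generators are absent at the deeper level by `hS₂`). -/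
theorem latAct_latRes (h : M₁ ∣ M₂) {S₁ S₂ : Set ℕ} (hS : S₁ ⊆ S₂)
    (hS₂ : ∀ q : ℕ, q.Prime → q ∣ M₂ → q ∈ S₂)
    (r : ↥(heckeAlgebra M₂ 2 S₂) →+* ↥(heckeAlgebra M₁ 2 S₁))
    (hr : ∀ (ℓ : ℕ) (hℓ : ℓ.Prime) (hℓ₂ : ¬ ℓ ∣ M₂) (hℓS₂ : ℓ ∉ S₂) (hℓ₁ : ¬ ℓ ∣ M₁)
      (hℓS₁ : ℓ ∉ S₁), r (heckeAlgebra.T hℓ hℓ₂ hℓS₂) = heckeAlgebra.T hℓ hℓ₁ hℓS₁)
    (t : ↥(heckeAlgebra M₂ 2 S₂)) (x : Lam M₁) :
    latAct M₂ S₂ t (latRes h x) = latRes h (latAct M₁ S₁ (r t) x) := by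
  obtain ⟨t, ht⟩ := t
  revert x
  refine Algebra.adjoin_induction
    (p := fun y hy => ∀ x : Lam M₁, latAct M₂ S₂ ⟨y, hy⟩ (latRes h x)
      = latRes h (latAct M₁ S₁ (r ⟨y, hy⟩) x)) ?_ ?_ ?_ ?_ ht
  · rintro y (⟨ℓ, hℓ, hℓN, hℓS, rfl⟩ | ⟨q, hqN, hq, hqS, rfl⟩)
    · intro x
      have hℓ₁ : ¬ ℓ ∣ M₁ := fun h' => hℓN (h'.trans h)
      have hℓS₁ : ℓ ∉ S₁ := fun h' => hℓS (hS h')
      have e : (⟨heckeTLin 2 hℓ hℓN, Algebra.subset_adjoin
          (Or.inl ⟨ℓ, hℓ, hℓN, hℓS, rfl⟩)⟩ : ↥(heckeAlgebra M₂ 2 S₂))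
          = heckeAlgebra.T hℓ hℓN hℓS := rfl
      rw [e, hr ℓ hℓ hℓN hℓS hℓ₁ hℓS₁, latAct_T, latAct_T]
      exact latT_latRes h ⟨ℓ, hℓ⟩ hℓN x
    · exact absurd (hS₂ q hq hqN) hqS
  · intro n x
    have e : (⟨algebraMap ℤ _ n, Subalgebra.algebraMap_mem _ n⟩ : ↥(heckeAlgebra M₂ 2 S₂))
        = algebraMap ℤ _ n := rfl
    rw [e, eq_intCast (algebraMap ℤ ↥(heckeAlgebra M₂ 2 S₂)) n, map_intCast, map_intCast,
      map_intCast]
    show (n : Module.End ℤ (Lam M₂)) (latRes h x) = latRes h ((n : Module.End ℤ (Lam M₁)) x)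
    rw [Module.End.intCast_apply, Module.End.intCast_apply, map_zsmul]
  · intro a b ha hb iha ihb x
    have e : (⟨a + b, Subalgebra.add_mem _ ha hb⟩ : ↥(heckeAlgebra M₂ 2 S₂))
        = ⟨a, ha⟩ + ⟨b, hb⟩ := rfl
    rw [e, map_add, map_add, map_add, LinearMap.add_apply, LinearMap.add_apply, map_add, iha x,
      ihb x]
  · intro a b ha hb iha ihb x
    have e : (⟨a * b, Subalgebra.mul_mem _ ha hb⟩ : ↥(heckeAlgebra M₂ 2 S₂))
        = ⟨a, ha⟩ * ⟨b, hb⟩ := rfl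
    rw [e, map_mul, map_mul, map_mul, Module.End.mul_apply, Module.End.mul_apply, ihb x, iha]

end Gen

section New

variable {N N' p : ℕ} [NeZero N] [NeZero N'] [Fact p.Prime]

/-- the instance `NeZero (M * p)` (local; the same term as `ThetaNew.neZero_mul`). -/
local instance neZero_mul' {M : ℕ} [NeZero M] : NeZero (M * p) :=
  Fermat.Agent.GB.B10.L.ThetaNew.neZero_mul

/-- **`latRes` maps the `p`-new lattice into the `p`-new lattice** (`N ∣ N'`, `p ∤ N'`). -/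
theorem latRes_mem_lamNew (hNN' : N ∣ N') (hpN' : ¬ p ∣ N') {x : Lam (N * p)}
    (hx : x ∈ LamNew (not_dvd_of_dvd hNN' hpN')) :
    latRes (Nat.mul_dvd_mul_right hNN' p) x ∈ LamNew hpN' :=
  ⟨cores_resLe_eq_zero hNN' hpN' _ hx.1, coresD_resLe_eq_zero hNN' hpN' _ hx.2⟩

end New

end Fermat.Agent.GE8.Deside.LatRes
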