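/-
GATE-E / RISK-3 DESIDE, route (D2), THE CLOSING FILE (helper11): **the de-sided strict-ordinary
Galois package on the `p`-new lattice, BINDER-FREE.**

* `latStmt`  : `G4OfLat.LatStmt` from helper42's `LatRes` (`latRes`, `latRes_injective`,
  `latAct_latRes`, `latRes_mem_lamNew`);
* `g4Stmt`   : `Assemble.G4Stmt` (`G4OfLat.g4Stmt_of_lat`, `resH := HeckeRes.rHecke` of helper57);
* **`galPkgSONoSideNew : G3.GalPkgSONoSideNew`** (`Assemble.galPkgSONoSideNew_of_g4`) — the statement
  of `GB/B10/L/GalPkgSO.exists_galRep_strict_of_ann` at `Λ' := LamNew` WITHOUT the side condition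
  `p = 3 → 2 ∣ N' * p`; consumers: `GE8/Deside/{G3,G3Pkg}` (helper32), `GE9/Stage/NoSide` (helper11,
  through `GE9/Stage/NoSideAdapter.galPkgSONewStmt_of_new`).
-/
import Fermat.Agent.GE8.Deside.G4OfLat
import Fermat.Agent.GE8.Deside.LatRes

set_option autoImplicit false
set_option linter.unusedSectionVars false
set_option linter.unusedVariables false

noncomputable section

namespace Fermat.Agent.GE8.Deside.Final

open CuspForm
open Fermat.Agent.GK.AL
open Fermat.Agent.GB.B10.KumLevelHecke Fermat.Agent.GB.B10.L.ThetaNew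
open Fermat.Agent.GB.B10.L.StrictQNew
open Fermat.Agent.GE8.Deside.LatRes

/-- **the lattice statement (R2)** in the form of `G4OfLat.LatStmt`. -/
theorem latStmt : Fermat.Agent.GE8.Deside.G4OfLat.LatStmt := by
  intro N' p _ _ S h h₂ hpS hNS hpS₂ hNS₂ r hr
  have hdvd : N' * p ∣ N' * 2 * p := Nat.mul_dvd_mul_right (Dvd.intro 2 rfl) p
  have hSS : (↑S : Set ℕ) ⊆ (↑(insert 2 S) : Set ℕ) :=
    Finset.coe_subset.mpr (Finset.subset_insert 2 S)
  have hMS : ∀ q : ℕ, q.Prime → q ∣ N' * 2 * p → q ∈ (↑(insert 2 S) : Set ℕ) :=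
    fun q hq hd => Finset.mem_coe.mpr (hNS₂ q hq hd)
  refine ⟨latRes hdvd, latRes_injective hdvd, fun t x => ?_, fun x hx => ?_⟩
  · exact latAct_latRes hdvd hSS hMS r hr t x
  · exact latRes_mem_lamNew (Dvd.intro 2 rfl) (not_dvd_of_exactDvd h₂) hx

/-- **the Hecke-side statement (g4).** -/
theorem g4Stmt : Fermat.Agent.GE8.Deside.Assemble.G4Stmt :=
  Fermat.Agent.GE8.Deside.G4OfLat.g4Stmt_of_lat latStmt

/-- **DESIDE (RISK-3) CLOSED**: the strict-ordinary Galois package on the `p`-new lattice without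
the side condition `p = 3 → 2 ∣ N' * p`. -/
theorem galPkgSONoSideNew : Fermat.Agent.GE8.Deside.G3.GalPkgSONoSideNew :=
  Fermat.Agent.GE8.Deside.Assemble.galPkgSONoSideNew_of_g4 g4Stmt

end Fermat.Agent.GE8.Deside.Final

end
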