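/-
GATE-E / RISK-3 (DESIDE), Mathlib + Prelude-only leaf for (D2)(g4) (helper33).

`A' := Algebra.adjoin 𝒪 (Set.range tw₂) ⊆ T_Q` is the coefficient ring over which the EVEN-level
strict-ordinary package is run; the landed lemma wants `[IsLocalRing A'] [Algebra 𝒪 A']
[IsLocalHom (algebraMap 𝒪 A')]`, helper10's abstract transfer (D1) wants `j : A' → T_Q` LOCAL.

For ANY `𝒪`-subalgebra `A'` of a local `𝒪`-algebra `T` which is integral over `𝒪`:
* `isUnit_of_isUnit_val`      : an element of `A'` which is a unit of `T` is a unit of `A'`;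
* `isLocalHom_val`            : `A' ↪ T` is a local hom;
* `isLocalRing`               : `A'` is local;
* `isLocalHom_algebraMap`     : `𝒪 → A'` is a local hom when `𝒪 → T` is;
* `moduleFinite`, `isNoetherianRing`, `isAdicComplete` : finiteness / completeness (`𝒪` noetherian,
  `T` finite; `𝒪` complete local);
* `moduleFree`                : `A'` is `𝒪`-free when `𝒪` is a PID, `T` is `𝒪`-free and finite;
* `residue_val`               : the square `A' → T`, `k_{A'} → k_T` (for residual comparisons).
-/
import Mathlib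
import Fermat.Prelude.Thm_IsLocalRing_isAdicComplete_of_module_finite

set_option autoImplicit false
set_option linter.style.haveILetI false

open IsLocalRing

namespace Fermat.Agent.GE8.Deside.SubLocal

variable {𝒪 : Type*} {T : Type*} [CommRing 𝒪] [CommRing T] [Algebra 𝒪 T]

/-- `A' ↪ T` is a local hom (`T` integral over `𝒪`, hence over `A'`). -/
theorem isLocalHom_val [Algebra.IsIntegral 𝒪 T] (A' : Subalgebra 𝒪 T) :
    IsLocalHom (A'.val : A' →+* T) := by
  haveI : Algebra.IsIntegral A' T :=
    Algebra.IsIntegral.tower_top (R := 𝒪) (S := A') (T := T)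
  exact (Algebra.IsIntegral.isLocalHom A' T : IsLocalHom (algebraMap A' T))

/-- an element of the subalgebra `A'` which is a unit of `T` is a unit of `A'`. -/
theorem isUnit_of_isUnit_val [Algebra.IsIntegral 𝒪 T] (A' : Subalgebra 𝒪 T) (x : A')
    (hx : IsUnit (x : T)) : IsUnit x :=
  (isLocalHom_val A').map_nonunit x hx

/-- a subalgebra of an integral local algebra is local. -/
theorem isLocalRing [IsLocalRing T] [Algebra.IsIntegral 𝒪 T] (A' : Subalgebra 𝒪 T) :
    IsLocalRing A' :=
  haveI := isLocalHom_val A'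
  RingHom.domain_isLocalRing (A'.val : A' →+* T)

/-- `𝒪 → A'` is a local hom when `𝒪 → T` is. -/
theorem isLocalHom_algebraMap [IsLocalHom (algebraMap 𝒪 T)] (A' : Subalgebra 𝒪 T) :
    IsLocalHom (algebraMap 𝒪 A') where
  map_nonunit a ha := by
    have h : IsUnit ((algebraMap 𝒪 A' a : A') : T) := ha.map A'.val
    exact IsLocalHom.map_nonunit (f := algebraMap 𝒪 T) a h

/-- `A'` is finite over a noetherian `𝒪` when `T` is. -/
theorem moduleFinite [IsNoetherianRing 𝒪] [Module.Finite 𝒪 T] (A' : Subalgebra 𝒪 T) :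
    Module.Finite 𝒪 A' :=
  Module.Finite.of_injective (Subalgebra.toSubmodule A').subtype Subtype.val_injective

/-- `A'` is a noetherian ring. -/
theorem isNoetherianRing [IsNoetherianRing 𝒪] [Module.Finite 𝒪 T] (A' : Subalgebra 𝒪 T) :
    IsNoetherianRing A' :=
  haveI := moduleFinite A'
  IsNoetherianRing.of_finite 𝒪 A'

/-- `A'` is complete for its maximal ideal (`𝒪` complete noetherian local, `T` finite local). -/
theorem isAdicComplete [IsNoetherianRing 𝒪] [IsLocalRing 𝒪]
    [IsAdicComplete (maximalIdeal 𝒪) 𝒪] [IsLocalRing T] [Module.Finite 𝒪 T]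
    [IsLocalHom (algebraMap 𝒪 T)] (A' : Subalgebra 𝒪 T) :
    haveI := isLocalRing A'
    IsAdicComplete (maximalIdeal A') A' := by
  haveI := isLocalRing A'
  haveI := moduleFinite A'
  haveI := isLocalHom_algebraMap A'
  exact IsLocalRing.isAdicComplete_of_module_finite (𝒪 := 𝒪) (T := A')

/-- `A'` is `𝒪`-free (`𝒪` a PID, `T` finite free). -/
theorem moduleFree [IsDomain 𝒪] [IsPrincipalIdealRing 𝒪] [Module.Finite 𝒪 T] [Module.Free 𝒪 T]
    (A' : Subalgebra 𝒪 T) : Module.Free 𝒪 A' :=
  (inferInstance : Module.Free 𝒪 (Subalgebra.toSubmodule A'))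

/-- the residue square of `A' ↪ T`. -/
theorem residue_val [IsLocalRing T] [Algebra.IsIntegral 𝒪 T] (A' : Subalgebra 𝒪 T) (x : A') :
    haveI := isLocalRing A'
    haveI := isLocalHom_val A'
    ResidueField.map (A'.val : A' →+* T) (residue A' x) = residue T (x : T) := by
  haveI := isLocalRing A'
  haveI := isLocalHom_val A'
  exact ResidueField.map_residue _ _

/-- `x ∈ A'` lies in the maximal ideal of `A'` iff it lies in the maximal ideal of `T`. -/
theorem mem_maximalIdeal_iff [IsLocalRing T] [Algebra.IsIntegral 𝒪 T] (A' : Subalgebra 𝒪 T)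
    (x : A') :
    haveI := isLocalRing A'
    x ∈ maximalIdeal A' ↔ (x : T) ∈ maximalIdeal T := by
  haveI := isLocalRing A'
  rw [mem_maximalIdeal, mem_maximalIdeal, mem_nonunits_iff, mem_nonunits_iff, not_iff_not]
  exact ⟨fun h => h.map A'.val, isUnit_of_isUnit_val A' x⟩

/-- **the package for `A' := Algebra.adjoin 𝒪 (Set.range tw₂)`**: generation is by construction. -/
theorem adjoin_range_eq_top {H : Type*} [CommRing H] (tw : H →+* T) :
    Algebra.adjoin 𝒪 (Set.range fun t : H =>
      (⟨tw t, Algebra.subset_adjoin ⟨t, rfl⟩⟩ : Algebra.adjoin 𝒪 (Set.range tw))) = ⊤ := by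
  rw [eq_top_iff]
  rintro ⟨x, hx⟩ -
  induction hx using Algebra.adjoin_induction with
  | mem y hy =>
    obtain ⟨t, rfl⟩ := hy
    exact Algebra.subset_adjoin ⟨t, rfl⟩
  | algebraMap r => exact Subalgebra.algebraMap_mem _ r
  | add y z hy hz hy' hz' => exact Subalgebra.add_mem _ hy' hz'
  | mul y z hy hz hy' hz' => exact Subalgebra.mul_mem _ hy' hz'

end Fermat.Agent.GE8.Deside.SubLocal
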