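/-
GATE-E / RISK-3 DESIDE, step (g5) (helper32): **strict ordinarity of the pushed representation at
an ODD level `N' p` from the landed package at ANOTHER level `N'' p` (even if `p = 3`)**, in
hypothesis form over the (g4) package of the sub-gate:

* `res : heckeAlgebra (N'' p) 2 S₂ →+* heckeAlgebra (N' p) 2 S` with `res (T_ℓ) = T_ℓ` (helper81's
  `LevelRes.exists_levelRes` shape, after the level cast `N' p 2 = (N' 2) p`);
* `hann₂` : a Hecke operator of level `N'' p` killing `𝒪 ⊗ LamNew (N'' p)` dies in `T_Q` through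
  `tw₂ = tw ∘ res` (from `hann` at the odd level + helper42's `ResNew` : `resLeP` maps
  `LamNew (N' p)` into `LamNew (N'' p)`, injective and Hecke-equivariant).

Chain: `A' := Algebra.adjoin 𝒪 (range tw₂) ⊆ T_Q` (helper33's `SubLocal`: local, `A' ↪ T_Q`
local) ⟹ the LANDED `GalPkgSO.exists_galRep_strict_of_rhobar` at the level `N'' p` over `A'`
(`Λ' := LamNew`, `hY := ThetaNew.hY_lamNew`) gives `ρ'` over `A'`, strictly ordinary, with the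
Frobenius characteristic polynomials `tw (res T_ℓ) = tw (T_ℓ)` and residual representation `ρbar`
⟹ helper10's (D1) `Abs.isStrictOrdinaryAt_of_charpoly_frob_eq` with `j := A'.val`.

* `twSub`, `val_twO_twSub`, `adjoin_range_twSub`, `residue_eq_of_val` : the corestriction of a ring
  hom to a subalgebra containing its range;
* `isStrictOrdinaryAt_push_of_sub` : the transfer over ANY such subalgebra `A'` generated by `tw₂`;
* **`isStrictOrdinaryAt_push_of_even`** : the transfer (`A' := Algebra.adjoin 𝒪 (range tw₂)`).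
-/
import Fermat.Agent.GE8.Deside.G3
import Fermat.Agent.GE8.Deside.Abs
import Fermat.Agent.GE8.Deside.SubLocal

set_option autoImplicit false
set_option linter.style.haveILetI false
set_option linter.unusedSectionVars false
set_option linter.unusedVariables false

noncomputable section

namespace Fermat.Agent.GE8.Deside.StrictEven

open TensorProduct CuspForm IsLocalRing Polynomial GaloisRep
open Fermat.Agent.GK.AL
open Fermat.Agent.GB.B4.Datum.Carrier Fermat.Agent.GB.B4.Datum.Push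
open Fermat.Agent.GB.B10.KumLevelHecke Fermat.Agent.GB.B10.L.NewInst
open Fermat.Agent.GB.B10.L.ThetaNew Fermat.Agent.GB.B10.L.StrictQNew
open Fermat.Agent.GB.B10.L.GalPkgSO

local notation "GQ" => (AlgebraicClosure ℚ ≃ₐ[ℚ] AlgebraicClosure ℚ)
local notation "Qb" => AlgebraicClosure ℚ

/-! ### corestriction of a ring hom to a subalgebra containing its range -/

section TwSub

variable {𝒪 : Type} [CommRing 𝒪] {A : Type} [CommRing A] {TQ : Type} [CommRing TQ] [Algebra 𝒪 TQ]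

/-- the corestriction of `tw : A →+* T_Q` to a subalgebra `A'` containing its range. -/
def twSub (A' : Subalgebra 𝒪 TQ) (tw : A →+* TQ) (h : ∀ t, tw t ∈ A') : A →+* A' where
  toFun t := ⟨tw t, h t⟩
  map_one' := Subtype.ext (map_one tw)
  map_mul' a b := Subtype.ext (map_mul tw a b)
  map_zero' := Subtype.ext (map_zero tw)
  map_add' a b := Subtype.ext (map_add tw a b)

@[simp] theorem coe_twSub (A' : Subalgebra 𝒪 TQ) (tw : A →+* TQ) (h : ∀ t, tw t ∈ A') (t : A) :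
    ((twSub A' tw h t : A') : TQ) = tw t := rfl

/-- `A'.val ∘ twO (twSub tw) = twO tw`. -/
theorem val_twO_twSub (A' : Subalgebra 𝒪 TQ) (tw : A →+* TQ) (h : ∀ t, tw t ∈ A')
    (t₀ : 𝒪 ⊗[ℤ] A) :
    ((twO (𝒪 := 𝒪) (twSub A' tw h) t₀ : A') : TQ) = twO (𝒪 := 𝒪) tw t₀ := by
  induction t₀ using TensorProduct.induction_on with
  | zero => rw [map_zero, map_zero]; rfl
  | tmul r t => rw [twO_tmul, twO_tmul]; rfl
  | add x y hx hy =>
    rw [map_add, map_add, ← hx, ← hy]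
    rfl

/-- the corestriction generates `A' = Algebra.adjoin 𝒪 (range tw)`. -/
theorem adjoin_range_twSub (A' : Subalgebra 𝒪 TQ) (tw : A →+* TQ) (h : ∀ t, tw t ∈ A')
    (hA' : A' = Algebra.adjoin 𝒪 (Set.range tw)) :
    Algebra.adjoin 𝒪 (Set.range (twSub A' tw h)) = ⊤ := by
  rw [eq_top_iff]
  rintro ⟨x, hx⟩ -
  have hx' : x ∈ Algebra.adjoin 𝒪 (Set.range tw) := hA' ▸ hx
  induction hx' using Algebra.adjoin_induction with
  | mem y hy =>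
    obtain ⟨t, rfl⟩ := hy
    exact Algebra.subset_adjoin ⟨t, rfl⟩
  | algebraMap r => exact Subalgebra.algebraMap_mem _ r
  | add y z hy hz hy' hz' =>
    have hy'' : y ∈ A' := hA' ▸ hy
    have hz'' : z ∈ A' := hA' ▸ hz
    exact Subalgebra.add_mem _ (hy' hy'') (hz' hz'')
  | mul y z hy hz hy' hz' =>
    have hy'' : y ∈ A' := hA' ▸ hy
    have hz'' : z ∈ A' := hA' ▸ hz
    exact Subalgebra.mul_mem _ (hy' hy'') (hz' hz'')

variable [IsLocalRing 𝒪] [IsLocalRing TQ] [IsLocalHom (algebraMap 𝒪 TQ)]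

/-- the residue square of `𝒪 → A' ↪ T_Q`. -/
theorem map_val_comp_map (A' : Subalgebra 𝒪 TQ) [IsLocalRing A'] [IsLocalHom (algebraMap 𝒪 A')]
    [hj : IsLocalHom (A'.val : A' →+* TQ)] :
    (ResidueField.map (A'.val : A' →+* TQ)).comp (ResidueField.map (algebraMap 𝒪 A')) =
      ResidueField.map (algebraMap 𝒪 TQ) := by
  ext x
  obtain ⟨a, rfl⟩ := residue_surjective x
  rw [RingHom.comp_apply, ResidueField.map_residue, ResidueField.map_residue,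
    ResidueField.map_residue]
  rfl

/-- a residue identity in `T_Q` for an element of `A'` descends to `A'`. -/
theorem residue_eq_of_val (A' : Subalgebra 𝒪 TQ) [IsLocalRing A'] [IsLocalHom (algebraMap 𝒪 A')]
    [hj : IsLocalHom (A'.val : A' →+* TQ)] (x : A') (y : ResidueField 𝒪)
    (h : residue TQ (x : TQ) = ResidueField.map (algebraMap 𝒪 TQ) y) :
    residue A' x = ResidueField.map (algebraMap 𝒪 A') y := by
  apply (ResidueField.map (A'.val : A' →+* TQ)).injective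
  rw [ResidueField.map_residue]
  have h2 := congrArg (fun f : ResidueField 𝒪 →+* ResidueField TQ => f y) (map_val_comp_map A')
  simp only [RingHom.comp_apply] at h2
  rw [h2, ← h]
  rfl

end TwSub

/-! ### the transfer -/

section Transfer

variable {N' p : ℕ} [NeZero N'] [Fact p.Prime] {S : Finset ℕ}
  {𝒪 : Type} [CommRing 𝒪] [IsDomain 𝒪] [IsDiscreteValuationRing 𝒪]
  [IsAdicComplete (maximalIdeal 𝒪) 𝒪] [Finite (ResidueField 𝒪)] [CharZero 𝒪]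
  {θ : heckeAlgebra (N' * p) 2 (↑S : Set ℕ) →+* ResidueField 𝒪}
  {TQ : Type} [CommRing TQ] [IsLocalRing TQ] [Algebra 𝒪 TQ] [IsLocalHom (algebraMap 𝒪 TQ)]

set_option maxHeartbeats 1600000 in
/-- **(g5), over a subalgebra `A'`** which is local, with `A' ↪ T_Q` local, generated by the
corestriction of `tw₂`. -/
theorem isStrictOrdinaryAt_push_of_sub [IsNoetherianRing TQ]
    (hp2 : p ≠ 2) (hp𝒪 : (p : 𝒪) ∈ maximalIdeal 𝒪)
    (ρbar : ResidualGaloisRep (ResidueField 𝒪)) (habs : ρbar.IsAbsolutelyIrreducible)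
    (hfrob : ∀ (ℓ : ℕ) (hℓ : ℓ.Prime) (hℓN : ¬ ℓ ∣ N' * p) (hℓS : ℓ ∉ (↑S : Set ℕ)),
      ∀ P : ValuationSubring Qb, P.LiesOverPrime ℓ → ∀ σ : GQ, P.IsFrobeniusAt σ ℓ →
        ∃ d₀ : ResidueField 𝒪, LinearMap.charpoly (ρbar.ρ σ) =
          X ^ 2 - C (θ (heckeAlgebra.T hℓ hℓN hℓS)) * X + C d₀)
    (hordbar : (GaloisRepAdic.ofResidualGaloisRep ρbar).IsOrdinaryAt p)
    (H : HeckeGaloisRepDatum (N' * p) (↑S : Set ℕ) 𝒪 θ (Tloc 𝒪 θ))
    (hresH : H.ρ.residual.IsEquiv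
      (ρbar.baseChangeAlong (ResidueField.map (algebraMap 𝒪 (Tloc 𝒪 θ)))))
    (tw : heckeAlgebra (N' * p) 2 (↑S : Set ℕ) →+* TQ)
    (htw : ∀ t, residue TQ (tw t) = ResidueField.map (algebraMap 𝒪 TQ) (θ t))
    (φ : Tloc 𝒪 θ →ₐ[𝒪] TQ) (hφ : IsLocalHom φ.toRingHom)
    (hφH : ∀ t, φ (H.π t) = tw t)
    {N'' : ℕ} [NeZero N''] {S₂ : Finset ℕ}
    (h₂ : ExactDvd p (N'' * p)) (hside₂ : p = 3 → 2 ∣ N'' * p) (hpS₂ : p ∈ S₂)
    (hNS₂ : ∀ r : ℕ, r.Prime → r ∣ N'' * p → r ∈ S₂)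
    (res : heckeAlgebra (N'' * p) 2 (↑S₂ : Set ℕ) →+* heckeAlgebra (N' * p) 2 (↑S : Set ℕ))
    (hgood : ∀ ℓ : ℕ, ℓ.Prime → ¬ ℓ ∣ N'' * p → ℓ ∉ (↑S₂ : Set ℕ) →
      ¬ ℓ ∣ N' * p ∧ ℓ ∉ (↑S : Set ℕ))
    (hresT : ∀ (ℓ : ℕ) (hℓ : ℓ.Prime) (hℓN₂ : ¬ ℓ ∣ N'' * p) (hℓS₂ : ℓ ∉ (↑S₂ : Set ℕ))
      (hℓN : ¬ ℓ ∣ N' * p) (hℓS : ℓ ∉ (↑S : Set ℕ)),
      res (heckeAlgebra.T hℓ hℓN₂ hℓS₂) = heckeAlgebra.T hℓ hℓN hℓS)
    (tw₂ : heckeAlgebra (N'' * p) 2 (↑S₂ : Set ℕ) →+* TQ) (htw₂def : ∀ t, tw₂ t = tw (res t))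
    (hann₂ : ∀ t₀ : 𝒪 ⊗[ℤ] heckeAlgebra (N'' * p) 2 (↑S₂ : Set ℕ),
      (∀ (a : 𝒪), ∀ x ∈ (LamNew (not_dvd_of_exactDvd h₂) :
          AddSubgroup (levelData p (N'' * p) hpS₂ hNS₂).Λ),
        (levelData p (N'' * p) hpS₂ hNS₂).heckeTensor 𝒪 t₀ (a ⊗ₜ[ℤ] x) = 0) →
          twO (𝒪 := 𝒪) tw₂ t₀ = 0)
    (A' : Subalgebra 𝒪 TQ) [IsLocalRing A'] [IsLocalHom (algebraMap 𝒪 A')]
    [hj : IsLocalHom (A'.val : A' →+* TQ)] (hmem : ∀ t, tw₂ t ∈ A')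
    (hgen₂ : Algebra.adjoin 𝒪 (Set.range (twSub A' tw₂ hmem)) = ⊤) :
    (pushRep H φ.toRingHom hφ).IsStrictOrdinaryAt p := by
  have hp : p.Prime := Fact.out
  -- the residual eigensystem at the even level
  obtain ⟨θ₂, hθ₂⟩ : ∃ θ₂ : heckeAlgebra (N'' * p) 2 (↑S₂ : Set ℕ) →+* ResidueField 𝒪,
      ∀ t, θ₂ t = θ (res t) := ⟨θ.comp res, fun _ => rfl⟩
  have htw₂ : ∀ t, residue A' (twSub A' tw₂ hmem t) =
      ResidueField.map (algebraMap 𝒪 A') (θ₂ t) := by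
    intro t
    refine residue_eq_of_val A' _ _ ?_
    rw [coe_twSub, htw₂def, hθ₂]
    exact htw (res t)
  -- the residual polynomials at the even level
  have hfrob₂ : ∀ (ℓ : ℕ) (hℓ : ℓ.Prime) (hℓN : ¬ ℓ ∣ N'' * p) (hℓS : ℓ ∉ (↑S₂ : Set ℕ)),
      ∀ P : ValuationSubring Qb, P.LiesOverPrime ℓ → ∀ σ : GQ, P.IsFrobeniusAt σ ℓ →
        ∃ d₀ : ResidueField 𝒪, LinearMap.charpoly (ρbar.ρ σ) =
          X ^ 2 - C (θ₂ (heckeAlgebra.T hℓ hℓN hℓS)) * X + C d₀ := by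
    intro ℓ hℓ hℓN hℓS P hP σ hσ
    obtain ⟨hℓN', hℓS'⟩ := hgood ℓ hℓ hℓN hℓS
    obtain ⟨d₀, hd₀⟩ := hfrob ℓ hℓ hℓN' hℓS' P hP σ hσ
    refine ⟨d₀, ?_⟩
    rw [hd₀, hθ₂, hresT ℓ hℓ hℓN hℓS hℓN' hℓS']
  -- the annihilator binder over `A'`
  have hann₂' : ∀ t₀ : 𝒪 ⊗[ℤ] heckeAlgebra (N'' * p) 2 (↑S₂ : Set ℕ),
      (∀ (a : 𝒪), ∀ x ∈ (LamNew (not_dvd_of_exactDvd h₂) :
          AddSubgroup (levelData p (N'' * p) hpS₂ hNS₂).Λ),
        (levelData p (N'' * p) hpS₂ hNS₂).heckeTensor 𝒪 t₀ (a ⊗ₜ[ℤ] x) = 0) →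
          twO (𝒪 := 𝒪) (twSub A' tw₂ hmem) t₀ = 0 := by
    intro t₀ ht₀
    apply Subtype.ext
    rw [val_twO_twSub, hann₂ t₀ ht₀]
    rfl
  -- the landed package at the even level over `A'`
  obtain ⟨ρ', hchar', -, -, hstrict', -, hres'⟩ :=
    exists_galRep_strict_of_rhobar (TQ := A') hp2 hp𝒪 h₂ hside₂ hpS₂ hNS₂ ρbar habs hfrob₂ hordbar
      (twSub A' tw₂ hmem) htw₂ hgen₂ S₂ ∅ (Finset.Subset.refl S₂)
      (fun q hq => absurd hq (Finset.notMem_empty q))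
      (LamNew (not_dvd_of_exactDvd h₂)) hann₂' (hY_lamNew h₂ hpS₂ hNS₂ (not_dvd_of_exactDvd h₂))
  -- the two residual representations
  have hρres : (pushRep H φ.toRingHom hφ).residual.IsEquiv
      (ρbar.baseChangeAlong (ResidueField.map (algebraMap 𝒪 TQ))) := by
    have h1 := Fermat.Agent.GB.B4.Datum.PushTloc.residual_push H.ρ φ.toRingHom hφ ρbar
      (ResidueField.map (algebraMap 𝒪 (Tloc 𝒪 θ))) hresH
    haveI := hφ
    have e : (ResidueField.map φ.toRingHom).comp (ResidueField.map (algebraMap 𝒪 (Tloc 𝒪 θ))) =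
        ResidueField.map (algebraMap 𝒪 TQ) := by
      ext x
      obtain ⟨a, rfl⟩ := residue_surjective x
      rw [RingHom.comp_apply, ResidueField.map_residue, ResidueField.map_residue,
        ResidueField.map_residue]
      congr 1
      exact φ.commutes a
    rw [e] at h1
    exact h1
  have hρ'res : (ρ'.baseChangeAlong (A'.val : A' →+* TQ) hj).residual.IsEquiv
      (ρbar.baseChangeAlong (ResidueField.map (algebraMap 𝒪 TQ))) := by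
    have h1 := Fermat.Agent.GB.B4.Datum.PushTloc.residual_push ρ' (A'.val : A' →+* TQ) hj ρbar
      (ResidueField.map (algebraMap 𝒪 A')) hres'
    rw [map_val_comp_map A'] at h1
    exact h1
  -- (D1)
  refine Fermat.Agent.GE8.Deside.Abs.isStrictOrdinaryAt_of_charpoly_frob_eq
    (A'.val : A' →+* TQ) hj ρ' hstrict'.2.1 (pushRep H φ.toRingHom hφ) ρbar habs
    (ResidueField.map (algebraMap 𝒪 TQ)) hρres hρ'res S₂ ?_
  intro ℓ hℓ hℓB P hP σ hσ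
  have hℓS₂ : ℓ ∉ (↑S₂ : Set ℕ) := fun h => hℓB (Finset.mem_coe.mp h)
  have hℓN₂ : ¬ ℓ ∣ N'' * p := fun h => hℓB (hNS₂ ℓ hℓ h)
  obtain ⟨hℓN, hℓS⟩ := hgood ℓ hℓ hℓN₂ hℓS₂
  rw [charpoly_frob_push H φ.toRingHom hφ ℓ hℓ hℓN hℓS P hP σ hσ,
    hchar' ℓ hℓ hℓN₂ hℓS₂ P hP σ hσ]
  simp only [Polynomial.map_sub, Polynomial.map_add, Polynomial.map_mul, Polynomial.map_pow,
    Polynomial.map_X, Polynomial.map_C]
  have h3 : (A'.val : A' →+* TQ) (twSub A' tw₂ hmem (heckeAlgebra.T hℓ hℓN₂ hℓS₂)) =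
      φ.toRingHom (H.π (heckeAlgebra.T hℓ hℓN hℓS)) := by
    show ((twSub A' tw₂ hmem (heckeAlgebra.T hℓ hℓN₂ hℓS₂) : A') : TQ) = _
    rw [coe_twSub, htw₂def, hresT ℓ hℓ hℓN₂ hℓS₂ hℓN hℓS]
    exact (hφH _).symm
  have h4 : (A'.val : A' →+* TQ) ((ℓ : ℕ) : A') = ((ℓ : ℕ) : TQ) := map_natCast _ ℓ
  rw [h3, h4]

/-- **(g5)** strict ordinarity of `pushRep H φ` at the level `N' p` from the landed strict-ordinary
package at a level `N'' p` satisfying the side condition, through a restriction hom `res` of the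
Hecke algebras (`A' := Algebra.adjoin 𝒪 (range tw₂)`). -/
theorem isStrictOrdinaryAt_push_of_even
    (hp2 : p ≠ 2) (hp𝒪 : (p : 𝒪) ∈ maximalIdeal 𝒪)
    (ρbar : ResidualGaloisRep (ResidueField 𝒪)) (habs : ρbar.IsAbsolutelyIrreducible)
    (hfrob : ∀ (ℓ : ℕ) (hℓ : ℓ.Prime) (hℓN : ¬ ℓ ∣ N' * p) (hℓS : ℓ ∉ (↑S : Set ℕ)),
      ∀ P : ValuationSubring Qb, P.LiesOverPrime ℓ → ∀ σ : GQ, P.IsFrobeniusAt σ ℓ →
        ∃ d₀ : ResidueField 𝒪, LinearMap.charpoly (ρbar.ρ σ) =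
          X ^ 2 - C (θ (heckeAlgebra.T hℓ hℓN hℓS)) * X + C d₀)
    (hordbar : (GaloisRepAdic.ofResidualGaloisRep ρbar).IsOrdinaryAt p)
    (H : HeckeGaloisRepDatum (N' * p) (↑S : Set ℕ) 𝒪 θ (Tloc 𝒪 θ))
    (hresH : H.ρ.residual.IsEquiv
      (ρbar.baseChangeAlong (ResidueField.map (algebraMap 𝒪 (Tloc 𝒪 θ)))))
    (tw : heckeAlgebra (N' * p) 2 (↑S : Set ℕ) →+* TQ)
    (htw : ∀ t, residue TQ (tw t) = ResidueField.map (algebraMap 𝒪 TQ) (θ t))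
    (φ : Tloc 𝒪 θ →ₐ[𝒪] TQ) (hφ : IsLocalHom φ.toRingHom) (hφs : Function.Surjective φ)
    (hφH : ∀ t, φ (H.π t) = tw t)
    {N'' : ℕ} [NeZero N''] {S₂ : Finset ℕ}
    (h₂ : ExactDvd p (N'' * p)) (hside₂ : p = 3 → 2 ∣ N'' * p) (hpS₂ : p ∈ S₂)
    (hNS₂ : ∀ r : ℕ, r.Prime → r ∣ N'' * p → r ∈ S₂)
    (res : heckeAlgebra (N'' * p) 2 (↑S₂ : Set ℕ) →+* heckeAlgebra (N' * p) 2 (↑S : Set ℕ))
    (hgood : ∀ ℓ : ℕ, ℓ.Prime → ¬ ℓ ∣ N'' * p → ℓ ∉ (↑S₂ : Set ℕ) →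
      ¬ ℓ ∣ N' * p ∧ ℓ ∉ (↑S : Set ℕ))
    (hresT : ∀ (ℓ : ℕ) (hℓ : ℓ.Prime) (hℓN₂ : ¬ ℓ ∣ N'' * p) (hℓS₂ : ℓ ∉ (↑S₂ : Set ℕ))
      (hℓN : ¬ ℓ ∣ N' * p) (hℓS : ℓ ∉ (↑S : Set ℕ)),
      res (heckeAlgebra.T hℓ hℓN₂ hℓS₂) = heckeAlgebra.T hℓ hℓN hℓS)
    (hann₂ : ∀ t₀ : 𝒪 ⊗[ℤ] heckeAlgebra (N'' * p) 2 (↑S₂ : Set ℕ),
      (∀ (a : 𝒪), ∀ x ∈ (LamNew (not_dvd_of_exactDvd h₂) :
          AddSubgroup (levelData p (N'' * p) hpS₂ hNS₂).Λ),
        (levelData p (N'' * p) hpS₂ hNS₂).heckeTensor 𝒪 t₀ (a ⊗ₜ[ℤ] x) = 0) →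
          twO (𝒪 := 𝒪) (tw.comp res) t₀ = 0) :
    (pushRep H φ.toRingHom hφ).IsStrictOrdinaryAt p := by
  haveI : Module.Finite 𝒪 TQ := Module.Finite.of_surjective φ.toLinearMap hφs
  haveI : Algebra.IsIntegral 𝒪 TQ := Algebra.IsIntegral.of_finite 𝒪 TQ
  haveI : IsNoetherianRing TQ := isNoetherianRing_of_surjective _ _ φ.toRingHom hφs
  haveI := SubLocal.isLocalRing (Algebra.adjoin 𝒪 (Set.range (tw.comp res)))
  haveI := SubLocal.isLocalHom_algebraMap (Algebra.adjoin 𝒪 (Set.range (tw.comp res)))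
  haveI := SubLocal.isLocalHom_val (Algebra.adjoin 𝒪 (Set.range (tw.comp res)))
  exact isStrictOrdinaryAt_push_of_sub hp2 hp𝒪 ρbar habs hfrob hordbar H hresH tw htw φ hφ hφH
    h₂ hside₂ hpS₂ hNS₂ res hgood hresT (tw.comp res) (fun _ => rfl) hann₂
    (Algebra.adjoin 𝒪 (Set.range (tw.comp res))) (fun t => Algebra.subset_adjoin ⟨t, rfl⟩)
    (adjoin_range_twSub _ _ _ rfl)

end Transfer

/-! ### the package without the side condition, from the (g4) package -/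

section Package

/-- `p ∥ (N' 2) p` from `p ∥ N' p`, `p ≠ 2`. -/
theorem exactDvd_even {N' p : ℕ} (hp2 : p ≠ 2) (h : ExactDvd p (N' * p)) :
    ExactDvd p (N' * 2 * p) := by
  refine ⟨h.prime, Dvd.intro_left _ rfl, ?_⟩
  rintro ⟨c, hc⟩
  have hp0 : 0 < p := h.prime.pos
  have h1 : N' * 2 = p * c := by
    have : p * (N' * 2) = p * (p * c) := by
      calc p * (N' * 2) = N' * 2 * p := by ring
        _ = p ^ 2 * c := hc
        _ = p * (p * c) := by ring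
    exact Nat.eq_of_mul_eq_mul_left hp0 this
  have h2 : p ∣ N' * 2 := ⟨c, h1⟩
  rcases (Nat.Prime.dvd_mul h.prime).mp h2 with h3 | h3
  · exact not_dvd_of_exactDvd h h3
  · exact hp2 ((Nat.prime_dvd_prime_iff_eq h.prime Nat.prime_two).mp h3)

/-- **the (g4) package of DESIDE** : at an odd level `N' p` there is a restriction hom
`res : 𝕋((N' 2) p, insert 2 S) → 𝕋(N' p, S)` with `res T_ℓ = T_ℓ` through which the annihilator
binder `(hann)` for `LamNew` goes UP to the even level. -/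
def ResAnnStmt : Prop :=
  ∀ {N' p : ℕ} [NeZero N'] [Fact p.Prime] {S : Finset ℕ}
    {𝒪 : Type} [CommRing 𝒪] [IsDomain 𝒪] [IsDiscreteValuationRing 𝒪]
    [IsAdicComplete (maximalIdeal 𝒪) 𝒪] [Finite (ResidueField 𝒪)] [CharZero 𝒪]
    {TQ : Type} [CommRing TQ] [IsLocalRing TQ] [Algebra 𝒪 TQ] [IsLocalHom (algebraMap 𝒪 TQ)]
    (hp2 : p ≠ 2) (h : ExactDvd p (N' * p)) (hodd : ¬ 2 ∣ N' * p)
    (hpS : p ∈ S) (hNS : ∀ r : ℕ, r.Prime → r ∣ N' * p → r ∈ S)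
    (h₂ : ExactDvd p (N' * 2 * p)) (hpS₂ : p ∈ insert 2 S)
    (hNS₂ : ∀ r : ℕ, r.Prime → r ∣ N' * 2 * p → r ∈ insert 2 S),
    ∃ res : heckeAlgebra (N' * 2 * p) 2 (↑(insert 2 S) : Set ℕ) →+*
        heckeAlgebra (N' * p) 2 (↑S : Set ℕ),
      (∀ (ℓ : ℕ) (hℓ : ℓ.Prime) (hℓN₂ : ¬ ℓ ∣ N' * 2 * p)
        (hℓS₂ : ℓ ∉ (↑(insert 2 S) : Set ℕ)) (hℓN : ¬ ℓ ∣ N' * p) (hℓS : ℓ ∉ (↑S : Set ℕ)),
        res (heckeAlgebra.T hℓ hℓN₂ hℓS₂) = heckeAlgebra.T hℓ hℓN hℓS) ∧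
      ∀ tw : heckeAlgebra (N' * p) 2 (↑S : Set ℕ) →+* TQ,
        (∀ t₀ : 𝒪 ⊗[ℤ] heckeAlgebra (N' * p) 2 (↑S : Set ℕ),
          (∀ (a : 𝒪), ∀ x ∈ (LamNew (not_dvd_of_exactDvd h) :
              AddSubgroup (levelData p (N' * p) hpS hNS).Λ),
            (levelData p (N' * p) hpS hNS).heckeTensor 𝒪 t₀ (a ⊗ₜ[ℤ] x) = 0) →
              twO (𝒪 := 𝒪) tw t₀ = 0) →
        ∀ t₀ : 𝒪 ⊗[ℤ] heckeAlgebra (N' * 2 * p) 2 (↑(insert 2 S) : Set ℕ),
          (∀ (a : 𝒪), ∀ x ∈ (LamNew (not_dvd_of_exactDvd h₂) :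
              AddSubgroup (levelData p (N' * 2 * p) hpS₂ hNS₂).Λ),
            (levelData p (N' * 2 * p) hpS₂ hNS₂).heckeTensor 𝒪 t₀ (a ⊗ₜ[ℤ] x) = 0) →
              twO (𝒪 := 𝒪) (tw.comp res) t₀ = 0

/-- **the strict-ordinary Galois package WITHOUT the side condition, `ρbar`-form** : the binders of
`Deside.G3.GalPkgSONoSideNew` with `hres` replaced by `ρbar habs hfrob hordbar hresH` (every
consumer obtains `H` from `DatumOfRhobar.exists_datum ρbar`, which delivers `hresH`). -/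
def GalPkgSONoSideRhobar : Prop :=
  ∀ {N' p : ℕ} [NeZero N'] [Fact p.Prime] {S : Finset ℕ}
    {𝒪 : Type} [CommRing 𝒪] [IsDomain 𝒪] [IsDiscreteValuationRing 𝒪]
    [IsAdicComplete (maximalIdeal 𝒪) 𝒪] [Finite (ResidueField 𝒪)] [CharZero 𝒪]
    {θ : heckeAlgebra (N' * p) 2 (↑S : Set ℕ) →+* ResidueField 𝒪}
    {TQ : Type} [CommRing TQ] [IsLocalRing TQ] [Algebra 𝒪 TQ] [IsLocalHom (algebraMap 𝒪 TQ)]
    (hp2 : p ≠ 2) (hp𝒪 : (p : 𝒪) ∈ maximalIdeal 𝒪)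
    (h : ExactDvd p (N' * p))
    (hpS : p ∈ S) (hNS : ∀ r : ℕ, r.Prime → r ∣ N' * p → r ∈ S)
    (ρbar : ResidualGaloisRep (ResidueField 𝒪)) (habs : ρbar.IsAbsolutelyIrreducible)
    (hfrob : ∀ (ℓ : ℕ) (hℓ : ℓ.Prime) (hℓN : ¬ ℓ ∣ N' * p) (hℓS : ℓ ∉ (↑S : Set ℕ)),
      ∀ P : ValuationSubring Qb, P.LiesOverPrime ℓ → ∀ σ : GQ, P.IsFrobeniusAt σ ℓ →
        ∃ d₀ : ResidueField 𝒪, LinearMap.charpoly (ρbar.ρ σ) =
          X ^ 2 - C (θ (heckeAlgebra.T hℓ hℓN hℓS)) * X + C d₀)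
    (hordbar : (GaloisRepAdic.ofResidualGaloisRep ρbar).IsOrdinaryAt p)
    (H : HeckeGaloisRepDatum (N' * p) (↑S : Set ℕ) 𝒪 θ (Tloc 𝒪 θ)) (hπ : H.π = piT 𝒪 θ)
    (hresH : H.ρ.residual.IsEquiv
      (ρbar.baseChangeAlong (ResidueField.map (algebraMap 𝒪 (Tloc 𝒪 θ)))))
    (tw : heckeAlgebra (N' * p) 2 (↑S : Set ℕ) →+* TQ)
    (htw : ∀ t, residue TQ (tw t) = ResidueField.map (algebraMap 𝒪 TQ) (θ t))
    (hgen : Algebra.adjoin 𝒪 (Set.range tw) = ⊤)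
    (Tram Smin : Finset ℕ) (hST : S ⊆ Tram)
    (hSmin : ∀ q ∈ Smin, q.Prime → q ≠ p → q ∣ N' * p ∧ ¬ q ^ 2 ∣ N' * p)
    (hann : ∀ t₀ : 𝒪 ⊗[ℤ] heckeAlgebra (N' * p) 2 (↑S : Set ℕ),
      (∀ (a : 𝒪), ∀ x ∈ (LamNew (not_dvd_of_exactDvd h) :
          AddSubgroup (levelData p (N' * p) hpS hNS).Λ),
        (levelData p (N' * p) hpS hNS).heckeTensor 𝒪 t₀ (a ⊗ₜ[ℤ] x) = 0) →
          twO (𝒪 := 𝒪) tw t₀ = 0),
    ∃ (φ : Tloc 𝒪 θ →ₐ[𝒪] TQ) (hφ : IsLocalHom φ.toRingHom), Function.Surjective φ ∧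
      (∀ t, φ (piT 𝒪 θ t) = tw t) ∧
      (∀ (ℓ : ℕ) (hℓ : ℓ.Prime) (hℓN : ¬ ℓ ∣ N' * p) (hℓS : ℓ ∉ (↑S : Set ℕ))
        (A : ValuationSubring Qb), A.LiesOverPrime ℓ → ∀ σ : GQ, A.IsFrobeniusAt σ ℓ →
          LinearMap.charpoly ((pushRep H φ.toRingHom hφ).ρ σ) =
            X ^ 2 - C (tw (heckeAlgebra.T hℓ hℓN hℓS)) * X + C ((ℓ : TQ))) ∧
      (GaloisRep.strictOrdinaryCondition 𝒪 p Tram (pushRep H φ.toRingHom hφ) ∧
        ∀ q ∈ Smin, q.Prime → q ≠ p → (pushRep H φ.toRingHom hφ).IsUnipotentOnInertiaAt q)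

/-- the `LamNew`-form of the package gives the `ρbar`-form. -/
theorem galPkgSONoSideRhobar_of_new (hnew : Fermat.Agent.GE8.Deside.G3.GalPkgSONoSideNew) :
    GalPkgSONoSideRhobar := by
  intro N' p _ _ S 𝒪 _ _ _ _ _ _ θ TQ _ _ _ _ hp2 hp𝒪 h hpS hNS ρbar habs hfrob hordbar H hπ hresH
    tw htw hgen Tram Smin hST hSmin hann
  have hres : (GaloisRepAdic.ofResidualGaloisRep H.ρ.residual).IsOrdinaryAt p := by
    obtain ⟨e⟩ := hresH
    exact Fermat.Agent.GB.ResOrd.Plug.isOrdinaryAt_of_isEquiv ⟨e.symm⟩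
      (Fermat.Agent.GB.ResOrd.Plug.isOrdinaryAt_baseChangeAlong ρbar _ hordbar)
  exact hnew hp2 hp𝒪 h hpS hNS H hπ hres tw htw hgen Tram Smin hST hSmin hann

/-- **DESIDE, top** : the (g4) package gives the strict-ordinary Galois package without the side
condition (`ρbar`-form).  If `p = 3 → 2 ∣ N' p` holds this is the landed lemma; otherwise the level
`(N' 2) p` is even and `isStrictOrdinaryAt_push_of_even` applies. -/
theorem galPkgSONoSideRhobar_of_resAnn (hg4 : ResAnnStmt) : GalPkgSONoSideRhobar := by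
  intro N' p _ _ S 𝒪 _ _ _ _ _ _ θ TQ _ _ _ _ hp2 hp𝒪 h hpS hNS ρbar habs hfrob hordbar H hπ hresH
    tw htw hgen Tram Smin hST hSmin hann
  have hp : p.Prime := Fact.out
  have hres : (GaloisRepAdic.ofResidualGaloisRep H.ρ.residual).IsOrdinaryAt p := by
    obtain ⟨e⟩ := hresH
    exact Fermat.Agent.GB.ResOrd.Plug.isOrdinaryAt_of_isEquiv ⟨e.symm⟩
      (Fermat.Agent.GB.ResOrd.Plug.isOrdinaryAt_baseChangeAlong ρbar _ hordbar)
  by_cases hside : p = 3 → 2 ∣ N' * p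
  · exact exists_galRep_strict_of_ann (TQ := TQ) hp2 hp𝒪 h hside hpS hNS H hπ hres tw htw hgen
      Tram Smin hST hSmin (LamNew (not_dvd_of_exactDvd h)) hann
      (hY_lamNew h hpS hNS (not_dvd_of_exactDvd h))
  · have hodd : ¬ 2 ∣ N' * p := fun h2 => hside (fun _ => h2)
    obtain ⟨φ, hφt, hloc, hsurj⟩ :=
      Fermat.Agent.GB.B4.Datum.PushTloc.exists_phi 𝒪 θ tw htw hgen
    have hφH : ∀ t, φ (H.π t) = tw t := fun t => by rw [hπ]; exact hφt t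
    refine ⟨φ, hloc, hsurj, hφt, ?_, ?_⟩
    · intro ℓ hℓ hℓN hℓS A hA σ hσ
      have h1 := charpoly_frob_push H φ.toRingHom hloc ℓ hℓ hℓN hℓS A hA σ hσ
      rw [h1]
      congr 3
      exact congrArg _ (hφH _)
    · have h₂ : ExactDvd p (N' * 2 * p) := exactDvd_even hp2 h
      have hpS₂ : p ∈ insert 2 S := Finset.mem_insert_of_mem hpS
      have hNS₂ : ∀ r : ℕ, r.Prime → r ∣ N' * 2 * p → r ∈ insert 2 S := by
        intro r hr hrd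
        have hrd' : r ∣ (N' * p) * 2 := by
          have : N' * 2 * p = N' * p * 2 := by ring
          rwa [this] at hrd
        rcases (Nat.Prime.dvd_mul hr).mp hrd' with h3 | h3
        · exact Finset.mem_insert_of_mem (hNS r hr h3)
        · rw [(Nat.prime_dvd_prime_iff_eq hr Nat.prime_two).mp h3]
          exact Finset.mem_insert_self 2 S
      obtain ⟨res, hresT, hup⟩ := hg4 (TQ := TQ) (𝒪 := 𝒪) hp2 h hodd hpS hNS h₂ hpS₂ hNS₂
      have hgood : ∀ ℓ : ℕ, ℓ.Prime → ¬ ℓ ∣ N' * 2 * p → ℓ ∉ (↑(insert 2 S) : Set ℕ) →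
          ¬ ℓ ∣ N' * p ∧ ℓ ∉ (↑S : Set ℕ) := by
        intro ℓ hℓ hℓN hℓS
        refine ⟨fun hd => hℓN ?_, fun hS => hℓS ?_⟩
        · have : N' * 2 * p = N' * p * 2 := by ring
          rw [this]
          exact Dvd.dvd.mul_right hd 2
        · exact Finset.mem_coe.mpr (Finset.mem_insert_of_mem (Finset.mem_coe.mp hS))
      have hstrict : (pushRep H φ.toRingHom hloc).IsStrictOrdinaryAt p :=
        isStrictOrdinaryAt_push_of_even hp2 hp𝒪 ρbar habs hfrob hordbar H hresH tw htw φ hloc hsurj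
          hφH h₂ (fun _ => ⟨N' * p, by ring⟩) hpS₂ hNS₂ res hgood hresT (hup tw hann)
      haveI : IsNoetherianRing TQ := isNoetherianRing_of_surjective _ _ φ.toRingHom hsurj
      exact strictCond_push_of_strictQ hp hp𝒪 hpS hNS H φ.toRingHom hloc hstrict Tram Smin hST
        hSmin

end Package

end Fermat.Agent.GE8.Deside.StrictEven
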