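/-
GATE-E / RISK-3 DESIDE, consumer twins, `ρbar`-form (helper32): **the `p`-NEW (strict-ordinary) group
G3 WITHOUT the side condition `hside`, over the WEAKEST form of the DESIDE package**
`StrictEven.GalPkgSONoSideRhobar` (which `StrictEven.galPkgSONoSideRhobar_of_resAnn` proves from the
(g4) package `ResAnnStmt`, and which follows from `G3.GalPkgSONoSideNew`).  Same statements and
proofs as `Deside/G3.exists_psi_strict_noSide`, `exists_psi_TQ_strict_noSide`.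
-/
import Fermat.Agent.GE8.Deside.StrictEven

set_option autoImplicit false
set_option linter.style.haveILetI false
set_option linter.unusedSectionVars false
set_option linter.unusedVariables false

noncomputable section

namespace Fermat.Agent.GE8.Deside.G3R

open TensorProduct CuspForm IsLocalRing Polynomial GaloisRep
open Fermat.Agent.GK.AL
open Fermat.Agent.GB.B4.Datum.Carrier Fermat.Agent.GB.B4.Datum.ImageRing
open Fermat.Agent.GB.B4.Datum.Push Fermat.Agent.GB.Def.FramedNodes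
open Fermat.Agent.GB.B10.KumLevelHecke Fermat.Agent.GB.B10.L.NewInst
open Fermat.Agent.GB.B10.L.ThetaNew Fermat.Agent.GB.B10.L.StrictQNew
open Fermat.Agent.GE8.Deside.StrictEven

local notation "GQ" => (AlgebraicClosure ℚ ≃ₐ[ℚ] AlgebraicClosure ℚ)
local notation "Qb" => AlgebraicClosure ℚ

variable {N' p : ℕ} [NeZero N'] [Fact p.Prime] {S : Finset ℕ}
  {𝒪 : Type} [CommRing 𝒪] [IsDomain 𝒪] [IsDiscreteValuationRing 𝒪]
  [IsAdicComplete (maximalIdeal 𝒪) 𝒪] [Finite (ResidueField 𝒪)] [CharZero 𝒪]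
  {θ : heckeAlgebra (N' * p) 2 (↑S : Set ℕ) →+* ResidueField 𝒪}

/-- **G3 (strict-ordinary branch), general carrier, WITHOUT `hside`** — twin of
`ProviderNew/G3.exists_psi_strict` over `hpkg : GalPkgSONoSideRhobar`. -/
theorem exists_psi_strict_noSideR (hpkg : GalPkgSONoSideRhobar)
    {TQ : Type} [CommRing TQ] [IsLocalRing TQ] [IsNoetherianRing TQ]
    [IsAdicComplete (maximalIdeal TQ) TQ] [Algebra 𝒪 TQ] [IsLocalHom (algebraMap 𝒪 TQ)]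
    (hp2 : p ≠ 2) (hp𝒪 : (p : 𝒪) ∈ maximalIdeal 𝒪)
    (h : ExactDvd p (N' * p)) (hpS : p ∈ S)
    (hNS : ∀ q : ℕ, q.Prime → q ∣ N' * p → q ∈ S)
    (ρbar : ResidualGaloisRep (ResidueField 𝒪)) (habs : ρbar.IsAbsolutelyIrreducible)
    (hfrob : ∀ (ℓ : ℕ) (hℓ : ℓ.Prime) (hℓN : ¬ ℓ ∣ N' * p) (hℓS : ℓ ∉ (↑S : Set ℕ)),
      ∀ P : ValuationSubring Qb, P.LiesOverPrime ℓ → ∀ σ : GQ, P.IsFrobeniusAt σ ℓ →
        ∃ d₀ : ResidueField 𝒪, LinearMap.charpoly (ρbar.ρ σ) =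
          X ^ 2 - C (θ (heckeAlgebra.T hℓ hℓN hℓS)) * X + C d₀)
    (hordbar : (GaloisRepAdic.ofResidualGaloisRep ρbar).IsOrdinaryAt p)
    (tw : heckeAlgebra (N' * p) 2 (↑S : Set ℕ) →+* TQ)
    (hres : ∀ t, residue TQ (tw t) = ResidueField.map (algebraMap 𝒪 TQ) (θ t))
    (hgen : Algebra.adjoin 𝒪 (Set.range tw) = ⊤)
    (hressurj : Function.Surjective (residue TQ ∘ algebraMap 𝒪 TQ))
    (hann : ∀ t₀ : 𝒪 ⊗[ℤ] heckeAlgebra (N' * p) 2 (↑S : Set ℕ),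
      (∀ (a : 𝒪), ∀ x ∈ (LamNew (not_dvd_of_exactDvd h) :
          AddSubgroup (levelData p (N' * p) hpS hNS).Λ),
        (levelData p (N' * p) hpS hNS).heckeTensor 𝒪 t₀ (a ⊗ₜ[ℤ] x) = 0) →
          Fermat.Agent.GB.B10.L.GalPkgSO.twO (𝒪 := 𝒪) tw t₀ = 0)
    (Smin Su Q Sun : Finset ℕ) (hpT : p ∈ Smin ∪ Su ∪ Q)
    (hNT : ∀ q : ℕ, q.Prime → q ∣ N' * p → q ∈ Smin ∪ Su ∪ Q)
    (hSmin : ∀ q ∈ Smin, q.Prime → q ≠ p → q ∣ N' * p ∧ ¬ q ^ 2 ∣ N' * p)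
    (hSun : ∀ q ∈ Sun, q.Prime → q ≠ p → q ∣ N' * p ∧ ¬ q ^ 2 ∣ N' * p)
    (DQ : DeformationRingData 𝒪 ρbar (framedCond p (strictOrdinaryCondition 𝒪 p) Smin Su Q)) :
    ∃ (ψ : DQ.R →ₐ[𝒪] TQ) (hψ : IsLocalHom (ψ : DQ.R →+* TQ)) (ρQ : GaloisRepAdic TQ),
      Function.Surjective ψ ∧
      (DQ.ρ.baseChangeAlong (ψ : DQ.R →+* TQ) hψ).IsEquiv ρQ ∧
      (∀ (ℓ : ℕ) (hℓ : ℓ.Prime) (hℓN : ¬ ℓ ∣ N' * p) (hℓS : ℓ ∉ (↑S : Set ℕ))
        (A : ValuationSubring Qb), A.LiesOverPrime ℓ → ∀ σ : GQ, A.IsFrobeniusAt σ ℓ →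
          LinearMap.charpoly (ρQ.ρ σ) =
            X ^ 2 - C (tw (heckeAlgebra.T hℓ hℓN hℓS)) * X + C ((ℓ : TQ))) ∧
      ρQ.DetIsCyclotomic p ∧
      (∀ q ∈ Sun, q.Prime → q ≠ p → ρQ.IsUnipotentOnInertiaAt q) ∧
      ρQ.residual.IsEquiv (ρbar.baseChangeAlong (ResidueField.map (algebraMap 𝒪 TQ))) := by
  have hp : p.Prime := Fact.out
  obtain ⟨H, hπ, -, hunrH, hresH⟩ :=
    Fermat.Agent.GB.Glue.DatumOfRhobar.exists_datum p (N' * p) S 𝒪 θ hp2 hpS hNS hp𝒪 ρbar habs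
      hfrob
  obtain ⟨φ, hφ, hφs, hφt, hchar, hstrict, hunip⟩ :=
    hpkg (TQ := TQ) hp2 hp𝒪 h hpS hNS ρbar habs hfrob hordbar
      H hπ hresH tw hres hgen S (Smin ∪ Sun) (Finset.Subset.refl S)
      (fun q hq hqpr hqp => by
        rcases Finset.mem_union.mp hq with h' | h'
        · exact hSmin q h' hqpr hqp
        · exact hSun q h' hqpr hqp)
      hann
  -- the type of the pushed representation
  have h𝒟 : framedCond p (strictOrdinaryCondition 𝒪 p) Smin Su Q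
      (pushRep H φ.toRingHom hφ) := by
    refine ⟨⟨hstrict.1, hstrict.2.1, fun q hq hqT => ?_⟩, fun q hq hqpr hqp =>
      hunip q (Finset.mem_union_left _ hq) hqpr hqp⟩
    exact Fermat.Agent.GP.Tan.isUnramifiedAt_baseChangeAlong φ.toRingHom hφ
      (hunrH q hq (fun hqN => hqT (hNT q hq hqN)) (fun hqp => hqT (by rw [hqp]; exact hpT)))
  -- its residual representation
  have hresQ : (pushRep H φ.toRingHom hφ).residual.IsEquiv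
      (ρbar.baseChangeAlong (ResidueField.map (algebraMap 𝒪 TQ))) := by
    have h1 := Fermat.Agent.GB.B4.Datum.PushTloc.residual_push H.ρ φ.toRingHom hφ ρbar
      (ResidueField.map (algebraMap 𝒪 (Tloc 𝒪 θ))) hresH
    haveI := hφ
    have e : (ResidueField.map φ.toRingHom).comp (ResidueField.map (algebraMap 𝒪 (Tloc 𝒪 θ))) =
        ResidueField.map (algebraMap 𝒪 TQ) := by
      ext x
      obtain ⟨a, rfl⟩ := residue_surjective x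
      rw [RingHom.comp_apply, ResidueField.map_residue, ResidueField.map_residue,
        ResidueField.map_residue]
      congr 1
      exact φ.commutes a
    rw [e] at h1
    exact h1
  obtain ⟨ψ, hψ, hsurj, he⟩ := Fermat.Agent.GB.B4.Datum.PsiTQPush.exists_psi_of_type DQ hNS
    hressurj (pushRep H φ.toRingHom hφ) h𝒟 hresQ tw hgen hchar
  exact ⟨ψ, hψ, pushRep H φ.toRingHom hφ, hsurj, he, hchar,
    detIsCyclotomic_push hp hp𝒪 hpS H φ.toRingHom hφ,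
    fun q hq hqpr hqp => hunip q (Finset.mem_union_right _ hq) hqpr hqp, hresQ⟩

variable {M : Type} [AddCommGroup M] [Module 𝒪 M] [Module.Finite 𝒪 M] [Module.Free 𝒪 M]
  [Nontrivial M] {tw : heckeAlgebra (N' * p) 2 (↑S : Set ℕ) →+* Module.End 𝒪 M}

/-- **G3 (strict-ordinary branch) over the image ring `TQ 𝒪 θ tw`, WITHOUT `hside`** — twin of
`ProviderNew/G3.exists_psi_TQ_strict` over `hpkg : GalPkgSONoSideRhobar`. -/
theorem exists_psi_TQ_strict_noSideR (hpkg : GalPkgSONoSideRhobar) [hloc : Fact (LocHyp 𝒪 θ tw)]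
    (hp2 : p ≠ 2) (hp𝒪 : (p : 𝒪) ∈ maximalIdeal 𝒪)
    (h : ExactDvd p (N' * p)) (hpS : p ∈ S)
    (hNS : ∀ q : ℕ, q.Prime → q ∣ N' * p → q ∈ S)
    (ρbar : ResidualGaloisRep (ResidueField 𝒪)) (habs : ρbar.IsAbsolutelyIrreducible)
    (hfrob : ∀ (ℓ : ℕ) (hℓ : ℓ.Prime) (hℓN : ¬ ℓ ∣ N' * p) (hℓS : ℓ ∉ (↑S : Set ℕ)),
      ∀ P : ValuationSubring Qb, P.LiesOverPrime ℓ → ∀ σ : GQ, P.IsFrobeniusAt σ ℓ →
        ∃ d₀ : ResidueField 𝒪, LinearMap.charpoly (ρbar.ρ σ) =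
          X ^ 2 - C (θ (heckeAlgebra.T hℓ hℓN hℓS)) * X + C d₀)
    (hordbar : (GaloisRepAdic.ofResidualGaloisRep ρbar).IsOrdinaryAt p)
    (hAnn : ∀ t₀ : 𝒪 ⊗[ℤ] heckeAlgebra (N' * p) 2 (↑S : Set ℕ),
      (∀ (a : 𝒪), ∀ x ∈ (LamNew (not_dvd_of_exactDvd h) :
          AddSubgroup (levelData p (N' * p) hpS hNS).Λ),
        (levelData p (N' * p) hpS hNS).heckeTensor 𝒪 t₀ (a ⊗ₜ[ℤ] x) = 0) →
          ∀ m : M, twO 𝒪 tw t₀ m = 0)
    (Smin Su Q Sun : Finset ℕ) (hpT : p ∈ Smin ∪ Su ∪ Q)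
    (hNT : ∀ q : ℕ, q.Prime → q ∣ N' * p → q ∈ Smin ∪ Su ∪ Q)
    (hSmin : ∀ q ∈ Smin, q.Prime → q ≠ p → q ∣ N' * p ∧ ¬ q ^ 2 ∣ N' * p)
    (hSun : ∀ q ∈ Sun, q.Prime → q ≠ p → q ∣ N' * p ∧ ¬ q ^ 2 ∣ N' * p)
    (DQ : DeformationRingData 𝒪 ρbar (framedCond p (strictOrdinaryCondition 𝒪 p) Smin Su Q)) :
    ∃ (ψ : DQ.R →ₐ[𝒪] TQ 𝒪 θ tw) (hψ : IsLocalHom (ψ : DQ.R →+* TQ 𝒪 θ tw))
      (ρQ : GaloisRepAdic (TQ 𝒪 θ tw)),
      Function.Surjective ψ ∧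
      (DQ.ρ.baseChangeAlong (ψ : DQ.R →+* TQ 𝒪 θ tw) hψ).IsEquiv ρQ ∧
      (∀ (ℓ : ℕ) (hℓ : ℓ.Prime) (hℓN : ¬ ℓ ∣ N' * p) (hℓS : ℓ ∉ (↑S : Set ℕ))
        (A : ValuationSubring Qb), A.LiesOverPrime ℓ → ∀ σ : GQ, A.IsFrobeniusAt σ ℓ →
          LinearMap.charpoly (ρQ.ρ σ) =
            X ^ 2 - C (chi 𝒪 θ tw (heckeAlgebra.T hℓ hℓN hℓS)) * X
              + C ((ℓ : TQ 𝒪 θ tw))) ∧
      ρQ.DetIsCyclotomic p ∧
      (∀ q ∈ Sun, q.Prime → q ≠ p → ρQ.IsUnipotentOnInertiaAt q) ∧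
      ρQ.residual.IsEquiv
        (ρbar.baseChangeAlong (ResidueField.map (algebraMap 𝒪 (TQ 𝒪 θ tw)))) :=
  exists_psi_strict_noSideR hpkg hp2 hp𝒪 h hpS hNS ρbar habs hfrob hordbar (chi 𝒪 θ tw)
    (fun t => residue_chi (θ := θ) (tw := tw) t) (adjoin_range_chi 𝒪 θ tw)
    (residue_comp_algebraMap_surjective (θ := θ) (tw := tw))
    (Fermat.Agent.GB.B10.L.GalPkgSOImg.hann_of_module (θ := θ) tw _ hAnn)
    Smin Su Q Sun hpT hNT hSmin hSun DQ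

end Fermat.Agent.GE8.Deside.G3R
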