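/-
GATE-E / RISK-3 DESIDE, route (C) of helper69, file (C3), JZero-level core (helper30, second seat):
**the connected package on `J₀(N)[p^k]` WITHOUT the side condition `(p = 3 → 2 ∣ N)`**, with an
explicit witness containing `p • M⁰_{p^(k+1)}(N)`.

`p ∥ N`, `p` odd, `A | p`.
* `(p = 3 → 2 ∣ N)` : the landed `ConnM0.M0tors A h k` (`connPackage_M0tors_all`) and
  `HGeom.nsmul_mem_M0fam`;
* `p = 3`, `N` odd : helper69's `PackTransfer.transferSub (π^*) p (p^(k+1)) (M⁰_{p^(k+1)}(N·2))`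
  along `π^* = pullBar : J₀(N) → J₀(N·2)` (at the level `N·2` the side condition holds):
  `WJ`, `Wodd`, `connPackage_Wodd` (stab / incr / (CE) = `smul_mem_transferSub_iff`,
  `smul_sub_mem_transferSub` + `Aux23.jZero_surj`, `hasCE_transferSub` + `hasCE_M0fam_all` at `N·2`);
  the kernel of `π^*` is killed by `[F_{2N} : F_N] = 3 = p` (`relfinrank_mul_two`);
  `nsmul_mem_WJ` : `p • M⁰_{p^(k+1)}(N) ⊆ W` by helper69's `M0Up.pullBar_mem_M0mod`.
* **`exists_connPackage_odd`** : the two cases in one statement.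
-/
import Fermat.Agent.GE8.Deside.PackTransfer
import Fermat.Agent.GE8.Deside.M0Up
import Fermat.Agent.GB.B10.ConnM0
import Fermat.Agent.GH.Aux23.Data

set_option autoImplicit false
set_option linter.unusedSectionVars false
set_option linter.style.haveILetI false

open CuspForm ModularCurve IsLocalRing IntermediateField

namespace Fermat.Agent.GE8.Deside.ConnOddJ

open Fermat.Agent.GS.Alg.Transfer Fermat.Agent.GS.Old Fermat.Agent.GS.F
open Fermat.Agent.GK.AL AlgebraicCurve Fermat.Agent.GS.Top.HGeom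
open Fermat.Agent.GB.B10.ConnM0 Fermat.Agent.GE8.Deside.PackTransfer
open Fermat.Agent.GJ.S37HeckePullback

local notation "Qb" => AlgebraicClosure ℚ
local notation "GQ" => (AlgebraicClosure ℚ ≃ₐ[ℚ] AlgebraicClosure ℚ)

/-- `ψ(N·2) = ψ(N)·3` for odd `N`. -/
theorem dedekindPsi_mul_two {N : ℕ} (hodd : ¬ 2 ∣ N) :
    dedekindPsi (N * 2) = dedekindPsi N * 3 := by
  have hcop : Nat.Coprime N 2 := (Nat.coprime_comm.mp ((Nat.Prime.coprime_iff_not_dvd
    Nat.prime_two).mpr hodd))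
  rw [Fermat.Agent.S20_helper27.dedekindPsi_mul hcop]
  have h1 : dedekindPsi 2 = 3 := by
    have h := Fermat.Agent.S20_helper27.dedekindPsi_prime_pow Nat.prime_two (k := 1) one_pos
    simp only [pow_one, Nat.sub_self, pow_zero] at h
    exact h
  rw [h1]

/-- `[F_{2N} : F_N] = 3` for odd `N`. -/
theorem relfinrank_mul_two {N : ℕ} [NeZero N] [NeZero (N * 2)] (hodd : ¬ 2 ∣ N) :
    relfinrank (modularFunctionFieldBar N) (modularFunctionFieldBar (N * 2)) = 3 := by
  have h := Fermat.Agent.GJ.J1.Desc.dedekindPsi_mul_relfinrank (N := N) (N' := N * 2)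
    (dvd_mul_right N 2)
  rw [dedekindPsi_mul_two hodd] at h
  exact Nat.eq_of_mul_eq_mul_left (Fermat.Agent.GJ.J1.Desc.dedekindPsi_pos N) h

/-- `p ∥ N`, `p` odd `⟹ p ∥ N·2`. -/
theorem exactDvd_mul_two {p N : ℕ} (hp2 : p ≠ 2) (h : ExactDvd p N) : ExactDvd p (N * 2) := by
  refine ⟨h.prime, h.dvd.trans (dvd_mul_right N 2), fun h9 => ?_⟩
  have hcop : Nat.Coprime (p ^ 2) 2 := by
    refine Nat.Coprime.pow_left 2 ?_
    exact (Nat.coprime_primes h.prime Nat.prime_two).2 hp2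
  exact h.not_sq (hcop.dvd_of_dvd_mul_right h9)

section Level

variable {p : ℕ} {N : ℕ} [NeZero N]

/-- the transferred subgroup at the JZero level: `{ p • t : p^(k+1) • t = 0, π^* t ∈ M⁰_{p^(k+1)}(2N) }` -/
noncomputable def WJ (A : ValuationSubring Qb) (h2 : ExactDvd p (N * 2)) (k : ℕ) :
    AddSubgroup (JZero N) :=
  transferSub (pullBar (dvd_mul_right N 2)) p (p ^ (k + 1)) (M0fam A h2 (k + 1))

/-- the transferred subgroup inside `J₀(N)[p^k]` -/
noncomputable def Wodd (A : ValuationSubring Qb) (h2 : ExactDvd p (N * 2)) (k : ℕ) :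
    AddSubgroup ↥(Submodule.torsionBy ℤ (JZero N) ((p : ℤ) ^ k)) :=
  (WJ A h2 k).comap (Submodule.torsionBy ℤ (JZero N) ((p : ℤ) ^ k)).subtype.toAddMonoidHom

theorem mem_Wodd_iff (A : ValuationSubring Qb) (h2 : ExactDvd p (N * 2)) (k : ℕ)
    (w : ↥(Submodule.torsionBy ℤ (JZero N) ((p : ℤ) ^ k))) :
    w ∈ Wodd A h2 k ↔ (w : JZero N) ∈ WJ A h2 k := Iff.rfl

/-- **the connected package of the transferred subgroup** (`p = 3`, `N` odd is the case of
interest; the proof only uses that `p` kills the kernel of `π^*`). -/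
theorem connPackage_Wodd (hp2 : p ≠ 2) (h2 : ExactDvd p (N * 2))
    (hker : ∀ x : JZero N, pullBar (dvd_mul_right N 2) x = 0 → p • x = 0)
    (A : ValuationSubring Qb) (hA : A.LiesOverPrime p) (k : ℕ) :
    ConnPackage (↑(A.inertiaSubgroupIn ℚ) : Set GQ) (↑(A.decompositionSubgroup ℚ) : Set GQ)
      (fun (σ : GQ) (x : ↥(Submodule.torsionBy ℤ (JZero N) ((p : ℤ) ^ k))) =>
        Fermat.Agent.GH.Top.torsAct N ((p : ℤ) ^ k) σ x) (Wodd A h2 k) := by
  have i0 : NeZero p := ⟨h2.prime.ne_zero⟩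
  have hπ := (Fermat.Agent.GJ.S37PullPackageInst.pullPackage N (N * 2) (dvd_mul_right N 2)).1
  have hside : p = 3 → 2 ∣ N * 2 := fun _ => dvd_mul_left 2 N
  refine ⟨?_, ?_, ?_⟩
  · -- `D`-stability
    intro σ hσ w
    show σ • (w : JZero N) ∈ WJ A h2 k ↔ (w : JZero N) ∈ WJ A h2 k
    refine smul_mem_transferSub_iff hπ (D := (↑(A.decompositionSubgroup ℚ) : Set GQ))
      (fun τ hτ => inv_mem hτ) (fun τ hτ x hx => ?_) hσ _
    exact smul_mem_M0mod (h := h2) hτ hx
  · -- (U)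
    intro σ hσ u
    show ((Fermat.Agent.GH.Top.torsAct N ((p : ℤ) ^ k) σ u - u :
      ↥(Submodule.torsionBy ℤ (JZero N) ((p : ℤ) ^ k))) : JZero N) ∈ WJ A h2 k
    rw [AddSubgroupClass.coe_sub, Fermat.Agent.GH.Top.coe_torsAct]
    have hu : (p ^ k) • (u : JZero N) = 0 := by
      have h9 : ((p : ℤ) ^ k) • (u : JZero N) = 0 := (Submodule.mem_torsionBy_iff _ _).1 u.2
      generalize (u : JZero N) = x at h9 ⊢
      rw [← Nat.cast_pow, natCast_zsmul] at h9
      exact h9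
    obtain ⟨t, ht⟩ := Fermat.Agent.GH.Aux23.jZero_surj N p h2.prime.ne_zero 1 k (u : JZero N) hu
    rw [pow_one] at ht
    have ht0 : (p ^ (k + 1)) • t = 0 := by
      rw [pow_succ, mul_smul, ht, hu]
    rw [← ht]
    refine smul_sub_mem_transferSub hπ (fun x hx => ?_) ht0
    refine smul_sub_mem_M0mod_torsionBy (h := h2) hA (k + 1) hσ ?_
    rw [Submodule.mem_torsionBy_iff, ← Nat.cast_pow, natCast_zsmul]
    exact hx
  · -- (CE)
    intro N' hN' w hw hwN'
    have hCE := hasCE_M0fam_all hp2 h2 hside A hA (k + 1)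
    let N'' : AddSubgroup (JZero N) :=
      N'.map (Submodule.torsionBy ℤ (JZero N) ((p : ℤ) ^ k)).subtype.toAddMonoidHom
    have hmem : (w : JZero N) ∈ N'' := by
      refine hasCE_transferSub hπ hker hCE N'' ?_ (w : JZero N) hw ?_
      · rintro σ hσ _ ⟨u, hu, rfl⟩
        exact ⟨_, hN' σ hσ u hu, rfl⟩
      · intro σ hσ
        exact ⟨_, hwN' σ hσ, rfl⟩
    obtain ⟨w', hw', hww'⟩ := hmem
    have : w' = w := Subtype.ext hww'
    rw [← this]
    exact hw'

/-- `p • M⁰_{p^(k+1)}(N) ⊆ W` : the elements the strict-ordinary chain puts into the witness. -/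
theorem nsmul_mem_WJ (A : ValuationSubring Qb) (h : ExactDvd p N) (h2 : ExactDvd p (N * 2))
    (k : ℕ) {t : JZero N} (ht : t ∈ M0fam A h (k + 1)) : p • t ∈ WJ A h2 k := by
  have i1 : NeZero (p ^ (k + 1)) := ⟨pow_ne_zero _ h.prime.ne_zero⟩
  have ht' : t ∈ M0mod N A h (p ^ (k + 1)) := ht
  refine nsmul_mem_transferSub ?_ ?_
  · have h1 : ((p ^ (k + 1) : ℕ) : ℤ) • t = 0 := smul_eq_zero_of_mem_M0mod (h := h) ht'
    rw [natCast_zsmul] at h1
    exact h1
  · exact Fermat.Agent.GE8.Deside.M0Up.pullBar_mem_M0mod h h2 ht'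

/-- **(C3), JZero level: the connected package on `J₀(N)[p^k]` WITHOUT side condition**, with a
witness containing `p • M⁰_{p^(k+1)}`.  (`p = 3 → 2 ∣ N`: the landed `M0tors`; `p = 3`, `N` odd:
the transfer from the level `N·2` along `π^*`, whose kernel is killed by `[F_{2N} : F_N] = 3`.) -/
theorem exists_connPackage_odd (hp2 : p ≠ 2) (h : ExactDvd p N)
    (A : ValuationSubring Qb) (hA : A.LiesOverPrime p) (k : ℕ) :
    ∃ W : AddSubgroup ↥(Submodule.torsionBy ℤ (JZero N) ((p : ℤ) ^ k)),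
      ConnPackage (↑(A.inertiaSubgroupIn ℚ) : Set GQ) (↑(A.decompositionSubgroup ℚ) : Set GQ)
        (fun (σ : GQ) (x : ↥(Submodule.torsionBy ℤ (JZero N) ((p : ℤ) ^ k))) =>
          Fermat.Agent.GH.Top.torsAct N ((p : ℤ) ^ k) σ x) W ∧
      ∀ t : JZero N, t ∈ M0fam A h (k + 1) →
        ∀ ht : p • t ∈ Submodule.torsionBy ℤ (JZero N) ((p : ℤ) ^ k),
          (⟨p • t, ht⟩ : ↥(Submodule.torsionBy ℤ (JZero N) ((p : ℤ) ^ k))) ∈ W := by
  by_cases hs : p = 3 → 2 ∣ N
  · refine ⟨M0tors A h k, connPackage_M0tors_all hp2 h hs A hA k, fun t ht _ => ?_⟩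
    exact nsmul_mem_M0fam A h k ht
  · rw [Classical.not_imp] at hs
    obtain ⟨hp3, hodd⟩ := hs
    have h2 : ExactDvd p (N * 2) := exactDvd_mul_two hp2 h
    have hker : ∀ x : JZero N, pullBar (dvd_mul_right N 2) x = 0 → p • x = 0 := by
      intro x hx
      have h1 :=
        (Fermat.Agent.GJ.S37PullPackageInst.pullPackage N (N * 2) (dvd_mul_right N 2)).2 x hx
      rw [relfinrank_mul_two hodd] at h1
      rw [hp3]
      exact h1
    refine ⟨Wodd A h2 k, connPackage_Wodd hp2 h2 hker A hA k, fun t ht _ => ?_⟩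
    exact nsmul_mem_WJ A h h2 k ht

end Level

end Fermat.Agent.GE8.Deside.ConnOddJ
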