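/-
GATE-E / RISK-3 DESIDE, route (C) (helper69 7598, RULING A11.2 of helper10), leaf (C4b) + twins
(helper39, author of `GB/B10/L/{NewInst,StrictQ,GalPkgSO}`): **the strict-ordinary Galois package on
the `p`-new lattice WITHOUT the side condition `p = 3 → 2 ∣ N' p`, from the connected package at
odd level in the shifted form (`ConnOdd`).**

In `GB/B10` the side condition enters ONLY through the (CE) field of the connected package of
`W = M⁰_{pⁿ}` (`ConnM0.connPackage_M0tors_all`).  `CoreSub.exists_package_sq_level_sub` and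
`ShiftSub.exists_hker` are generic in `(W, Y)`.  So, with

  `ConnOddAt h hpS hNS` : for every place `A ∣ p` and every `n` there is `W ≤ K n` with the
     connected package for `(I_A, D_A)` and `trans (M⁰_{p^{n+1}}) ⊆ W`
     (`trans : K (n+1) → K n` the transition map = multiplication by `p` on `J₀(N)[p^{n+1}]`),

take `Y n := trans (newSub (n+1))`:

* `Θ_n Λ' ⊆ Y n`             because `Θ_n = trans ∘ Θ_{n+1}` (`S36End.ThetaN_trans`) and `(hY)`;
* `Y n` Galois- and Hecke-stable  because `trans` commutes with `gal` and `heckeHom`;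
* `τ² y - y ∈ W` for `y ∈ Y n` because `τ² y' - y' ∈ M⁰_{p^{n+1}}` for `y'` new — the landed SIDE-FREE
  `NewInst.frobSq_sub_mem_of_mem_newSub` — and `trans (M⁰_{p^{n+1}}) ⊆ W`.

Exports (all WITHOUT `hside`):
* `transK_Θ`, `transK_gal`, `transK_heckeHom` (the three commutation facts of helper69's
  `ConnOddStmt.transK`);
* `ConnOddAt` (one level), `connOddAt_of_stmt : ConnOddStmt → ConnOddAt`;
* `isStrictOrdinaryAt_pushRep_of_ann_odd`, `isStrictOrdinaryAt_pushRep_of_ann_res_odd`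
  (twins of `StrictQ.isStrictOrdinaryAt_pushRep_of_ann(_res)`);
* `exists_galRep_strict_of_ann_odd`  (twin of `GalPkgSO.exists_galRep_strict_of_ann`, general `Λ'`);
* `galPkgSONewStmt_of_connOdd : ConnOddStmt.ConnOddStmt → GE9.Stage.NoSide.GalPkgSONewStmt`.
-/
import Fermat.Agent.GB.B10.L.StrictQ
import Fermat.Agent.GB.B10.L.GalPkgSO
import Fermat.Agent.GB.B10.L.StrictQNew
import Fermat.Agent.GE9.Stage.NoSideStmt
import Fermat.Agent.GL.Tate.S36End
import Fermat.Agent.GE8.Deside.ConnOddStmt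

set_option autoImplicit false
set_option linter.unusedSectionVars false
set_option linter.unusedVariables false
set_option linter.style.haveILetI false

noncomputable section

namespace Fermat.Agent.GE8.Deside.StrictQOdd

open TensorProduct CuspForm IsLocalRing Polynomial
open Fermat.Agent.Common_helper32 Fermat.Agent.GJ.Tate Fermat.Agent.GK.AL
open Fermat.Agent.GS.Alg.Transfer
open Fermat.Agent.GJ Fermat.Agent.GJ.KumGroup Fermat.Agent.GJ.Kum.KumType
open Fermat.Agent.GH.S32.InstCore Fermat.Agent.GH.S32.Inst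
open Fermat.Agent.GB.B10.KumLevelHecke Fermat.Agent.GB.B10.L.NewInst Fermat.Agent.GB.B10.ConnM0
open Fermat.Agent.GB.B4.Datum.Carrier Fermat.Agent.GB.B4.Datum.Push
open Fermat.Agent.GB.B10.L.ThetaNew
open Fermat.Agent.GE8.Deside.ConnOddStmt (transK toKum_transK)

local notation "GQ" => (AlgebraicClosure ℚ ≃ₐ[ℚ] AlgebraicClosure ℚ)
local notation "Qb" => AlgebraicClosure ℚ

/-! ### the transition map on the concrete level data -/

section Trans

variable (p : ℕ) [Fact p.Prime] (N : ℕ) [NeZero N] {S : Finset ℕ}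
  (hpS : p ∈ S) (hNS : ∀ q : ℕ, q.Prime → q ∣ N → q ∈ S)

/-- `trans ∘ Θ_{n+1} = Θ_n`. -/
theorem transK_Θ (n : ℕ) (x : (levelData p N hpS hNS).Λ) :
    transK p N hpS hNS n ((levelData p N hpS hNS).Θ (n + 1) x) =
      (levelData p N hpS hNS).Θ n x := by
  apply (toKum p N hpS hNS n).injective
  exact Fermat.Agent.GL.Tate.S36End.ThetaN_trans N p (Nat.le_succ n) x

/-- `trans` commutes with the Galois action. -/
theorem transK_gal (n : ℕ) (g : GQ) (y : (levelData p N hpS hNS).K (n + 1)) :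
    transK p N hpS hNS n ((levelData p N hpS hNS).gal (n + 1) g y) =
      (levelData p N hpS hNS).gal n g (transK p N hpS hNS n y) := by
  apply (toKum p N hpS hNS n).injective
  exact (Fermat.Agent.GJ.Tate.S30Top.gal_trans (p := p) (N := N) n g
    (toKum p N hpS hNS (n + 1) y)).symm

/-- `trans` commutes with the Hecke action. -/
theorem transK_heckeHom (n : ℕ) (t : heckeAlgebra N 2 (↑S : Set ℕ))
    (y : (levelData p N hpS hNS).K (n + 1)) :
    transK p N hpS hNS n ((levelData p N hpS hNS).heckeHom (n + 1) t y) =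
      (levelData p N hpS hNS).heckeHom n t (transK p N hpS hNS n y) := by
  obtain ⟨x, rfl⟩ := (levelData p N hpS hNS).Θ_surjective (n + 1) y
  rw [KumLevelData.heckeHom_Θ, transK_Θ, transK_Θ, KumLevelData.heckeHom_Θ]

end Trans

/-! ### the hypothesis: the connected package at any level, shifted form -/

section Hyp

variable {N' p : ℕ} [NeZero N'] [Fact p.Prime] {S : Finset ℕ}

/-- **the connected package without side condition, shifted form**, at `(N' p, S)`: for every place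
`A ∣ p` and every `n` a subgroup `W ≤ K n` with the connected package for `(I_A, D_A)` containing
the image of `M⁰_{p^{n+1}}` under the transition map. -/
def ConnOddAt (h : ExactDvd p (N' * p)) (hpS : p ∈ S)
    (hNS : ∀ r : ℕ, r.Prime → r ∣ N' * p → r ∈ S) : Prop :=
  ∀ (A : ValuationSubring Qb), A.LiesOverPrime p → ∀ n : ℕ,
    ∃ W : AddSubgroup ((levelData p (N' * p) hpS hNS).K n),
      ConnPackage (↑(A.inertiaSubgroupIn ℚ) : Set GQ) (↑(A.decompositionSubgroup ℚ) : Set GQ)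
        (fun (σ : GQ) (x : (levelData p (N' * p) hpS hNS).K n) =>
          (levelData p (N' * p) hpS hNS).gal n σ x) W ∧
      ∀ y' : (levelData p (N' * p) hpS hNS).K (n + 1),
        y' ∈ (M0tors A h (n + 1)).comap (toTors p (N' * p) hpS hNS (n + 1)).toAddMonoidHom →
          transK p (N' * p) hpS hNS n y' ∈ W

/-- the shifted new part `Y n := trans (newSub (n+1))`. -/
def shiftNew (h : ExactDvd p (N' * p)) (hpS : p ∈ S)
    (hNS : ∀ r : ℕ, r.Prime → r ∣ N' * p → r ∈ S) (n : ℕ) :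
    AddSubgroup ((levelData p (N' * p) hpS hNS).K n) :=
  (newSub h hpS hNS (n + 1)).map (transK p (N' * p) hpS hNS n)

end Hyp

/-- helper69's interface `ConnOddStmt` (GE8/Deside/ConnOddStmt.lean) gives `ConnOddAt` at every
level. -/
theorem connOddAt_of_stmt (hC : Fermat.Agent.GE8.Deside.ConnOddStmt.ConnOddStmt)
    {N' p : ℕ} [NeZero N'] [Fact p.Prime] {S : Finset ℕ} (hp2 : p ≠ 2)
    (h : ExactDvd p (N' * p)) (hpS : p ∈ S) (hNS : ∀ r : ℕ, r.Prime → r ∣ N' * p → r ∈ S) :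
    ConnOddAt h hpS hNS :=
  fun A hA n => hC hp2 h hpS hNS A hA n

/-! ### the twins of `StrictQ` -/

section StrictQ

variable {N' p : ℕ} [NeZero N'] [Fact p.Prime] {S : Finset ℕ}
  {𝒪 : Type} [CommRing 𝒪] [IsDomain 𝒪] [IsDiscreteValuationRing 𝒪]
  [IsAdicComplete (IsLocalRing.maximalIdeal 𝒪) 𝒪]
  {θ : CuspForm.heckeAlgebra (N' * p) 2 (↑S : Set ℕ) →+* IsLocalRing.ResidueField 𝒪}
  {T : Type} [CommRing T] [IsLocalRing T] [IsNoetherianRing T]
  [IsAdicComplete (IsLocalRing.maximalIdeal T) T] [Algebra 𝒪 T] [IsLocalHom (algebraMap 𝒪 T)]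
  [Module.Finite 𝒪 T] [Module.Free 𝒪 T]
  {TQ : Type} [CommRing TQ] [IsLocalRing TQ] [IsNoetherianRing TQ]

/-- **(ASM) without side condition**: `(hann) + (hY) + hord + ConnOddAt ⟹ (STRICTQ)`. -/
theorem isStrictOrdinaryAt_pushRep_of_ann_odd [Finite (IsLocalRing.ResidueField 𝒪)] [CharZero 𝒪]
    (hp2 : p ≠ 2) (hp𝒪 : (p : 𝒪) ∈ maximalIdeal 𝒪)
    (h : ExactDvd p (N' * p))
    (hpS : p ∈ S) (hNS : ∀ r : ℕ, r.Prime → r ∣ N' * p → r ∈ S)
    (hC : ConnOddAt h hpS hNS)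
    (H : CuspForm.HeckeGaloisRepDatum (N' * p) (↑S : Set ℕ) 𝒪 θ T)
    (hord : H.ρ.IsOrdinaryAt p)
    (φ : T →+* TQ) (hφ : IsLocalHom φ) (hsurj : Function.Surjective φ)
    (Λ' : AddSubgroup (levelData p (N' * p) hpS hNS).Λ)
    (hann : ∀ t₀ : 𝒪 ⊗[ℤ] heckeAlgebra (N' * p) 2 (↑S : Set ℕ),
      (∀ (a : 𝒪), ∀ x ∈ Λ',
        (levelData p (N' * p) hpS hNS).heckeTensor 𝒪 t₀ (a ⊗ₜ[ℤ] x) = 0) → φ (piT H t₀) = 0)
    (hY : ∀ n : ℕ, ∀ x ∈ Λ', (levelData p (N' * p) hpS hNS).Θ n x ∈ newSub h hpS hNS n) :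
    (pushRep H φ hφ).IsStrictOrdinaryAt p := by
  have hp : p.Prime := Fact.out
  have hfinres : Finite (IsLocalRing.ResidueField T) :=
    Fermat.Agent.GH.S32.finite_residueField_of_moduleFinite 𝒪 T
  have hpT : (p : T) ∈ maximalIdeal T := Fermat.Agent.GS.DetCyc.natCast_mem_maximalIdeal hp𝒪
  have hpQ : (p : TQ) ∈ maximalIdeal TQ := by
    have h1 := (haveI := hφ; map_nonunit φ (p : T) hpT)
    rwa [map_natCast] at h1
  -- `Θ_n Λ' ⊆ Y n := trans (newSub (n+1))`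
  have hY' : ∀ n : ℕ, ∀ x ∈ Λ',
      (levelData p (N' * p) hpS hNS).Θ n x ∈ shiftNew h hpS hNS n := by
    intro n x hx
    refine ⟨(levelData p (N' * p) hpS hNS).Θ (n + 1) x, hY (n + 1) x hx, ?_⟩
    exact transK_Θ p (N' * p) hpS hNS n x
  obtain ⟨c, hc⟩ := Fermat.Agent.GB.B10.L.ShiftSub.exists_hker (levelData p (N' * p) hpS hNS) H φ
    hpQ Λ' hann (fun n => shiftNew h hpS hNS n) hY'
  refine Fermat.Agent.GB.B10.L.PushLevels.isStrictOrdinaryAt_push_of_levels hp hp𝒪 hpS H φ hφ hsurj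
    hord fun P hP n => ?_
  have hfin : Finite (T ⧸ (maximalIdeal TQ ^ n).comap φ) :=
    Fermat.Agent.GB.B10.L.StrictQ.finite_quotient_comap_pow φ hφ n
  obtain ⟨W, hW, hWM⟩ := hC P hP (n + c)
  obtain ⟨W', hW', hsq'⟩ := Fermat.Agent.GB.B10.L.CoreSub.exists_package_sq_level_sub
    (levelData p (N' * p) hpS hNS) (levelData_comm p (N' * p) hpS hNS) hp hp2 hp𝒪 hpS hNS H
    ((maximalIdeal TQ ^ n).comap φ)
    (Ip := (↑(P.inertiaSubgroupIn ℚ) : Set GQ)) (Dp := (↑(P.decompositionSubgroup ℚ) : Set GQ))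
    (Fr := {τ : GQ | P.IsFrobeniusAt τ p})
    (fun σ hσ => by
      have hσ' : σ ∈ P.inertiaSubgroupIn ℚ := hσ
      unfold ValuationSubring.inertiaSubgroupIn at hσ'
      rw [Subgroup.mem_map] at hσ'
      obtain ⟨i', _, rfl⟩ := hσ'
      exact i'.2)
    (fun σ hσ => (P.decompositionSubgroup ℚ).inv_mem hσ) (n + c) W (shiftNew h hpS hNS (n + c))
    hW
    (by
      rintro g _ ⟨y', hy', rfl⟩
      refine ⟨(levelData p (N' * p) hpS hNS).gal (n + c + 1) g y',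
        gal_mem_newSub h hpS hNS g hy', ?_⟩
      exact transK_gal p (N' * p) hpS hNS (n + c) g y')
    (by
      rintro t _ ⟨y', hy', rfl⟩
      refine ⟨(levelData p (N' * p) hpS hNS).heckeHom (n + c + 1) t y',
        heckeHom_mem_newSub h hpS hNS t hy', ?_⟩
      exact transK_heckeHom p (N' * p) hpS hNS (n + c) t y')
    (by
      rintro τ hτ _ ⟨y', hy', rfl⟩
      have hτ' : P.IsFrobeniusAt τ p := hτ
      have h1 := frobSq_sub_mem_of_mem_newSub h hpS hNS hP hτ' hy'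
      have h2 := hWM _ h1
      rw [map_sub, transK_gal, transK_gal] at h2
      exact h2)
    (fun t' ht' => hc n t' fun a y hy => ht' a y hy)
  exact ⟨(maximalIdeal TQ ^ n).comap φ, le_rfl, W', hW', hsq'⟩

/-- **(ASM) without side condition**, `hord` from S33. -/
theorem isStrictOrdinaryAt_pushRep_of_ann_res_odd [Finite (IsLocalRing.ResidueField 𝒪)]
    [CharZero 𝒪]
    (hp2 : p ≠ 2) (hp𝒪 : (p : 𝒪) ∈ maximalIdeal 𝒪)
    (h : ExactDvd p (N' * p))
    (hpS : p ∈ S) (hNS : ∀ r : ℕ, r.Prime → r ∣ N' * p → r ∈ S)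
    (hC : ConnOddAt h hpS hNS)
    (H : CuspForm.HeckeGaloisRepDatum (N' * p) (↑S : Set ℕ) 𝒪 θ T)
    (hres : (GaloisRepAdic.ofResidualGaloisRep H.ρ.residual).IsOrdinaryAt p)
    (φ : T →+* TQ) (hφ : IsLocalHom φ) (hsurj : Function.Surjective φ)
    (Λ' : AddSubgroup (levelData p (N' * p) hpS hNS).Λ)
    (hann : ∀ t₀ : 𝒪 ⊗[ℤ] heckeAlgebra (N' * p) 2 (↑S : Set ℕ),
      (∀ (a : 𝒪), ∀ x ∈ Λ',
        (levelData p (N' * p) hpS hNS).heckeTensor 𝒪 t₀ (a ⊗ₜ[ℤ] x) = 0) → φ (piT H t₀) = 0)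
    (hY : ∀ n : ℕ, ∀ x ∈ Λ', (levelData p (N' * p) hpS hNS).Θ n x ∈ newSub h hpS hNS n) :
    (pushRep H φ hφ).IsStrictOrdinaryAt p := by
  have hp : p.Prime := Fact.out
  refine isStrictOrdinaryAt_pushRep_of_ann_odd hp2 hp𝒪 h hpS hNS hC H ?_ φ hφ hsurj Λ' hann hY
  exact Fermat.Agent.GS.Top.Aux3.s33_of_frameNodes hp hp2 hp𝒪 ⟨h.dvd, h.not_sq⟩ hNS H hres
    (fun N'' _ h'' hside'' =>
      Fermat.Agent.GS.Top.FrameNodeAll.frameNode_all p N'' h'' hp2 hside'')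

end StrictQ

/-! ### the twin of `GalPkgSO.exists_galRep_strict_of_ann` -/

section Gal

variable {N' p : ℕ} [NeZero N'] [Fact p.Prime] {S : Finset ℕ}
  {𝒪 : Type} [CommRing 𝒪] [IsDomain 𝒪] [IsDiscreteValuationRing 𝒪]
  [IsAdicComplete (IsLocalRing.maximalIdeal 𝒪) 𝒪] [Finite (ResidueField 𝒪)] [CharZero 𝒪]
  {θ : CuspForm.heckeAlgebra (N' * p) 2 (↑S : Set ℕ) →+* IsLocalRing.ResidueField 𝒪}
  {TQ : Type} [CommRing TQ] [IsLocalRing TQ] [Algebra 𝒪 TQ] [IsLocalHom (algebraMap 𝒪 TQ)]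

/-- **GalPkg, strict-ordinary case, from the lattice binders, WITHOUT side condition** (twin of
`GalPkgSO.exists_galRep_strict_of_ann`; extra binder `hC : ConnOddAt h hpS hNS`). -/
theorem exists_galRep_strict_of_ann_odd
    (hp2 : p ≠ 2) (hp𝒪 : (p : 𝒪) ∈ maximalIdeal 𝒪)
    (h : ExactDvd p (N' * p))
    (hpS : p ∈ S) (hNS : ∀ r : ℕ, r.Prime → r ∣ N' * p → r ∈ S)
    (hC : ConnOddAt h hpS hNS)
    (H : HeckeGaloisRepDatum (N' * p) (↑S : Set ℕ) 𝒪 θ (Tloc 𝒪 θ)) (hπ : H.π = piT 𝒪 θ)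
    (hres : (GaloisRepAdic.ofResidualGaloisRep H.ρ.residual).IsOrdinaryAt p)
    (tw : heckeAlgebra (N' * p) 2 (↑S : Set ℕ) →+* TQ)
    (htw : ∀ t, residue TQ (tw t) = ResidueField.map (algebraMap 𝒪 TQ) (θ t))
    (hgen : Algebra.adjoin 𝒪 (Set.range tw) = ⊤)
    (Tram Smin : Finset ℕ) (hST : S ⊆ Tram)
    (hSmin : ∀ q ∈ Smin, q.Prime → q ≠ p → q ∣ N' * p ∧ ¬ q ^ 2 ∣ N' * p)
    (Λ' : AddSubgroup (levelData p (N' * p) hpS hNS).Λ)
    (hann : ∀ t₀ : 𝒪 ⊗[ℤ] heckeAlgebra (N' * p) 2 (↑S : Set ℕ),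
      (∀ (a : 𝒪), ∀ x ∈ Λ',
        (levelData p (N' * p) hpS hNS).heckeTensor 𝒪 t₀ (a ⊗ₜ[ℤ] x) = 0) →
          Fermat.Agent.GB.B10.L.GalPkgSO.twO (𝒪 := 𝒪) tw t₀ = 0)
    (hY : ∀ n : ℕ, ∀ x ∈ Λ', (levelData p (N' * p) hpS hNS).Θ n x ∈ newSub h hpS hNS n) :
    ∃ (φ : Tloc 𝒪 θ →ₐ[𝒪] TQ) (hφ : IsLocalHom φ.toRingHom), Function.Surjective φ ∧
      (∀ t, φ (piT 𝒪 θ t) = tw t) ∧
      (∀ (ℓ : ℕ) (hℓ : ℓ.Prime) (hℓN : ¬ ℓ ∣ N' * p) (hℓS : ℓ ∉ (↑S : Set ℕ))
        (A : ValuationSubring Qb), A.LiesOverPrime ℓ → ∀ σ : GQ, A.IsFrobeniusAt σ ℓ →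
          LinearMap.charpoly ((pushRep H φ.toRingHom hφ).ρ σ) =
            X ^ 2 - C (tw (heckeAlgebra.T hℓ hℓN hℓS)) * X + C ((ℓ : TQ))) ∧
      (GaloisRep.strictOrdinaryCondition 𝒪 p Tram (pushRep H φ.toRingHom hφ) ∧
        ∀ q ∈ Smin, q.Prime → q ≠ p → (pushRep H φ.toRingHom hφ).IsUnipotentOnInertiaAt q) := by
  have hp : p.Prime := Fact.out
  obtain ⟨φ, hφt, hloc, hsurj⟩ :=
    Fermat.Agent.GB.B4.Datum.PushTloc.exists_phi 𝒪 θ tw htw hgen
  haveI : IsNoetherianRing TQ := isNoetherianRing_of_surjective _ _ φ.toRingHom hsurj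
  have hφH : ∀ t, φ (H.π t) = tw t := fun t => by rw [hπ]; exact hφt t
  refine ⟨φ, hloc, hsurj, hφt, ?_, ?_⟩
  · intro ℓ hℓ hℓN hℓS A hA σ hσ
    have h1 := charpoly_frob_push H φ.toRingHom hloc ℓ hℓ hℓN hℓS A hA σ hσ
    rw [h1]
    congr 3
    exact congrArg _ (hφH _)
  · have hstrict : (pushRep H φ.toRingHom hloc).IsStrictOrdinaryAt p :=
      isStrictOrdinaryAt_pushRep_of_ann_res_odd hp2 hp𝒪 h hpS hNS hC H
        hres φ.toRingHom hloc hsurj Λ'
        (fun t₀ ht₀ => by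
          have h2 := Fermat.Agent.GB.B10.L.GalPkgSO.map_piT_eq_twO H tw φ hφH t₀
          rw [hann t₀ ht₀] at h2
          exact h2)
        hY
    exact Fermat.Agent.GB.B10.L.GalPkgSO.strictCond_push_of_strictQ hp hp𝒪 hpS hNS H φ.toRingHom
      hloc hstrict Tram Smin hST hSmin

end Gal

/-! ### the target Prop of RISK-3 DESIDE -/

/-- **`ConnOddStmt → GalPkgSONewStmt`**: the de-sided SO Galois package on the `p`-new lattice
(helper11's consumer-side Prop) from the connected package at odd level, shifted form. -/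
theorem galPkgSONewStmt_of_connOdd (hC : Fermat.Agent.GE8.Deside.ConnOddStmt.ConnOddStmt) :
    Fermat.Agent.GE9.Stage.NoSide.GalPkgSONewStmt := by
  intro N' p _ _ S 𝒪 _ _ _ _ _ _ θ TQ _ _ _ _ hp2 hp𝒪 h hpS hNS H hπ hres tw htw hgen Tram Smin
    hST hSmin hann
  exact exists_galRep_strict_of_ann_odd (TQ := TQ) hp2 hp𝒪 h hpS hNS (connOddAt_of_stmt hC hp2 h hpS hNS) H hπ hres
    tw htw hgen Tram Smin hST hSmin (LamNew (Fermat.Agent.GB.B10.L.StrictQNew.not_dvd_of_exactDvd h)) hann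
    (hY_lamNew h hpS hNS (Fermat.Agent.GB.B10.L.StrictQNew.not_dvd_of_exactDvd h))

end Fermat.Agent.GE8.Deside.StrictQOdd
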