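/-
GATE-E / RISK-3 DESIDE, route (C) closing one-liner (helper39): the strict-ordinary Galois package
on the `p`-new lattice WITHOUT the side condition `p = 3 → 2 ∣ N' p`, binder-free, by route (C):
`StrictQOdd.galPkgSONewStmt_of_connOdd` (helper39, 51e49abd) applied to `ConnOdd.connOddStmt`
(helper69, 2de19081).  Second, independent proof of the stage half closed by (D2).
-/
import Fermat.Agent.GE8.Deside.StrictQOdd
import Fermat.Agent.GE8.Deside.ConnOdd

set_option autoImplicit false

namespace Fermat.Agent.GE8.Deside.GalPkgSOOdd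

/-- **`GalPkgSONewStmt`, binder-free, via route (C).** -/
theorem galPkgSONewStmt_odd : Fermat.Agent.GE9.Stage.NoSide.GalPkgSONewStmt :=
  Fermat.Agent.GE8.Deside.StrictQOdd.galPkgSONewStmt_of_connOdd
    Fermat.Agent.GE8.Deside.ConnOdd.connOddStmt

end Fermat.Agent.GE8.Deside.GalPkgSOOdd
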