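/-
GATE-E / RISK-3 DESIDE, seam file (helper11): **the level cast of the anemic Hecke algebra.**

The landed SO Galois package `GB/B10/L/GalPkgSO.exists_galRep_strict_of_ann` wants its level in the
LITERAL form `N'' * p`; at the even level of DESIDE this is `(N' * 2) * p`, while the level-raising
tools (`GE9/OldQ/Commute.resLin`, helper81's `LevelRes`) produce the level `(N' * p) * 2`.  The two
Hecke algebras are identified by the identity on operators: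

* `exists_heckeAlgebra_cast` : for `e : M₁ = M₂` a ring isomorphism
  `heckeAlgebra M₁ k S ≃+* heckeAlgebra M₂ k S` with `T_ℓ ↦ T_ℓ` and `U_q ↦ U_q`;
* `exists_heckeAlgebra_cast_comm` : the instance `M₁ := N' * 2 * p`, `M₂ := N' * p * 2` (any `a b c`).

Mathlib + Prelude only.
-/
import Mathlib
import Fermat.Prelude.Def_CuspForm_HeckeAlgebra

set_option autoImplicit false

namespace Fermat.Agent.GE8.Deside.LevelCast

open CuspForm

/-- **the cast of the anemic Hecke algebra along an equality of levels** (identity on the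
generators). -/
theorem exists_heckeAlgebra_cast {M₁ M₂ : ℕ} [NeZero M₁] [NeZero M₂] (e : M₁ = M₂) (k : ℕ)
    (S : Set ℕ) :
    ∃ c : heckeAlgebra M₁ k S ≃+* heckeAlgebra M₂ k S,
      (∀ (ℓ : ℕ) (hℓ : ℓ.Prime) (h₁ : ¬ ℓ ∣ M₁) (h₂ : ¬ ℓ ∣ M₂) (hℓS : ℓ ∉ S),
        c (heckeAlgebra.T hℓ h₁ hℓS) = heckeAlgebra.T hℓ h₂ hℓS) ∧
      (∀ (q : ℕ) (hq : q.Prime) (h₁ : q ∣ M₁) (h₂ : q ∣ M₂) (hqS : q ∉ S),
        c (heckeAlgebra.U hq h₁ hqS) = heckeAlgebra.U hq h₂ hqS) := by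
  subst e
  exact ⟨RingEquiv.refl _, fun _ _ _ _ _ => rfl, fun _ _ _ _ _ => rfl⟩

/-- the instance used by DESIDE: `a * b * c` versus `a * c * b`. -/
theorem exists_heckeAlgebra_cast_comm (a b c : ℕ) [NeZero (a * b * c)] [NeZero (a * c * b)]
    (k : ℕ) (S : Set ℕ) :
    ∃ e : heckeAlgebra (a * b * c) k S ≃+* heckeAlgebra (a * c * b) k S,
      (∀ (ℓ : ℕ) (hℓ : ℓ.Prime) (h₁ : ¬ ℓ ∣ a * b * c) (h₂ : ¬ ℓ ∣ a * c * b) (hℓS : ℓ ∉ S),
        e (heckeAlgebra.T hℓ h₁ hℓS) = heckeAlgebra.T hℓ h₂ hℓS) ∧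
      (∀ (q : ℕ) (hq : q.Prime) (h₁ : q ∣ a * b * c) (h₂ : q ∣ a * c * b) (hqS : q ∉ S),
        e (heckeAlgebra.U hq h₁ hqS) = heckeAlgebra.U hq h₂ hqS) :=
  exists_heckeAlgebra_cast (Nat.mul_right_comm a b c) k S

end Fermat.Agent.GE8.Deside.LevelCast
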