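/-
GATE-E / RISK-3 (DESIDE), leaf (R1) of helper57's node table 7617 (helper33): **the residual
representation over `k = ResidueField 𝒪` of a `HeckeGaloisRepDatum`** (general carrier `T`, any
`S : Set ℕ`).

`H.ρ.residual` lives over `k_T = ResidueField T`; `ι := ResidueField.map (algebraMap 𝒪 T) : k → k_T`
is bijective (`H.residue_surjective`), and `ρbar := H.ρ.residual ⊗_{ι⁻¹} k` has

* `ρbar.IsAbsolutelyIrreducible`                                   (`H.residual_absIrr`);
* `charpoly ρbar(Frob_ℓ) = X² − θ(T_ℓ) X + ℓ`, `ℓ ∤ N`, `ℓ ∉ S`     (`H.charpoly_frob`, `H.residue_π`);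
* `H.ρ.residual ≅ ρbar ⊗_ι k_T`;
* `H.ρ.residual` ordinary / strictly ordinary at `p` ⟹ `ρbar` ordinary / strictly ordinary at `p`.

These are the inputs `(ρbar, habs, hfrob, hres, hordbar)` of `GB/Glue/DatumOfRhobar.exists_datum`
and `GB/B10/L/GalPkgSO.exists_galRep_strict_of_rhobar` at the EVEN level `L₂` (`θ₂ := θ ∘ r`).

Also `isOrdinaryAt_baseChangeAlong` : the frozen (non-strict) `IsOrdinaryAt` is stable under base
change along a local hom (twin of `GP/Tan/BaseChangeCond.isStrictOrdinaryAt_baseChangeAlong`).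
-/
import Mathlib
import Fermat.Agent.GB.Glue.Habs
import Fermat.Agent.GE7.TateAbs.ResidualBC
import Fermat.Agent.GB.ResOrd.StrictTransport
import Fermat.Prelude.Def_CuspForm_HeckeGaloisRepDatum

set_option autoImplicit false
set_option linter.unusedSectionVars false
set_option linter.style.haveILetI false

open scoped TensorProduct
open IsLocalRing Polynomial CuspForm

namespace Fermat.Agent.GE8.Deside.RhobarOfDatum

local notation "GQ" => (AlgebraicClosure ℚ ≃ₐ[ℚ] AlgebraicClosure ℚ)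
local notation "Qb" => AlgebraicClosure ℚ

open Fermat.Agent.GP.Tan Fermat.Agent.GP.Top Fermat.Agent.S53_helper35

/-! ### the frozen `IsOrdinaryAt` under base change -/

section Ord

variable {A B : Type} [CommRing A] [CommRing B]

/-- core of the ordinary base change, in explicit tensor-product form. -/
theorem baseChangeAlong_ordinary_core [Algebra A B] {V : Type} [AddCommGroup V]
    [Module A V] {G : Type} (r : G → Module.End A V) (D I : Set G)
    (h : ∃ L : Submodule A V,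
      (∃ b : Module.Basis (Fin 2) A V, L = Submodule.span A {b 0}) ∧
      (∀ σ ∈ D, ∀ v ∈ L, r σ v ∈ L) ∧
      (∀ σ ∈ I, ∀ v : V, r σ v - v ∈ L)) :
    ∃ L : Submodule B (B ⊗[A] V),
      (∃ b : Module.Basis (Fin 2) B (B ⊗[A] V), L = Submodule.span B {b 0}) ∧
      (∀ σ ∈ D, ∀ v ∈ L, (r σ).baseChange B v ∈ L) ∧
      (∀ σ ∈ I, ∀ v : B ⊗[A] V, (r σ).baseChange B v - v ∈ L) := by
  obtain ⟨L, ⟨b, hb⟩, hD, hI⟩ := h
  have hb0 : b 0 ∈ L := hb ▸ Submodule.mem_span_singleton_self (b 0)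
  refine ⟨Submodule.span B {(1 : B) ⊗ₜ[A] b 0}, ⟨b.baseChange B, ?_⟩, ?_, ?_⟩
  · rw [Module.Basis.baseChange_apply]
  · intro σ hσ w hw
    obtain ⟨c, rfl⟩ := Submodule.mem_span_singleton.1 hw
    rw [map_smul, LinearMap.baseChange_tmul]
    exact Submodule.smul_mem _ _
      (baseChangeAlong_tmul_mem_span (b 0) (hb ▸ hD σ hσ (b 0) hb0) 1)
  · intro σ hσ w
    have h1 := baseChangeAlong_baseChange_sub_smul_mem_span (B := B) (b 0) (r σ) 1
      (fun v => by rw [one_smul]; exact hb ▸ hI σ hσ v) w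
    rwa [map_one, one_smul] at h1

variable [IsLocalRing A] [IsLocalRing B]

/-- the frozen `IsOrdinaryAt` is stable under base change along a local hom. -/
theorem isOrdinaryAt_baseChangeAlong (φ : A →+* B) (hφ : IsLocalHom φ)
    {ρ : GaloisRepAdic A} {p : ℕ} (h : ρ.IsOrdinaryAt p) :
    (ρ.baseChangeAlong φ hφ).IsOrdinaryAt p := by
  let _ : Algebra A B := φ.toAlgebra
  intro P hP
  exact baseChangeAlong_ordinary_core (B := B) (fun σ => ρ.ρ σ)
    (P.decompositionSubgroup ℚ : Set GQ) (P.inertiaSubgroupIn ℚ : Set GQ) (h P hP)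

/-- residual form (twin of `GB/ResOrd/Plug.isOrdinaryAt_baseChangeAlong`, lighter imports). -/
theorem isOrdinaryAt_baseChangeAlong_residual {k₀ : Type} [Field k₀]
    (ρ : ResidualGaloisRep k₀) {k : Type} [Field k] (φ : k₀ →+* k) {p : ℕ}
    (h : (GaloisRepAdic.ofResidualGaloisRep ρ).IsOrdinaryAt p) :
    (GaloisRepAdic.ofResidualGaloisRep (ρ.baseChangeAlong φ)).IsOrdinaryAt p := by
  have h1 : ((GaloisRepAdic.ofResidualGaloisRep ρ).baseChangeAlong φ
      (isLocalHom_of_field φ)).IsOrdinaryAt p :=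
    isOrdinaryAt_baseChangeAlong φ (isLocalHom_of_field φ) h
  exact h1

end Ord

/-! ### base change of residual representations along the identity -/

/-- `ρ ⊗_{id} k ≅ ρ`. -/
theorem resBaseChangeAlong_isEquiv_of_eq_id {k : Type} [Field k] (ρ : ResidualGaloisRep k)
    (ψ : k →+* k) (h : ψ = RingHom.id k) : (ρ.baseChangeAlong ψ).IsEquiv ρ := by
  set b := stdBasisRes ρ
  obtain ⟨e1⟩ := baseChangeAlong_isEquiv_ofMatRes ψ ρ b
  have hm : mapMat ψ (toMatRes ρ b) = toMatRes ρ b := by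
    subst h
    refine MonoidHom.ext fun σ => ?_
    rw [mapMat_apply]
    ext i j
    rfl
  obtain ⟨e2⟩ := isEquiv_ofMatRes_of_eq (resCont_mapMat ψ (resCont_toMatRes ρ b))
    (resCont_toMatRes ρ b) hm
  exact ⟨(e1.trans e2).trans (equivOfMatResToMatRes ρ b).symm⟩

/-! ### the residual representation over `k` of a datum -/

section Datum

variable {N : ℕ} [NeZero N] {S : Set ℕ}
  {𝒪 : Type} [CommRing 𝒪] [IsDomain 𝒪] [IsDiscreteValuationRing 𝒪]
  [IsAdicComplete (IsLocalRing.maximalIdeal 𝒪) 𝒪]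
  {θ : heckeAlgebra N 2 S →+* IsLocalRing.ResidueField 𝒪}
  {T : Type} [CommRing T] [IsLocalRing T] [IsNoetherianRing T]
  [IsAdicComplete (IsLocalRing.maximalIdeal T) T] [Algebra 𝒪 T] [IsLocalHom (algebraMap 𝒪 T)]
  [Module.Finite 𝒪 T] [Module.Free 𝒪 T]

/-- `ResidueField.map (algebraMap 𝒪 T)` is onto for a datum. -/
theorem residueFieldMap_surjective (H : HeckeGaloisRepDatum N S 𝒪 θ T) :
    Function.Surjective (ResidueField.map (algebraMap 𝒪 T)) := by
  intro y
  obtain ⟨a, ha⟩ := H.residue_surjective y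
  refine ⟨residue 𝒪 a, ?_⟩
  rw [ResidueField.map_residue]
  exact ha

/-- **(R1)**: the residual representation over `k = ResidueField 𝒪` of a datum. -/
theorem exists_rhobar_of_datum (H : HeckeGaloisRepDatum N S 𝒪 θ T) :
    ∃ ρbar : ResidualGaloisRep (ResidueField 𝒪), ρbar.IsAbsolutelyIrreducible ∧
      (∀ (ℓ : ℕ) (hℓ : ℓ.Prime) (hℓN : ¬ ℓ ∣ N) (hℓS : ℓ ∉ S),
        ∀ P : ValuationSubring Qb, P.LiesOverPrime ℓ → ∀ σ : GQ, P.IsFrobeniusAt σ ℓ →
          LinearMap.charpoly (ρbar.ρ σ) =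
            X ^ 2 - C (θ (heckeAlgebra.T hℓ hℓN hℓS)) * X + C ((ℓ : ResidueField 𝒪))) ∧
      H.ρ.residual.IsEquiv (ρbar.baseChangeAlong (ResidueField.map (algebraMap 𝒪 T))) ∧
      (∀ p : ℕ, (GaloisRepAdic.ofResidualGaloisRep H.ρ.residual).IsOrdinaryAt p →
        (GaloisRepAdic.ofResidualGaloisRep ρbar).IsOrdinaryAt p) ∧
      (∀ p : ℕ, (GaloisRepAdic.ofResidualGaloisRep H.ρ.residual).IsStrictOrdinaryAt p →
        (GaloisRepAdic.ofResidualGaloisRep ρbar).IsStrictOrdinaryAt p) := by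
  set ι : ResidueField 𝒪 →+* ResidueField T := ResidueField.map (algebraMap 𝒪 T) with hι
  have hbij : Function.Bijective ι := ⟨ι.injective, residueFieldMap_surjective H⟩
  let E : ResidueField 𝒪 ≃+* ResidueField T := RingEquiv.ofBijective ι hbij
  let ι' : ResidueField T →+* ResidueField 𝒪 := E.symm.toRingHom
  have hι'ι : ∀ x, ι' (ι x) = x := fun x => E.symm_apply_apply x
  have hcomp : ι.comp ι' = RingHom.id (ResidueField T) :=
    RingHom.ext fun y => E.apply_symm_apply y
  refine ⟨H.ρ.residual.baseChangeAlong ι',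
    Fermat.Agent.GB.Glue.Habs.isAbsolutelyIrreducible_baseChangeAlong ι' _ H.residual_absIrr,
    ?_, ?_, ?_, ?_⟩
  · intro ℓ hℓ hℓN hℓS P hP σ hσ
    rw [Fermat.Agent.GB.Glue.Habs.charpoly_baseChangeAlong,
      Fermat.Agent.GB.Glue.Habs.charpoly_residual, H.charpoly_frob ℓ hℓ hℓN hℓS P hP σ hσ]
    simp only [Polynomial.map_sub, Polynomial.map_add, Polynomial.map_mul, Polynomial.map_pow,
      Polynomial.map_X, Polynomial.map_C, map_natCast, Polynomial.map_natCast]
    rw [H.residue_π, ← hι, hι'ι]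
  · obtain ⟨e1⟩ := Fermat.Agent.GE7.TateAbs.resBaseChangeAlong_comp_isEquiv H.ρ.residual ι' ι
    obtain ⟨e2⟩ := resBaseChangeAlong_isEquiv_of_eq_id H.ρ.residual (ι.comp ι') hcomp
    exact ⟨(e1.trans e2).symm⟩
  · intro p h
    exact isOrdinaryAt_baseChangeAlong_residual H.ρ.residual ι' h
  · intro p h
    exact Fermat.Agent.GB.ResOrd.StrictTransport.isStrictOrdinaryAt_baseChangeAlong_residual
      H.ρ.residual ι' h

end Datum

end Fermat.Agent.GE8.Deside.RhobarOfDatum
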